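import Mathlib

/-!
# Certified truncated power-series arithmetic

`Agree n f a` says that the coefficients of index `< n` of the power series `f` are the integers
listed in `a`.  The list operations `lmul`, `ladd`, ... are kernel-computable, so that statements
`lmul n a b = c` about literal lists are proved by `decide +kernel`.
-/

set_option autoImplicit false

namespace Fermat.Agent.S30.Haupt.Trunc

open PowerSeries

variable {R : Type*} [CommRing R]

/-- For `i < n`, the `i`-th coefficient of `f` is the integer `a[i]` (`0` past the end). -/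
def Agree (n : ℕ) (f : PowerSeries R) (a : List ℤ) : Prop :=
  ∀ i, i < n → coeff i f = ((a.getD i 0 : ℤ) : R)

/-- The list of the first `n` values of a function. -/
def tab (n : ℕ) (F : ℕ → ℤ) : List ℤ := (List.range n).map F

theorem getD_tab (n : ℕ) (F : ℕ → ℤ) (i : ℕ) (hi : i < n) : (tab n F).getD i 0 = F i := by
  simp [tab, List.getD_eq_getElem?_getD, hi]

theorem list_sum_map_range {M : Type*} [AddCommMonoid M] (F : ℕ → M) (n : ℕ) :
    ((List.range n).map F).sum = ∑ i ∈ Finset.range n, F i := by
  induction n with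
  | zero => simp
  | succ n ih => rw [List.range_succ, List.map_append, List.sum_append, ih, Finset.sum_range_succ]; simp

/-- truncated product -/
def lmul (n : ℕ) (a b : List ℤ) : List ℤ :=
  tab n fun k => ((List.range (k + 1)).map fun i => a.getD i 0 * b.getD (k - i) 0).sum

/-- truncated sum -/
def ladd (n : ℕ) (a b : List ℤ) : List ℤ := tab n fun k => a.getD k 0 + b.getD k 0

/-- truncated difference -/
def lsub (n : ℕ) (a b : List ℤ) : List ℤ := tab n fun k => a.getD k 0 - b.getD k 0

/-- truncated power -/
def lpow (n : ℕ) (a : List ℤ) : ℕ → List ℤ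
  | 0 => [1]
  | k + 1 => lmul n (lpow n a k) a

theorem Agree.of_eq {n : ℕ} {f : PowerSeries R} {a b : List ℤ} (h : Agree n f a) (e : a = b) :
    Agree n f b := e ▸ h

theorem Agree.congr {n : ℕ} {f g : PowerSeries R} {a : List ℤ} (h : Agree n f a) (e : f = g) :
    Agree n g a := e ▸ h

theorem Agree.mono {n m : ℕ} {f : PowerSeries R} {a : List ℤ} (h : Agree n f a) (hm : m ≤ n) :
    Agree m f a := fun i hi => h i (lt_of_lt_of_le hi hm)

theorem Agree.mul {n : ℕ} {f g : PowerSeries R} {a b : List ℤ} (hf : Agree n f a)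
    (hg : Agree n g b) : Agree n (f * g) (lmul n a b) := by
  intro k hk
  rw [lmul, getD_tab _ _ _ hk, coeff_mul,
    Finset.Nat.sum_antidiagonal_eq_sum_range_succ (fun i j => coeff i f * coeff j g),
    list_sum_map_range, Int.cast_sum]
  refine Finset.sum_congr rfl fun i hi => ?_
  have hi' : i < k + 1 := Finset.mem_range.mp hi
  rw [hf i (by omega), hg (k - i) (by omega), Int.cast_mul]

theorem Agree.add {n : ℕ} {f g : PowerSeries R} {a b : List ℤ} (hf : Agree n f a)
    (hg : Agree n g b) : Agree n (f + g) (ladd n a b) := by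
  intro k hk
  rw [ladd, getD_tab _ _ _ hk, map_add, hf k hk, hg k hk, Int.cast_add]

theorem Agree.sub {n : ℕ} {f g : PowerSeries R} {a b : List ℤ} (hf : Agree n f a)
    (hg : Agree n g b) : Agree n (f - g) (lsub n a b) := by
  intro k hk
  rw [lsub, getD_tab _ _ _ hk, map_sub, hf k hk, hg k hk, Int.cast_sub]

theorem agree_one (n : ℕ) : Agree n (1 : PowerSeries R) [1] := by
  intro i _
  rcases i with _ | i
  · simp
  · simp [coeff_one]

theorem agree_intCast (n : ℕ) (c : ℤ) : Agree n ((c : ℤ) : PowerSeries R) [c] := by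
  intro i _
  have h : ((c : ℤ) : PowerSeries R) = C ((c : ℤ) : R) := by simp
  rw [h, coeff_C]
  rcases i with _ | i
  · simp
  · simp

theorem agree_X (n : ℕ) : Agree n (X : PowerSeries R) [0, 1] := by
  intro i _
  rw [coeff_X]
  rcases i with _ | _ | i
  · simp
  · simp
  · simp

theorem Agree.pow {n : ℕ} {f : PowerSeries R} {a : List ℤ} (hf : Agree n f a) (k : ℕ) :
    Agree n (f ^ k) (lpow n a k) := by
  induction k with
  | zero => simpa [lpow] using agree_one (R := R) n
  | succ k ih => rw [pow_succ]; exact ih.mul hf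

theorem Agree.map {S : Type*} [CommRing S] (φ : R →+* S) {n : ℕ} {f : PowerSeries R}
    {a : List ℤ} (hf : Agree n f a) : Agree n (f.map φ) a := by
  intro i hi
  rw [coeff_map, hf i hi, map_intCast]

/-- all coefficients below `n` vanish -/
theorem Agree.coeff_eq_zero {n : ℕ} {f : PowerSeries R} (hf : Agree n f (List.replicate n 0))
    (i : ℕ) (hi : i < n) : coeff i f = 0 := by
  rw [hf i hi]
  simp [hi]

/-- read off one coefficient -/
theorem Agree.coeff_eq {n : ℕ} {f : PowerSeries R} {a : List ℤ} (hf : Agree n f a)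
    (i : ℕ) (hi : i < n) (c : ℤ) (hc : a.getD i 0 = c) : coeff i f = (c : R) := by
  rw [hf i hi, hc]

end Fermat.Agent.S30.Haupt.Trunc
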