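import Mathlib
import Fermat.Agent.S28.SturmMF
import Fermat.Agent.Lib.Gamma0Index
import Fermat.Agent.S30.Haupt.Trunc

/-!
# Hauptmodul identities: the common certified data

Coefficients of `E₄`, of the eta product and of `Δ`, the substitution `q ↦ q^d` on certificates,
and the Sturm bound in certificate form.
-/

set_option autoImplicit false

noncomputable section

namespace Fermat.Agent.S30.Haupt.Base

open PowerSeries ModularCurve CongruenceSubgroup
open Fermat.Agent.S28.SturmDep Fermat.Agent.S28.SturmMF Fermat.Agent.S30.Haupt.Trunc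
open scoped PowerSeries.WithPiTopology

/-! ### The eta product modulo `X ^ (m + 1)` -/

/-- the factors of the eta product -/
def etaFac (i : ℕ) : PowerSeries ℤ := 1 - X ^ (i + 1)

theorem etaProd_eq : etaProd = ∏' i : ℕ, etaFac i := rfl

theorem coeff_mul_of_dvd_sub_one {m : ℕ} (P g : PowerSeries ℤ)
    (hg : (X : PowerSeries ℤ) ^ (m + 1) ∣ g - 1) (k : ℕ) (hk : k ≤ m) :
    coeff k (P * g) = coeff k P := by
  obtain ⟨c, hc⟩ := hg
  have h : P * g = P + X ^ (m + 1) * (P * c) := by
    have : g = 1 + X ^ (m + 1) * c := by rw [← hc]; ring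
    rw [this]; ring
  rw [h, map_add, coeff_X_pow_mul', if_neg (by omega), add_zero]

theorem dvd_prod_sub_one {m : ℕ} (s : Finset ℕ) (hs : ∀ i ∈ s, m ≤ i) :
    (X : PowerSeries ℤ) ^ (m + 1) ∣ (∏ i ∈ s, etaFac i) - 1 := by
  classical
  induction s using Finset.induction_on with
  | empty => simp
  | insert i s hi ih =>
    rw [Finset.prod_insert hi]
    have h1 : (X : PowerSeries ℤ) ^ (m + 1) ∣ etaFac i - 1 := by
      have hmi : m ≤ i := hs i (Finset.mem_insert_self i s)
      have : etaFac i - 1 = - X ^ (i + 1) := by rw [etaFac]; ring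
      rw [this]
      exact (pow_dvd_pow X (by omega)).neg_right
    have h2 := ih fun j hj => hs j (Finset.mem_insert_of_mem hj)
    have : etaFac i * ∏ j ∈ s, etaFac j - 1
        = (etaFac i - 1) * ∏ j ∈ s, etaFac j + ((∏ j ∈ s, etaFac j) - 1) := by ring
    rw [this]
    exact dvd_add (Dvd.dvd.mul_right h1 _) h2

/-- The eta product agrees with its `m`-th partial product up to degree `m`. -/
theorem coeff_etaProd (m k : ℕ) (hk : k ≤ m) :
    coeff k etaProd = coeff k (∏ i ∈ Finset.range m, etaFac i) := by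
  have hmul : Multipliable etaFac := PowerSeries.WithPiTopology.multipliable_one_sub_X_pow ℤ
  have h1 : Filter.Tendsto (fun s : Finset ℕ => coeff k (∏ i ∈ s, etaFac i)) Filter.atTop
      (nhds (coeff k etaProd)) := by
    rw [etaProd_eq]
    exact ((PowerSeries.WithPiTopology.continuous_coeff (R := ℤ) k).tendsto _).comp hmul.hasProd
  have h2 : Filter.Tendsto (fun s : Finset ℕ => coeff k (∏ i ∈ s, etaFac i)) Filter.atTop
      (nhds (coeff k (∏ i ∈ Finset.range m, etaFac i))) := by
    refine tendsto_const_nhds.congr' ?_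
    filter_upwards [Filter.eventually_ge_atTop (Finset.range m)] with s hs
    classical
    have hsplit : ∏ i ∈ s, etaFac i
        = (∏ i ∈ Finset.range m, etaFac i) * ∏ i ∈ s \ Finset.range m, etaFac i := by
      rw [mul_comm]
      exact (Finset.prod_sdiff hs).symm
    rw [hsplit]
    refine (coeff_mul_of_dvd_sub_one _ _ (dvd_prod_sub_one _ fun i hi => ?_) k hk).symm
    have := (Finset.mem_sdiff.mp hi).2
    simpa using this
  exact tendsto_nhds_unique h1 h2

/-! ### Certificates for `E₄`, the eta product and `Δ` -/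

/-- certificate of the partial eta products -/
def letaPartial (n : ℕ) : ℕ → List ℤ
  | 0 => [1]
  | m + 1 => lmul n (letaPartial n m) (lsub n [1] (lpow n [0, 1] (m + 1)))

theorem agree_etaPartial (n m : ℕ) :
    Agree n (∏ i ∈ Finset.range m, etaFac i) (letaPartial n m) := by
  induction m with
  | zero => simpa [letaPartial] using agree_one (R := ℤ) n
  | succ m ih =>
    rw [Finset.prod_range_succ]
    exact ih.mul ((agree_one n).sub ((agree_X n).pow (m + 1)))

theorem agree_etaProd : Agree 10 etaProd [1, -1, -1, 0, 0, 1, 0, 1, 0, 0] := by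
  have h : Agree 10 etaProd (letaPartial 10 9) := by
    intro i hi
    rw [coeff_etaProd 9 i (by omega)]
    exact agree_etaPartial 10 9 i hi
  exact h.of_eq (by decide +kernel)

theorem agree_eta3 : Agree 10 (etaProd ^ 3) [1, -3, 0, 5, 0, 0, -7, 0, 0, 0] :=
  (agree_etaProd.pow 3).of_eq (by decide +kernel)

theorem agree_eta6 : Agree 10 (etaProd ^ 6) [1, -6, 9, 10, -30, 0, 11, 42, 0, -70] :=
  ((agree_eta3.pow 2).congr (by ring)).of_eq (by decide +kernel)

theorem agree_eta12 :
    Agree 10 (etaProd ^ 12) [1, -12, 54, -88, -99, 540, -418, -648, 594, 836] :=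
  ((agree_eta6.pow 2).congr (by ring)).of_eq (by decide +kernel)

theorem agree_eta24 : Agree 10 dedekindEtaUnit
    [1, -24, 252, -1472, 4830, -6048, -16744, 84480, -113643, -115920] :=
  ((agree_eta12.pow 2).congr (by rw [dedekindEtaUnit]; ring)).of_eq (by decide +kernel)

/-- the coefficients of `Δ` -/
theorem agree_deltaQ : Agree 10 deltaQ
    [0, 1, -24, 252, -1472, 4830, -6048, -16744, 84480, -113643] :=
  ((agree_X 10).mul (agree_eta24.map (Int.castRingHom ℚ))).of_eq (by decide +kernel)

theorem agree_eisenstein4 : Agree 10 eisenstein4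
    [1, 240, 2160, 6720, 17520, 30240, 60480, 82560, 140400, 181680] := by
  intro i hi
  rw [eisenstein4, coeff_mk]
  interval_cases i <;> decide +kernel

/-- the coefficients of `E₄` -/
theorem agree_e4Q : Agree 10 e4Q
    [1, 240, 2160, 6720, 17520, 30240, 60480, 82560, 140400, 181680] :=
  agree_eisenstein4.map (Int.castRingHom ℚ)

/-! ### The substitution `q ↦ q ^ d` -/

/-- certificate of `q ↦ q ^ d` -/
def lexp (n d : ℕ) (a : List ℤ) : List ℤ :=
  tab n fun k => if d ∣ k then a.getD (k / d) 0 else 0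

theorem agree_pexp {R : Type*} [CommRing R] {n : ℕ} {f : PowerSeries R} {a : List ℤ}
    (hf : Agree n f a) (d : ℕ) : Agree n (pexp d f) (lexp n d a) := by
  intro k hk
  rw [lexp, getD_tab _ _ _ hk, coeff_pexp]
  split_ifs with h
  · exact hf _ (lt_of_le_of_lt (Nat.div_le_self k d) hk)
  · simp

theorem pexp_map {R S : Type*} [CommRing R] [CommRing S] (φ : R →+* S) (d : ℕ)
    (a : PowerSeries R) : pexp d (a.map φ) = (pexp d a).map φ := by
  ext n
  simp only [coeff_pexp, coeff_map]
  split_ifs <;> simp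

theorem pexp_mul (d : ℕ) [NeZero d] (a b : PowerSeries ℚ) :
    pexp d (a * b) = pexp d a * pexp d b := by
  apply Graded.emb_injective
  rw [emb_pexp, map_mul, map_mul, map_mul, emb_pexp, emb_pexp]

theorem pexp_pow (d : ℕ) [NeZero d] (a : PowerSeries ℚ) (k : ℕ) :
    pexp d (a ^ k) = pexp d a ^ k := by
  apply Graded.emb_injective
  rw [emb_pexp, map_pow, map_pow, map_pow, emb_pexp]

theorem pexp_X (d : ℕ) [NeZero d] : pexp d (X : PowerSeries ℚ) = X ^ d := by
  ext n
  rw [coeff_pexp, coeff_X_pow]
  by_cases h : n = d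
  · subst h
    rw [if_pos dvd_rfl, if_pos rfl, Nat.div_self (Nat.pos_of_ne_zero (NeZero.ne n)), coeff_one_X]
  · rw [if_neg h]
    split_ifs with hd
    · obtain ⟨c, rfl⟩ := hd
      rw [Nat.mul_div_cancel_left c (Nat.pos_of_ne_zero (NeZero.ne d)), coeff_X, if_neg]
      rintro rfl
      exact h (mul_one d)
    · rfl

/-! ### The Sturm bound in certificate form -/

theorem dedekindPsi_prime {p : ℕ} (hp : p.Prime) : dedekindPsi p = p + 1 := by
  rw [dedekindPsi, hp.divisors, Finset.filter_true_of_mem, Finset.sum_pair hp.one_lt.ne,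
    Nat.div_one, Nat.div_self hp.pos]
  intro d hd
  rw [Finset.mem_insert, Finset.mem_singleton] at hd
  rcases hd with rfl | rfl
  · exact squarefree_one
  · exact hp.squarefree

theorem index_Gamma0_two : (Gamma0 2).index = 3 := by
  rw [Fermat.Agent.Lib.Gamma0Count.index_Gamma0 2 (by norm_num), dedekindPsi_prime Nat.prime_two]

theorem index_Gamma0_three : (Gamma0 3).index = 4 := by
  rw [Fermat.Agent.Lib.Gamma0Count.index_Gamma0 3 (by norm_num),
    dedekindPsi_prime Nat.prime_three]

/-- A rational `q`-expansion of weight `k` on `Γ₀(N)` whose first `n > k ψ(N) / 12`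
coefficients vanish is zero. -/
theorem eq_zero_of_agree (N : ℕ) [NeZero N] (k ψ : ℕ) (hψ : (Gamma0 N).index = ψ)
    {a : PowerSeries ℚ} (ha : a ∈ (mfGraded N).M k) {n : ℕ} (hn : k * ψ / 12 < n)
    (h : Agree n a (List.replicate n 0)) : a = 0 :=
  (mfGraded N).sturm k a ha fun m hm => h.coeff_eq_zero m (by rw [hψ] at hm; omega)

theorem intCast_mul_mem {n : ℕ} (S : Graded n) {k : ℕ} (c : ℤ) {a : PowerSeries ℚ}
    (ha : a ∈ S.M k) : ((c : ℤ) : PowerSeries ℚ) * a ∈ S.M k := by
  rw [← zsmul_eq_mul]
  exact zsmul_mem ha c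

end Fermat.Agent.S30.Haupt.Base
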