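import Mathlib
import Fermat.Agent.S30.Haupt.Base

/-!
# The Hauptmodul of `Γ₀(3)` and the `j`-function

`s3 = (η(q³)/η(q))¹² = q ∏ ((1 - q³ⁿ)/(1 - qⁿ))¹²` (an integral power series `q + …`) satisfies

* `s3² = Δ(q³)/Δ(q)` and `E₄(q) - E₄(q³) = 3 s3 (81 E₄(q³) - E₄(q))` (so `s3` is a weight-zero
  quotient of level `Γ₀(3)`: no square root of a modular function is needed),
* `jq * s3 = (1 + 27 s3) (1 + 243 s3)³`,
* `(jq - 1728) * s3 = (1 - 486 s3 - 19683 s3²)²`,
* `j(q³) * s3³ = (1 + 27 s3) (1 + 3 s3)³`.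

Three identities between modular forms of weights `20, 16, 16` on `Γ₀(3)` are checked on `10`
coefficients (Sturm bound of the Prelude, through `S28.SturmMF.mfGraded`).
-/

set_option autoImplicit false

noncomputable section

namespace Fermat.Agent.S30.Haupt.Three

open PowerSeries ModularCurve CongruenceSubgroup
open Fermat.Agent.S28.SturmDep Fermat.Agent.S28.SturmMF
open Fermat.Agent.S30.Haupt.Trunc Fermat.Agent.S30.Haupt.Base

/-! ### The three Sturm identities -/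

local notation "A" => e4Q
local notation "B" => pexp 3 e4Q
local notation "ic" c => ((c : ℤ) : PowerSeries ℚ)

theorem A_sub_B_mem : A - B ∈ (mfGraded 3).M 4 :=
  Submodule.sub_mem _ (e4Q_mem 3) (pexp_e4Q_mem 3 dvd_rfl)

theorem den_mem : (ic 81) * B - A ∈ (mfGraded 3).M 4 :=
  Submodule.sub_mem _ (intCast_mul_mem _ 81 (pexp_e4Q_mem 3 dvd_rfl)) (e4Q_mem 3)

theorem A_add_B_mem : A + (ic 9) * B ∈ (mfGraded 3).M 4 :=
  Submodule.add_mem _ (e4Q_mem 3) (intCast_mul_mem _ 9 (pexp_e4Q_mem 3 dvd_rfl))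

theorem agree_A_sub_B : Agree 10 (A - B) [0, 240, 2160, 6480, 17520, 30240, 58320, 82560, 140400, 174960] :=
  (agree_e4Q.sub (agree_pexp agree_e4Q 3)).of_eq (by decide +kernel)

theorem agree_den : Agree 10 ((ic 81) * B - A)
    [80, -240, -2160, 12720, -17520, -30240, 114480, -82560, -140400, 362640] :=
  (((agree_intCast 10 81).mul (agree_pexp agree_e4Q 3)).sub agree_e4Q).of_eq (by decide +kernel)

theorem agree_A_add_B : Agree 10 (A + (ic 9) * B)
    [10, 240, 2160, 8880, 17520, 30240, 79920, 82560, 140400, 242160] :=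
  (agree_e4Q.add ((agree_intCast 10 9).mul (agree_pexp agree_e4Q 3))).of_eq (by decide +kernel)

/-- `(E₄ - E₄(q³))² Δ = 9 Δ(q³) (81 E₄(q³) - E₄)²` -/
theorem sturm_s :
    (A - B) ^ 2 * deltaQ = (ic 9) * pexp 3 deltaQ * ((ic 81) * B - A) ^ 2 := by
  rw [← sub_eq_zero]
  refine eq_zero_of_agree 3 20 4 index_Gamma0_three ?_ (n := 10) (by norm_num) ?_
  · refine Submodule.sub_mem _ ?_ ?_
    · exact (mfGraded 3).cast_mem (by norm_num) ((mfGraded 3).mul_mem
        ((mfGraded 3).pow_mem A_sub_B_mem 2) (deltaQ_mem 3))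
    · exact (mfGraded 3).cast_mem (by norm_num) ((mfGraded 3).mul_mem
        (intCast_mul_mem _ 9 (pexp_deltaQ_mem 3 dvd_rfl)) ((mfGraded 3).pow_mem den_mem 2))
  · exact (((agree_A_sub_B.pow 2).mul agree_deltaQ).sub
      (((agree_intCast 10 9).mul (agree_pexp agree_deltaQ 3)).mul (agree_den.pow 2))).of_eq
      (by decide +kernel)

/-- `(E₄ - E₄(q³)) (81 E₄(q³) - E₄)³ = 12288000 Δ (E₄ + 9 E₄(q³))` -/
theorem sturm_a :
    (A - B) * ((ic 81) * B - A) ^ 3 = (ic 12288000) * deltaQ * (A + (ic 9) * B) := by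
  rw [← sub_eq_zero]
  refine eq_zero_of_agree 3 16 4 index_Gamma0_three ?_ (n := 10) (by norm_num) ?_
  · refine Submodule.sub_mem _ ?_ ?_
    · exact (mfGraded 3).cast_mem (by norm_num) ((mfGraded 3).mul_mem
        A_sub_B_mem ((mfGraded 3).pow_mem den_mem 3))
    · exact (mfGraded 3).cast_mem (by norm_num) ((mfGraded 3).mul_mem
        (intCast_mul_mem _ 12288000 (deltaQ_mem 3)) A_add_B_mem)
  · exact ((agree_A_sub_B.mul (agree_den.pow 3)).sub
      (((agree_intCast 10 12288000).mul agree_deltaQ).mul agree_A_add_B)).of_eq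
      (by decide +kernel)

/-- `(E₄ - E₄(q³))³ (81 E₄(q³) - E₄) = 110592000 Δ(q³) (E₄ + 9 E₄(q³))` -/
theorem sturm_b :
    (A - B) ^ 3 * ((ic 81) * B - A) = (ic 110592000) * pexp 3 deltaQ * (A + (ic 9) * B) := by
  rw [← sub_eq_zero]
  refine eq_zero_of_agree 3 16 4 index_Gamma0_three ?_ (n := 10) (by norm_num) ?_
  · refine Submodule.sub_mem _ ?_ ?_
    · exact (mfGraded 3).cast_mem (by norm_num) ((mfGraded 3).mul_mem
        ((mfGraded 3).pow_mem A_sub_B_mem 3) den_mem)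
    · exact (mfGraded 3).cast_mem (by norm_num) ((mfGraded 3).mul_mem
        (intCast_mul_mem _ 110592000 (pexp_deltaQ_mem 3 dvd_rfl)) A_add_B_mem)
  · exact (((agree_A_sub_B.pow 3).mul agree_den).sub
      (((agree_intCast 10 110592000).mul (agree_pexp agree_deltaQ 3)).mul agree_A_add_B)).of_eq
      (by decide +kernel)

/-! ### The Hauptmodul -/

/-- the inverse of `∏ (1 - qⁿ)¹²` -/
def eta12Inv : PowerSeries ℤ := (etaProd ^ 12).invOfUnit 1

theorem eta12_mul_inv : etaProd ^ 12 * eta12Inv = 1 :=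
  PowerSeries.mul_invOfUnit _ _ (by rw [map_pow, constantCoeff_etaProd, one_pow]; rfl)

theorem constantCoeff_eta12Inv : constantCoeff eta12Inv = 1 := by
  have h := congrArg (constantCoeff (R := ℤ)) eta12_mul_inv
  rwa [map_mul, map_pow, constantCoeff_etaProd, one_pow, one_mul, map_one] at h

/-- `(η(q³)/η(q))¹²`, the Hauptmodul of `Γ₀(3)` vanishing at `∞`, as an integral power series. -/
def s3Z : PowerSeries ℤ := X * (pexp 3 etaProd ^ 12 * eta12Inv)

/-- its image in `ℚ⟦q⟧` -/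
def s3Q : PowerSeries ℚ := s3Z.map (Int.castRingHom ℚ)

/-- `(η(q³)/η(q))¹²` in `ℚ((q))`. -/
def s3 : LaurentSeries ℚ := Graded.emb s3Q

theorem constantCoeff_pexp {R : Type*} [CommRing R] (d : ℕ) (a : PowerSeries R) :
    constantCoeff (pexp d a) = constantCoeff a := by
  rw [← coeff_zero_eq_constantCoeff_apply, coeff_pexp, if_pos (dvd_zero d), Nat.zero_div,
    coeff_zero_eq_constantCoeff_apply]

/-- `s3Z = q · (unit)`. -/
theorem constantCoeff_s3Z_unit : constantCoeff (pexp 3 etaProd ^ 12 * eta12Inv) = 1 := by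
  rw [map_mul, map_pow, constantCoeff_pexp, constantCoeff_etaProd, constantCoeff_eta12Inv,
    one_pow, mul_one]

theorem coeff_zero_s3Z : coeff 0 s3Z = 0 := by
  rw [s3Z, coeff_zero_X_mul]

theorem coeff_one_s3Z : coeff 1 s3Z = 1 := by
  rw [s3Z, show (1 : ℕ) = 0 + 1 from rfl, coeff_succ_X_mul, coeff_zero_eq_constantCoeff_apply,
    constantCoeff_s3Z_unit]

theorem agree_s3Q : Agree 2 s3Q [0, 1] := by
  intro i hi
  rw [s3Q, coeff_map]
  interval_cases i
  · rw [coeff_zero_s3Z]; simp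
  · rw [coeff_one_s3Z]; simp

/-- `s3² Δ = Δ(q³)` -/
theorem s3Q_sq_mul : s3Q ^ 2 * deltaQ = pexp 3 deltaQ := by
  have hinv : etaProd.map (Int.castRingHom ℚ) ^ 12 * eta12Inv.map (Int.castRingHom ℚ) = 1 := by
    rw [← map_pow, ← map_mul, eta12_mul_inv, map_one]
  have hd : deltaQ = X * etaProd.map (Int.castRingHom ℚ) ^ 24 := by
    rw [deltaQ, dedekindEtaUnit, map_pow]
  rw [hd, pexp_mul, pexp_X, pexp_pow, s3Q, s3Z, map_mul, map_mul, map_pow, map_X, ← pexp_map]
  linear_combination (X ^ 3 * pexp 3 (etaProd.map (Int.castRingHom ℚ)) ^ 24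
    * (etaProd.map (Int.castRingHom ℚ) ^ 12 * eta12Inv.map (Int.castRingHom ℚ) + 1)) * hinv

/-- `E₄(q) - E₄(q³) = 3 s3 (81 E₄(q³) - E₄(q))` -/
theorem s3Q_lin : A - B = (ic 3) * s3Q * ((ic 81) * B - A) := by
  have h := sturm_s
  rw [← s3Q_sq_mul] at h
  have h2 : deltaQ * ((A - B) ^ 2 - ((ic 3) * s3Q * ((ic 81) * B - A)) ^ 2) = 0 := by
    push_cast at h ⊢
    linear_combination h
  rcases mul_eq_zero.mp h2 with h0 | h0
  · exact absurd h0 deltaQ_ne_zero
  · rcases sq_eq_sq_iff_eq_or_eq_neg.mp (sub_eq_zero.mp h0) with h1 | h1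
    · exact h1
    · exfalso
      have c1 : coeff 1 (A - B) = ((240 : ℤ) : ℚ) :=
        agree_A_sub_B.coeff_eq 1 (by norm_num) 240 (by decide +kernel)
      have c2 : coeff 1 ((ic 3) * s3Q * ((ic 81) * B - A)) = ((240 : ℤ) : ℚ) :=
        (((agree_intCast 2 3).mul agree_s3Q).mul (agree_den.mono (by norm_num))).coeff_eq 1
          (by norm_num) 240 (by decide +kernel)
      rw [h1, map_neg, c2] at c1
      norm_num at c1

/-! ### Identities in `ℚ((q))` -/

local notation "a'" => Graded.emb e4Q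
local notation "b'" => qExpand ℚ 3 (Graded.emb e4Q)
local notation "D'" => Graded.emb deltaQ

theorem emb_deltaQ_ne_zero : D' ≠ 0 := Graded.emb_ne_zero deltaQ_ne_zero

theorem charZero_laurent : CharZero (LaurentSeries ℚ) := algebraRat.charZero (LaurentSeries ℚ)

theorem intCast_emb (c : ℤ) : Graded.emb ((c : ℤ) : PowerSeries ℚ) = (c : LaurentSeries ℚ) :=
  map_intCast _ c

theorem s3_sq : s3 ^ 2 = qExpand ℚ 3 D' / D' := by
  rw [eq_div_iff emb_deltaQ_ne_zero, ← emb_pexp, ← s3Q_sq_mul, s3, map_mul, map_pow]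

theorem s3_lin : a' - b' = 3 * s3 * (81 * b' - a') := by
  have h := congrArg Graded.emb s3Q_lin
  simp only [map_mul, map_sub, emb_pexp, intCast_emb] at h
  push_cast at h
  exact h

theorem den_ne_zero : 81 * b' - a' ≠ 0 := by
  have h : (ic 81) * B - A ≠ 0 := by
    intro h0
    have c0 : coeff 0 ((ic 81) * B - A) = ((80 : ℤ) : ℚ) :=
      agree_den.coeff_eq 0 (by norm_num) 80 (by decide +kernel)
    rw [h0] at c0
    norm_num at c0
  have h2 := Graded.emb_ne_zero h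
  simp only [map_mul, map_sub, emb_pexp, intCast_emb] at h2
  push_cast at h2
  exact h2

/-- `s3` is a weight-zero quotient of level `Γ₀(M)` whenever `3 ∣ M`. -/
theorem s3_mem_field (M : ℕ) [NeZero M] (h : 3 ∣ M) : s3 ∈ (mfGraded M).field := by
  have hG : A - B ∈ (mfGraded M).M 4 :=
    Submodule.sub_mem _ (e4Q_mem M) (pexp_e4Q_mem M h)
  have hH : (ic 3) * ((ic 81) * B - A) ∈ (mfGraded M).M 4 :=
    intCast_mul_mem _ 3 (Submodule.sub_mem _ (intCast_mul_mem _ 81 (pexp_e4Q_mem M h))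
      (e4Q_mem M))
  have hH0 : (ic 3) * ((ic 81) * B - A) ≠ 0 := by
    intro h0
    have c0 : coeff 0 ((ic 3) * ((ic 81) * B - A)) = ((240 : ℤ) : ℚ) :=
      ((agree_intCast 10 3).mul agree_den).coeff_eq 0 (by norm_num) 240 (by decide +kernel)
    rw [h0] at c0
    norm_num at c0
  refine (mfGraded M).mem_W_of hG hH hH0 ?_
  simp only [map_mul, map_sub, emb_pexp, intCast_emb]
  push_cast
  linear_combination (-1 : LaurentSeries ℚ) * s3_lin

/-- **`j · s = (1 + 27 s)(1 + 243 s)³`** for the Hauptmodul `s = (η(q³)/η(q))¹²` of `Γ₀(3)`. -/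
theorem jq_mul_s3 : jq * s3 = (1 + 27 * s3) * (1 + 243 * s3) ^ 3 := by
  have h1 := jq_mul_emb_deltaQ
  have hI := congrArg Graded.emb sturm_a
  simp only [map_mul, map_pow, map_sub, map_add, emb_pexp, intCast_emb] at hI
  push_cast at hI
  have hl := s3_lin
  have hu : (1 + 27 * s3) * (81 * b' - a') = 8 * (a' + 9 * b') := by
    linear_combination (-9 : LaurentSeries ℚ) * hl
  have hv : (1 + 243 * s3) * (81 * b' - a') = 80 * a' := by
    linear_combination (-81 : LaurentSeries ℚ) * hl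
  have e1 : D' * (81 * b' - a') ^ 4 * ((1 + 27 * s3) * (1 + 243 * s3) ^ 3)
      = D' * (((1 + 27 * s3) * (81 * b' - a')) * ((1 + 243 * s3) * (81 * b' - a')) ^ 3) := by
    ring
  have e2 : 3 * (D' * (81 * b' - a') ^ 4 * (jq * s3))
      = (jq * D') * ((3 * s3 * (81 * b' - a')) * (81 * b' - a') ^ 3) := by ring
  have key : D' * (81 * b' - a') ^ 4 * (jq * s3 - (1 + 27 * s3) * (1 + 243 * s3) ^ 3) = 0 := by
    have h3 : 3 * (D' * (81 * b' - a') ^ 4 * (jq * s3))
        = 3 * (D' * (8 * (a' + 9 * b') * (80 * a') ^ 3)) := by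
      rw [e2, h1, ← hl, hI]; ring
    rw [mul_sub, e1, hu, hv]
    have := charZero_laurent
    linear_combination (1 / 3 : LaurentSeries ℚ) * h3
  rcases mul_eq_zero.mp key with h | h
  · rcases mul_eq_zero.mp h with h | h
    · exact absurd h emb_deltaQ_ne_zero
    · exact absurd (pow_eq_zero_iff (n := 4) (by norm_num) |>.mp h) den_ne_zero
  · exact sub_eq_zero.mp h

/-- **`(j - 1728) · s = (1 - 486 s - 19683 s²)²`**. -/
theorem jq_sub_mul_s3 : (jq - 1728) * s3 = (1 - 486 * s3 - 19683 * s3 ^ 2) ^ 2 := by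
  linear_combination jq_mul_s3

/-- **`j(q³) · s³ = (1 + 27 s)(1 + 3 s)³`**. -/
theorem jq3_mul_s3 : qExpand ℚ 3 jq * s3 ^ 3 = (1 + 27 * s3) * (1 + 3 * s3) ^ 3 := by
  have h1 := congrArg (qExpand ℚ 3) jq_mul_emb_deltaQ
  rw [map_mul, map_pow] at h1
  have hD3 : qExpand ℚ 3 D' ≠ 0 := by
    rw [← emb_pexp]
    exact Graded.emb_ne_zero (pexp_ne_zero 3 deltaQ_ne_zero)
  have hI := congrArg Graded.emb sturm_b
  simp only [map_mul, map_pow, map_sub, map_add, emb_pexp, intCast_emb] at hI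
  push_cast at hI
  have hl := s3_lin
  have hu : (1 + 27 * s3) * (81 * b' - a') = 8 * (a' + 9 * b') := by
    linear_combination (-9 : LaurentSeries ℚ) * hl
  have hv : (1 + 3 * s3) * (81 * b' - a') = 80 * b' := by
    linear_combination (-1 : LaurentSeries ℚ) * hl
  have e1 : qExpand ℚ 3 D' * (81 * b' - a') ^ 4 * ((1 + 27 * s3) * (1 + 3 * s3) ^ 3)
      = qExpand ℚ 3 D' * (((1 + 27 * s3) * (81 * b' - a')) * ((1 + 3 * s3) * (81 * b' - a')) ^ 3) := by
    ring
  have e2 : 27 * (qExpand ℚ 3 D' * (81 * b' - a') ^ 4 * (qExpand ℚ 3 jq * s3 ^ 3))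
      = (qExpand ℚ 3 jq * qExpand ℚ 3 D') * ((3 * s3 * (81 * b' - a')) ^ 3 * (81 * b' - a')) := by
    ring
  have key : qExpand ℚ 3 D' * (81 * b' - a') ^ 4
      * (qExpand ℚ 3 jq * s3 ^ 3 - (1 + 27 * s3) * (1 + 3 * s3) ^ 3) = 0 := by
    have h3 : 27 * (qExpand ℚ 3 D' * (81 * b' - a') ^ 4 * (qExpand ℚ 3 jq * s3 ^ 3))
        = 27 * (qExpand ℚ 3 D' * (8 * (a' + 9 * b') * (80 * b') ^ 3)) := by
      rw [e2, h1, ← hl, hI]; ring
    rw [mul_sub, e1, hu, hv]
    have := charZero_laurent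
    linear_combination (1 / 27 : LaurentSeries ℚ) * h3
  rcases mul_eq_zero.mp key with h | h
  · rcases mul_eq_zero.mp h with h | h
    · exact absurd h hD3
    · exact absurd (pow_eq_zero_iff (n := 4) (by norm_num) |>.mp h) den_ne_zero
  · exact sub_eq_zero.mp h

end Fermat.Agent.S30.Haupt.Three
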