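import Mathlib
import Fermat.Agent.S30.Haupt.Base

/-!
# The Hauptmodul of `Γ₀(2)` and the `j`-function

`s2 = Δ(q²)/Δ(q) = q ∏ (1 + qⁿ)²⁴` (an integral power series `q + …`) satisfies

* `jq * s2 = (1 + 256 s2)³`,
* `(jq - 1728) * s2 = (1 + 64 s2) (1 - 512 s2)²`,
* `j(q²) * s2² = (1 + 16 s2)³`.

The two identities between modular forms of weight `36` on `Γ₀(2)` are checked on `10`
coefficients (Sturm bound of the Prelude, through `S28.SturmMF.mfGraded`).
-/

set_option autoImplicit false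

noncomputable section

namespace Fermat.Agent.S30.Haupt.Two

open PowerSeries ModularCurve CongruenceSubgroup
open Fermat.Agent.S28.SturmDep Fermat.Agent.S28.SturmMF
open Fermat.Agent.S30.Haupt.Trunc Fermat.Agent.S30.Haupt.Base

/-! ### The two Sturm identities -/

/-- `E₄³ Δ(q²) Δ = (Δ + 256 Δ(q²))³` -/
theorem sturm_a :
    e4Q ^ 3 * pexp 2 deltaQ * deltaQ
      = (deltaQ + ((256 : ℤ) : PowerSeries ℚ) * pexp 2 deltaQ) ^ 3 := by
  rw [← sub_eq_zero]
  refine eq_zero_of_agree 2 36 3 index_Gamma0_two ?_ (n := 10) (by norm_num) ?_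
  · refine Submodule.sub_mem _ ?_ ?_
    · exact (mfGraded 2).cast_mem (by norm_num) ((mfGraded 2).mul_mem
        ((mfGraded 2).mul_mem ((mfGraded 2).pow_mem (e4Q_mem 2) 3) (pexp_deltaQ_mem 2 dvd_rfl))
        (deltaQ_mem 2))
    · exact (mfGraded 2).cast_mem (by norm_num) ((mfGraded 2).pow_mem
        (Submodule.add_mem _ (deltaQ_mem 2) (intCast_mul_mem _ 256 (pexp_deltaQ_mem 2 dvd_rfl))) 3)
  · exact ((((agree_e4Q.pow 3).mul (agree_pexp agree_deltaQ 2)).mul agree_deltaQ).sub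
      ((agree_deltaQ.add ((agree_intCast 10 256).mul (agree_pexp agree_deltaQ 2))).pow 3)).of_eq
      (by decide +kernel)

/-- `E₄(q²)³ Δ(q²) Δ = (Δ + 16 Δ(q²))³` -/
theorem sturm_b :
    pexp 2 e4Q ^ 3 * pexp 2 deltaQ * deltaQ
      = (deltaQ + ((16 : ℤ) : PowerSeries ℚ) * pexp 2 deltaQ) ^ 3 := by
  rw [← sub_eq_zero]
  refine eq_zero_of_agree 2 36 3 index_Gamma0_two ?_ (n := 10) (by norm_num) ?_
  · refine Submodule.sub_mem _ ?_ ?_
    · exact (mfGraded 2).cast_mem (by norm_num) ((mfGraded 2).mul_mem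
        ((mfGraded 2).mul_mem ((mfGraded 2).pow_mem (pexp_e4Q_mem 2 dvd_rfl) 3)
          (pexp_deltaQ_mem 2 dvd_rfl)) (deltaQ_mem 2))
    · exact (mfGraded 2).cast_mem (by norm_num) ((mfGraded 2).pow_mem
        (Submodule.add_mem _ (deltaQ_mem 2) (intCast_mul_mem _ 16 (pexp_deltaQ_mem 2 dvd_rfl))) 3)
  · exact (((((agree_pexp agree_e4Q 2).pow 3).mul (agree_pexp agree_deltaQ 2)).mul
      agree_deltaQ).sub
      ((agree_deltaQ.add ((agree_intCast 10 16).mul (agree_pexp agree_deltaQ 2))).pow 3)).of_eq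
      (by decide +kernel)

/-! ### The Hauptmodul -/

/-- `Δ(q²)/Δ(q)`, the Hauptmodul of `Γ₀(2)` vanishing at `∞`, as an integral power series. -/
def s2Z : PowerSeries ℤ := X * (pexp 2 dedekindEtaUnit * dedekindEtaUnitInv)

/-- `Δ(q²)/Δ(q)` in `ℚ((q))`. -/
def s2 : LaurentSeries ℚ := qExpand ℚ 2 (Graded.emb deltaQ) / Graded.emb deltaQ

theorem emb_deltaQ_ne_zero : Graded.emb deltaQ ≠ 0 := Graded.emb_ne_zero deltaQ_ne_zero

theorem s2_mul : s2 * Graded.emb deltaQ = qExpand ℚ 2 (Graded.emb deltaQ) :=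
  div_mul_cancel₀ _ emb_deltaQ_ne_zero

theorem constantCoeff_pexp {R : Type*} [CommRing R] (d : ℕ) (a : PowerSeries R) :
    constantCoeff (pexp d a) = constantCoeff a := by
  rw [← coeff_zero_eq_constantCoeff_apply, coeff_pexp, if_pos (dvd_zero d), Nat.zero_div,
    coeff_zero_eq_constantCoeff_apply]

/-- `s2Z = q · (unit)`. -/
theorem constantCoeff_s2Z_unit :
    constantCoeff (pexp 2 dedekindEtaUnit * dedekindEtaUnitInv) = 1 := by
  rw [map_mul, constantCoeff_pexp, constantCoeff_dedekindEtaUnit,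
    constantCoeff_dedekindEtaUnitInv, mul_one]

theorem coeff_zero_s2Z : coeff 0 s2Z = 0 := by
  rw [s2Z, coeff_zero_X_mul]

theorem coeff_one_s2Z : coeff 1 s2Z = 1 := by
  rw [s2Z, show (1 : ℕ) = 0 + 1 from rfl, coeff_succ_X_mul, coeff_zero_eq_constantCoeff_apply,
    constantCoeff_s2Z_unit]

/-- The integral power series `s2Z` has image `s2` in `ℚ((q))`. -/
theorem s2_eq_emb : s2 = Graded.emb (s2Z.map (Int.castRingHom ℚ)) := by
  rw [s2, div_eq_iff emb_deltaQ_ne_zero, ← emb_pexp, ← map_mul]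
  congr 1
  have hU : dedekindEtaUnitInv.map (Int.castRingHom ℚ) * dedekindEtaUnit.map (Int.castRingHom ℚ)
      = 1 := by
    rw [← map_mul, mul_comm, dedekindEtaUnit_mul_inv, map_one]
  rw [deltaQ, pexp_mul, pexp_X, s2Z, map_mul, map_mul, map_X, ← pexp_map]
  linear_combination (-(X ^ 2 * pexp 2 (dedekindEtaUnit.map (Int.castRingHom ℚ)))) * hU

/-- `s2` is a weight-zero quotient of level `Γ₀(M)` whenever `2 ∣ M`. -/
theorem s2_mem_field (M : ℕ) [NeZero M] (h : 2 ∣ M) : s2 ∈ (mfGraded M).field :=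
  qExpand_delta_div_mem M h

/-! ### The identities -/

theorem intCast_emb (c : ℤ) : Graded.emb ((c : ℤ) : PowerSeries ℚ) = (c : LaurentSeries ℚ) :=
  map_intCast _ c

/-- **`j · s = (1 + 256 s)³`** for the Hauptmodul `s = Δ(q²)/Δ(q)` of `Γ₀(2)`. -/
theorem jq_mul_s2 : jq * s2 = (1 + 256 * s2) ^ 3 := by
  have h1 := jq_mul_emb_deltaQ
  have h2 := congrArg Graded.emb sturm_a
  simp only [map_mul, map_pow, map_add, emb_pexp, intCast_emb] at h2
  rw [← s2_mul] at h2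
  have h3 : Graded.emb deltaQ ^ 3 * (jq * s2 - (1 + 256 * s2) ^ 3) = 0 := by
    push_cast at h2
    linear_combination (s2 * Graded.emb deltaQ * Graded.emb deltaQ) * h1 + h2
  rcases mul_eq_zero.mp h3 with h | h
  · exact absurd (pow_eq_zero_iff (n := 3) (by norm_num) |>.mp h) emb_deltaQ_ne_zero
  · exact sub_eq_zero.mp h

/-- **`(j - 1728) · s = (1 + 64 s)(1 - 512 s)²`**. -/
theorem jq_sub_mul_s2 : (jq - 1728) * s2 = (1 + 64 * s2) * (1 - 512 * s2) ^ 2 := by
  linear_combination jq_mul_s2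

/-- **`j(q²) · s² = (1 + 16 s)³`**. -/
theorem jq2_mul_s2 : qExpand ℚ 2 jq * s2 ^ 2 = (1 + 16 * s2) ^ 3 := by
  have h1 := congrArg (qExpand ℚ 2) jq_mul_emb_deltaQ
  rw [map_mul, map_pow, ← emb_pexp] at h1
  have h2 := congrArg Graded.emb sturm_b
  simp only [map_mul, map_pow, map_add, emb_pexp, intCast_emb] at h2
  rw [emb_pexp] at h1
  rw [← s2_mul] at h1 h2
  have h3 : Graded.emb deltaQ ^ 3 * (qExpand ℚ 2 jq * s2 ^ 2 - (1 + 16 * s2) ^ 3) = 0 := by
    push_cast at h2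
    linear_combination (s2 * Graded.emb deltaQ * Graded.emb deltaQ) * h1 + h2
  rcases mul_eq_zero.mp h3 with h | h
  · exact absurd (pow_eq_zero_iff (n := 3) (by norm_num) |>.mp h) emb_deltaQ_ne_zero
  · exact sub_eq_zero.mp h

end Fermat.Agent.S30.Haupt.Two
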