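import Mathlib
import Fermat.Agent.S30.Haupt.Two
import Fermat.Agent.S30.Haupt.Three
import Fermat.Prelude.Def_ModularCurve_LaurentCoeff
import Fermat.Prelude.Thm_ModularCurve_coeffMap_qExpand

/-!
# Modular equations for the Hauptmoduln of `Γ₀(2)` and `Γ₀(3)`

For the Hauptmodul `s = s2 = Δ(q²)/Δ(q)` of `Γ₀(2)` and `s' = s(q³)`:

`s'⁴ + s⁴ - s s' - 72 (s s'² + s² s') - 900 (s s'³ + s³ s') + 28422 s² s'²
    - 294912 (s² s'³ + s³ s'²) - 16777216 s³ s'³ = 0`,

and for the Hauptmodul `s = s3 = (η(q³)/η(q))¹²` of `Γ₀(3)` and `s' = s(q²)`: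

`s³ + s'³ = s s' + 24 (s s'² + s² s') + 729 s² s'²`.

Both are symmetric, monic in each variable, have integer coefficients, and every non-leading
coefficient (as a polynomial in `s'`) vanishes at `s = 0`; in terms of the charts `u = 1/s`,
`u' = 1/s'` they read

`u⁴ + u'⁴ - u³ u'³ - 72 (u³ u'² + u² u'³) - 900 (u³ u' + u u'³) + 28422 u² u'²
    - 294912 (u² u' + u u'²) - 16777216 u u' = 0`,
`u³ + u'³ - u² u'² - 24 (u² u' + u u'²) - 729 u u' = 0`,

again monic in both variables.

Proof: `s2 = (E₄(q) - E₄(q²)) / (256 E₄(q²) - 16 E₄(q))` and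
`s3 = (E₄(q) - E₄(q³)) / (243 E₄(q³) - 3 E₄(q))`, so after clearing denominators the two
equations are identities between modular forms of weight `32`, resp. `24`, on `Γ₀(6)` (index
`12`), checked on `33`, resp. `25`, coefficients (Sturm bound of the Prelude, through
`S28.SturmMF.mfGraded`).
-/

set_option autoImplicit false

noncomputable section

namespace Fermat.Agent.S30.Haupt.ModEq

section Series

open PowerSeries ModularCurve CongruenceSubgroup
open Fermat.Agent.S28.SturmDep Fermat.Agent.S28.SturmMF
open Fermat.Agent.S30.Haupt.Trunc Fermat.Agent.S30.Haupt.Base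

theorem index_Gamma0_six : (Gamma0 6).index = 12 := by
  have h := Fermat.Agent.Lib.Gamma0Count.index_Gamma0_mul_prime 2 3 (by norm_num) Nat.prime_three
  rw [index_Gamma0_two] at h
  simpa using h

/-! ### `E₄` to 33 coefficients -/

theorem agree_eisenstein4_33 : Agree 33 eisenstein4
    [1, 240, 2160, 6720, 17520, 30240, 60480, 82560, 140400, 181680, 272160, 319680, 490560,
    527520, 743040, 846720, 1123440, 1179360, 1635120, 1646400, 2207520, 2311680, 2877120,
    2920320, 3931200, 3780240, 4747680, 4905600, 6026880, 5853600, 7620480, 7150080, 8987760] := by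
  intro i hi
  rw [eisenstein4, coeff_mk]
  interval_cases i <;> decide +kernel

theorem agree_e4Q_33 : Agree 33 e4Q
    [1, 240, 2160, 6720, 17520, 30240, 60480, 82560, 140400, 181680, 272160, 319680, 490560,
    527520, 743040, 846720, 1123440, 1179360, 1635120, 1646400, 2207520, 2311680, 2877120,
    2920320, 3931200, 3780240, 4747680, 4905600, 6026880, 5853600, 7620480, 7150080, 8987760] :=
  agree_eisenstein4_33.map (Int.castRingHom ℚ)

/-! ### Level `2`, Hecke prime `3`: the certificate (33 coefficients) -/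

/-- numerator of the Hauptmodul of `Γ₀(2)` as a quotient of weight-4 forms -/
def numTwo : PowerSeries ℚ := e4Q - pexp 2 e4Q

/-- denominator of the Hauptmodul of `Γ₀(2)` as a quotient of weight-4 forms -/
def denTwo : PowerSeries ℚ := (((256 : ℤ) : PowerSeries ℚ)) * pexp 2 e4Q - (((16 : ℤ) : PowerSeries ℚ)) * e4Q

/-- the numerator at `q ^ 3` -/
def numTwoE : PowerSeries ℚ := pexp 3 e4Q - pexp 6 e4Q

/-- the denominator at `q ^ 3` -/
def denTwoE : PowerSeries ℚ := (((256 : ℤ) : PowerSeries ℚ)) * pexp 6 e4Q - (((16 : ℤ) : PowerSeries ℚ)) * pexp 3 e4Q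

theorem numTwo_mem : numTwo ∈ (mfGraded 6).M 4 :=
  Submodule.sub_mem _ (e4Q_mem 6) (pexp_e4Q_mem 6 (d := 2) (by norm_num))

theorem denTwo_mem : denTwo ∈ (mfGraded 6).M 4 :=
  Submodule.sub_mem _ (intCast_mul_mem _ 256 (pexp_e4Q_mem 6 (d := 2) (by norm_num))) (intCast_mul_mem _ 16 (e4Q_mem 6))

theorem numTwoE_mem : numTwoE ∈ (mfGraded 6).M 4 :=
  Submodule.sub_mem _ (pexp_e4Q_mem 6 (d := 3) (by norm_num)) (pexp_e4Q_mem 6 (d := 6) (by norm_num))

theorem denTwoE_mem : denTwoE ∈ (mfGraded 6).M 4 :=
  Submodule.sub_mem _ (intCast_mul_mem _ 256 (pexp_e4Q_mem 6 (d := 6) (by norm_num))) (intCast_mul_mem _ 16 (pexp_e4Q_mem 6 (d := 3) (by norm_num)))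

theorem agree_numTwo : Agree 33 numTwo
    [0, 240, 1920, 6720, 15360, 30240, 53760, 82560, 122880, 181680, 241920, 319680, 430080,
    527520, 660480, 846720, 983040, 1179360, 1453440, 1646400, 1935360, 2311680, 2557440,
    2920320, 3440640, 3780240, 4220160, 4905600, 5283840, 5853600, 6773760, 7150080, 7864320] :=
  (agree_e4Q_33.sub (agree_pexp agree_e4Q_33 2)).of_eq (by decide +kernel)

theorem agree_denTwo : Agree 33 denTwo
    [240, -3840, 26880, -107520, 272640, -483840, 752640, -1320960, 2238720, -2906880, 3386880,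
    -5114880, 7633920, -8440320, 9246720, -13547520, 17967360, -18869760, 20348160, -26342400,
    34352640, -36986880, 35804160, -46725120, 62684160, -60483840, 59082240, -78489600, 93788160,
    -93657600, 94832640, -114401280, 143796480] :=
  (((agree_intCast 33 256).mul (agree_pexp agree_e4Q_33 2)).sub ((agree_intCast 33 16).mul agree_e4Q_33)).of_eq (by decide +kernel)

theorem agree_numTwoE : Agree 33 numTwoE
    [0, 0, 0, 240, 0, 0, 1920, 0, 0, 6720, 0, 0, 15360, 0, 0, 30240, 0, 0, 53760, 0, 0, 82560, 0,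
    0, 122880, 0, 0, 181680, 0, 0, 241920, 0, 0] :=
  ((agree_pexp agree_e4Q_33 3).sub (agree_pexp agree_e4Q_33 6)).of_eq (by decide +kernel)

theorem agree_denTwoE : Agree 33 denTwoE
    [240, 0, 0, -3840, 0, 0, 26880, 0, 0, -107520, 0, 0, 272640, 0, 0, -483840, 0, 0, 752640, 0,
    0, -1320960, 0, 0, 2238720, 0, 0, -2906880, 0, 0, 3386880, 0, 0] :=
  (((agree_intCast 33 256).mul (agree_pexp agree_e4Q_33 6)).sub ((agree_intCast 33 16).mul (agree_pexp agree_e4Q_33 3))).of_eq (by decide +kernel)

theorem agree_Two_bb : Agree 33 (numTwo * numTwo)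
    [0, 0, 57600, 921600, 6912000, 33177600, 118656000, 348364800, 888422400, 2027520000,
    4234636800, 8252928000, 15182438400, 26575257600, 44649216000, 72399052800, 113688576000,
    173784268800, 259404883200, 378597888000, 542130278400, 763158528000, 1056437683200,
    1442014617600, 1943396352000, 2585065881600, 3401712576000, 4432315392000, 5714631475200,
    7305873408000, 9266933606400, 11652304896000, 14552373657600] :=
  (agree_numTwo.mul agree_numTwo).of_eq (by decide +kernel)

theorem agree_Two_ba : Agree 33 (numTwo * denTwo)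
    [0, 57600, -460800, 691200, 3686400, -12096000, -5529600, 58521600, -29491200, -117676800,
    96768000, 62899200, 44236800, 79603200, -468172800, -145152000, 235929600, 847065600,
    941414400, -2300544000, -774144000, 702259200, -503193600, 3957811200, -353894400,
    -1959840000, -636825600, -2923776000, 3745382400, -5908032000, 1161216000, 13106995200,
    -1887436800] :=
  (agree_numTwo.mul agree_denTwo).of_eq (by decide +kernel)

theorem agree_Two_aa : Agree 33 (denTwo * denTwo)
    [57600, -1843200, 27648000, -258048000, 1679155200, -8106393600, 30294835200, -91054080000,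
    230059008000, -515279462400, 1072864051200, -2114762342400, 3915583488000, -6805813248000,
    11354126745600, -18529512652800, 29326784716800, -44515878912000, 65862245376000,
    -96847441920000, 139882987929600, -195391055462400, 268349386752000, -369282392064000,
    501436374220800, -661714150809600, 864052984627200, -1134579179520000, 1474179932160000,
    -1870114535424000, 2353768331673600, -2983409477222400, 3754794839040000] :=
  (agree_denTwo.mul agree_denTwo).of_eq (by decide +kernel)

theorem agree_Two_bbE : Agree 33 (numTwoE * numTwoE)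
    [0, 0, 0, 0, 0, 0, 57600, 0, 0, 921600, 0, 0, 6912000, 0, 0, 33177600, 0, 0, 118656000, 0, 0,
    348364800, 0, 0, 888422400, 0, 0, 2027520000, 0, 0, 4234636800, 0, 0] :=
  (agree_numTwoE.mul agree_numTwoE).of_eq (by decide +kernel)

theorem agree_Two_baE : Agree 33 (numTwoE * denTwoE)
    [0, 0, 0, 57600, 0, 0, -460800, 0, 0, 691200, 0, 0, 3686400, 0, 0, -12096000, 0, 0, -5529600,
    0, 0, 58521600, 0, 0, -29491200, 0, 0, -117676800, 0, 0, 96768000, 0, 0] :=
  (agree_numTwoE.mul agree_denTwoE).of_eq (by decide +kernel)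

theorem agree_Two_aaE : Agree 33 (denTwoE * denTwoE)
    [57600, 0, 0, -1843200, 0, 0, 27648000, 0, 0, -258048000, 0, 0, 1679155200, 0, 0,
    -8106393600, 0, 0, 30294835200, 0, 0, -91054080000, 0, 0, 230059008000, 0, 0, -515279462400,
    0, 0, 1072864051200, 0, 0] :=
  (agree_denTwoE.mul agree_denTwoE).of_eq (by decide +kernel)

theorem agree_Two_m0 : Agree 33 ((denTwo * denTwo) * (denTwo * denTwo))
    [3317760000, -212336640000, 6582435840000, -131648716800000, 1909118730240000,
    -21392916480000000, 192812710625280000, -1437024733102080000, 9040587262525440000,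
    -48801205329592320000, 229190186843504640000, -948375633788928000000, 3500132716825804800000,
    -11663159993916456960000, 35521505161044295680000, -100053522031533096960000,
    263416134204944547840000, -653935636602531348480000, 1541344630782335385600000,
    -3468272395733434368000000, 7485284919588028416000000, -15559649730856180776960000,
    31264683907912134819840000, -60906273767450612858880000, 115323866932762619412480000,
    -212731775373899252367360000, 383116194834556319170560000, -674851414896197322670080000,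
    1164475326885994986209280000, -1971113823990470163824640000, 3277553969987488265011200000,
    -5360079581776677301125120000, 8629901897554803385958400000] :=
  (agree_Two_aa.mul agree_Two_aa).of_eq (by decide +kernel)

theorem agree_Two_m1 : Agree 33 ((numTwo * denTwo) * (denTwo * denTwo))
    [0, 3317760000, -132710400000, 2481684480000, -28665446400000, 227246653440000,
    -1295147335680000, 5368905400320000, -15758776074240000, 29046925762560000,
    -13873385963520000, -96579714908160000, 318623019171840000, -446180413685760000,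
    136832491192320000, 469167918612480000, -683377447403520000, 1212736041861120000,
    -4634712424120320000, 8329570047590400000, -603151993405440000, -17974334265753600000,
    18372800108298240000, 1544524961218560000, 24261040904601600000, -84488218031923200000,
    1616733778083840000, 203327708918906880000, -146366385944002560000, -111189277662658560000,
    -110990587228323840000, 495285657957826560000, 140779314625904640000] :=
  (agree_Two_ba.mul agree_Two_aa).of_eq (by decide +kernel)

theorem agree_Two_m2 : Agree 33 ((numTwo * numTwo) * (denTwo * denTwo))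
    [0, 0, 3317760000, -53084160000, 291962880000, -212336640000, -4313088000000, 15606743040000,
    8705802240000, -154156400640000, 200067563520000, 644070113280000, -1847222599680000,
    -720458219520000, 7366568509440000, -4093744250880000, -14644433387520000, 16601752535040000,
    9314906480640000, -12277569945600000, 11735262167040000, -52254348410880000,
    -14138740408320000, 116453163663360000, 82178526412800000, -30283451596800000,
    -538399065784320000, -35412336967680000, 1079753260400640000, -43924169687040000,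
    -54831345500160000, -1006922854563840000, -2557864921006080000] :=
  (agree_Two_bb.mul agree_Two_aa).of_eq (by decide +kernel)

theorem agree_Two_m3 : Agree 33 ((numTwo * numTwo) * (numTwo * denTwo))
    [0, 0, 0, 3317760000, 26542080000, 13271040000, -424673280000, -975421440000, 2335703040000,
    9634775040000, -1698693120000, -40254382080000, -34504704000000, 45028638720000,
    124853944320000, 255859015680000, 69646417920000, -1037609533440000, -1233251205120000,
    767348121600000, 1600540508160000, 3265896775680000, 5152560906240000, -7278322728960000,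
    -14777780797440000, 1892715724800000, -5763665756160000, 2213271060480000, 58932548075520000,
    2745260605440000, -32749954007040000, 62932678410240000, -117155467100160000] :=
  (agree_Two_bb.mul agree_Two_ba).of_eq (by decide +kernel)

theorem agree_Two_m4 : Agree 33 ((numTwo * numTwo) * (numTwo * numTwo))
    [0, 0, 0, 0, 3317760000, 106168320000, 1645608960000, 16562257920000, 122597867520000,
    717485506560000, 3485505945600000, 14560348078080000, 53701568593920000, 178407049789440000,
    542228258488320000, 1526269398220800000, 4018491508654080000, 9976951925637120000,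
    23515343927377920000, 52913598470553600000, 114212389162106880000, 237439374427422720000,
    477093519649013760000, 929353565884907520000, 1759673486054522880000, 3246112031936348160000,
    5846064541705175040000, 10297217102873886720000, 17767806865933271040000,
    30076918984884879360000, 50012922546970951680000, 81787847885727989760000,
    131677950770109480960000] :=
  (agree_Two_bb.mul agree_Two_bb).of_eq (by decide +kernel)

theorem agree_Two_m0E : Agree 33 ((denTwoE * denTwoE) * (denTwoE * denTwoE))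
    [3317760000, 0, 0, -212336640000, 0, 0, 6582435840000, 0, 0, -131648716800000, 0, 0,
    1909118730240000, 0, 0, -21392916480000000, 0, 0, 192812710625280000, 0, 0,
    -1437024733102080000, 0, 0, 9040587262525440000, 0, 0, -48801205329592320000, 0, 0,
    229190186843504640000, 0, 0] :=
  (agree_Two_aaE.mul agree_Two_aaE).of_eq (by decide +kernel)

theorem agree_Two_m1E : Agree 33 ((numTwoE * denTwoE) * (denTwoE * denTwoE))
    [0, 0, 0, 3317760000, 0, 0, -132710400000, 0, 0, 2481684480000, 0, 0, -28665446400000, 0, 0,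
    227246653440000, 0, 0, -1295147335680000, 0, 0, 5368905400320000, 0, 0, -15758776074240000,
    0, 0, 29046925762560000, 0, 0, -13873385963520000, 0, 0] :=
  (agree_Two_baE.mul agree_Two_aaE).of_eq (by decide +kernel)

theorem agree_Two_m2E : Agree 33 ((numTwoE * numTwoE) * (denTwoE * denTwoE))
    [0, 0, 0, 0, 0, 0, 3317760000, 0, 0, -53084160000, 0, 0, 291962880000, 0, 0, -212336640000,
    0, 0, -4313088000000, 0, 0, 15606743040000, 0, 0, 8705802240000, 0, 0, -154156400640000, 0,
    0, 200067563520000, 0, 0] :=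
  (agree_Two_bbE.mul agree_Two_aaE).of_eq (by decide +kernel)

theorem agree_Two_m3E : Agree 33 ((numTwoE * numTwoE) * (numTwoE * denTwoE))
    [0, 0, 0, 0, 0, 0, 0, 0, 0, 3317760000, 0, 0, 26542080000, 0, 0, 13271040000, 0, 0,
    -424673280000, 0, 0, -975421440000, 0, 0, 2335703040000, 0, 0, 9634775040000, 0, 0,
    -1698693120000, 0, 0] :=
  (agree_Two_bbE.mul agree_Two_baE).of_eq (by decide +kernel)

theorem agree_Two_m4E : Agree 33 ((numTwoE * numTwoE) * (numTwoE * numTwoE))
    [0, 0, 0, 0, 0, 0, 0, 0, 0, 0, 0, 0, 3317760000, 0, 0, 106168320000, 0, 0, 1645608960000, 0,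
    0, 16562257920000, 0, 0, 122597867520000, 0, 0, 717485506560000, 0, 0, 3485505945600000, 0,
    0] :=
  (agree_Two_bbE.mul agree_Two_bbE).of_eq (by decide +kernel)

theorem agree_Two_R1 : Agree 33
    ((((numTwoE * denTwoE) * (denTwoE * denTwoE)) + ((((72 : ℤ) : PowerSeries ℚ)) * ((numTwoE * numTwoE) * (denTwoE * denTwoE)))) + ((((900 : ℤ) : PowerSeries ℚ)) * ((numTwoE * numTwoE) * (numTwoE * denTwoE))))
    [0, 0, 0, 3317760000, 0, 0, 106168320000, 0, 0, 1645608960000, 0, 0, 16243752960000, 0, 0,
    223902351360000, 0, 0, -1987895623680000, 0, 0, 5614711603200000, 0, 0, -13029825576960000,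
    0, 0, 26618962452480000, 0, 0, -997345198080000, 0, 0] :=
  (((agree_Two_m1E.add ((agree_intCast 33 72).mul agree_Two_m2E)).add ((agree_intCast 33 900).mul agree_Two_m3E))).of_eq (by decide +kernel)

theorem agree_Two_R2 : Agree 33
    ((((((72 : ℤ) : PowerSeries ℚ)) * ((numTwoE * denTwoE) * (denTwoE * denTwoE))) - ((((28422 : ℤ) : PowerSeries ℚ)) * ((numTwoE * numTwoE) * (denTwoE * denTwoE)))) + ((((294912 : ℤ) : PowerSeries ℚ)) * ((numTwoE * numTwoE) * (numTwoE * denTwoE))))
    [0, 0, 0, 238878720000, 0, 0, -103852523520000, 0, 0, 2665886515200000, 0, 0,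
    -2534503219200000, 0, 0, 26310579978240000, 0, 0, -95905267384320000, 0, 0,
    -344677149573120000, 0, 0, -693241333678080000, 0, 0, 9314222650490880000, 0, 0,
    -7186169065144320000, 0, 0] :=
  (((((agree_intCast 33 72).mul agree_Two_m1E).sub ((agree_intCast 33 28422).mul agree_Two_m2E)).add ((agree_intCast 33 294912).mul agree_Two_m3E))).of_eq (by decide +kernel)

theorem agree_Two_R3 : Agree 33
    ((((((900 : ℤ) : PowerSeries ℚ)) * ((numTwoE * denTwoE) * (denTwoE * denTwoE))) + ((((294912 : ℤ) : PowerSeries ℚ)) * ((numTwoE * numTwoE) * (denTwoE * denTwoE)))) + ((((16777216 : ℤ) : PowerSeries ℚ)) * ((numTwoE * numTwoE) * (numTwoE * denTwoE))))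
    [0, 0, 0, 2985984000000, 0, 0, 859007877120000, 0, 0, 42241136394240000, 0, 0,
    505606664355840000, 0, 0, 364552469544960000, 0, 0, -9562449358356480000, 0, 0,
    -6930225526210560000, 0, 0, 27571141497323520000, 0, 0, 142324362718248960000, 0, 0,
    18016936533688320000, 0, 0] :=
  (((((agree_intCast 33 900).mul agree_Two_m1E).add ((agree_intCast 33 294912).mul agree_Two_m2E)).add ((agree_intCast 33 16777216).mul agree_Two_m3E))).of_eq (by decide +kernel)

theorem agree_Two_T0 : Agree 33 (((denTwo * denTwo) * (denTwo * denTwo)) * ((numTwoE * numTwoE) * (numTwoE * numTwoE)))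
    [0, 0, 0, 0, 0, 0, 0, 0, 0, 0, 0, 0, 11007531417600000000, -704482010726400000000,
    21838942332518400000000, -436426605645004800000000, 6311454334097817600000000,
    -70277716426044211200000000, 625734835446900326400000000, -4565364673303963238400000000,
    27734080908931419340800000000, -141656672790917834342400000000,
    610969678703998953062400000000, -2221754136323724568166400000000,
    6746572669712789510553600000000, -16696016095498787723673600000000,
    31688144589868631064576000000000, -37480787309951192766873600000000,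
    -10715636742125887527321600000000, 188116123568293929811968000000000,
    -533567188753133196017664000000000, 887652262164402667310284800000000,
    -752573162447938674229248000000000] :=
  (agree_Two_m0.mul agree_Two_m4E).of_eq (by decide +kernel)

theorem agree_Two_T4 : Agree 33 (((numTwo * numTwo) * (numTwo * numTwo)) * ((denTwoE * denTwoE) * (denTwoE * denTwoE)))
    [0, 0, 0, 0, 11007531417600000000, 352241005363200000000, 5459735583129600000000,
    54245114825932800000000, 384206876599910400000000, 2031021636924211200000000,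
    8069136950860185600000000, 22974567333809356800000000, 36652569903444787200000000,
    -39605626402032844800000000, -499696487269348147200000000, -1832855074198939238400000000,
    -3780909864719902310400000000, -2128401480784910745600000000, 16108098119272916582400000000,
    69320549398746444595200000000, 144571063596211607961600000000,
    105986177932983061708800000000, -387641166345110185574400000000,
    -1683933491962340337254400000000, -3231212521227267185049600000000,
    -2039748947465304696422400000000, 7578505392204197501337600000000,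
    28657002735990194621644800000000, 47520700229783990462054400000000,
    19495822674728584426291200000000, -115789110995046319836364800000000,
    -351781490625607610715340800000000, -479408052614546894251622400000000] :=
  (agree_Two_m4.mul agree_Two_m0E).of_eq (by decide +kernel)

theorem agree_Two_T1 : Agree 33
    (((numTwo * denTwo) * (denTwo * denTwo)) * ((((numTwoE * denTwoE) * (denTwoE * denTwoE)) + ((((72 : ℤ) : PowerSeries ℚ)) * ((numTwoE * numTwoE) * (denTwoE * denTwoE)))) + ((((900 : ℤ) : PowerSeries ℚ)) * ((numTwoE * numTwoE) * (numTwoE * denTwoE)))))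
    [0, 0, 0, 0, 11007531417600000000, -440301256704000000000, 8233633500364800000000,
    -94752830442700800000000, 739860216702566400000000, -4033511752414003200000000,
    14774837030210764800000000, -28375830910048665600000000, -37049006147449651200000000,
    476860879012154572800000000, -1621707681913896960000000000, 2049983826965928345600000000,
    5416993646845938892800000000, -32070887489446871040000000000, 62701740130598859571200000000,
    8318641231153122508800000000, -345218392400194437120000000000,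
    735674024237112439603200000000, 254601225032442052608000000000,
    -5197805997850066157568000000000, 14488233023685398416588800000000,
    -21367022198601036909772800000000, 15139481555863344041164800000000,
    4460282809339905205862400000000, -37526652622707367713177600000000,
    150058185275989265743872000000000, -449923293074673312045465600000000,
    741418606482544174458470400000000, -338811220239982216504934400000000] :=
  (agree_Two_m1.mul agree_Two_R1).of_eq (by decide +kernel)

theorem agree_Two_T2 : Agree 33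
    (((numTwo * numTwo) * (denTwo * denTwo)) * ((((((72 : ℤ) : PowerSeries ℚ)) * ((numTwoE * denTwoE) * (denTwoE * denTwoE))) - ((((28422 : ℤ) : PowerSeries ℚ)) * ((numTwoE * numTwoE) * (denTwoE * denTwoE)))) + ((((294912 : ℤ) : PowerSeries ℚ)) * ((numTwoE * numTwoE) * (numTwoE * denTwoE)))))
    [0, 0, 0, 0, 0, 792542262067200000000, -12680676193075200000000, 69743719061913600000000,
    -395280453206016000000000, 4482619034252083200000000, -26592963061402828800000000,
    32976098440092057600000000, 269584042984420147200000000, -794667860414064230400000000,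
    -1324739146298897203200000000, 4204607889395102515200000000, 19916201473938240307200000000,
    -41294449248536258150400000000, -210567789221224277606400000000,
    572806952630839620403200000000, 927977131231560282931200000000,
    -4214793917559355106918400000000, -527181540480066886041600000000,
    16532982638186438275891200000000, -10835524519208598424780800000000,
    -32276222802993528963072000000000, 40578691717560726768844800000000,
    8360804095552401702912000000000, -37878030016166234161152000000000,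
    106211500215467171748249600000000, -46376376081293463728947200000000,
    -396438141200984720592076800000000, -163112582187821636046028800000000] :=
  (agree_Two_m2.mul agree_Two_R2).of_eq (by decide +kernel)

theorem agree_Two_T3 : Agree 33
    (((numTwo * numTwo) * (numTwo * denTwo)) * ((((((900 : ℤ) : PowerSeries ℚ)) * ((numTwoE * denTwoE) * (denTwoE * denTwoE))) + ((((294912 : ℤ) : PowerSeries ℚ)) * ((numTwoE * numTwoE) * (denTwoE * denTwoE)))) + ((((16777216 : ℤ) : PowerSeries ℚ)) * ((numTwoE * numTwoE) * (numTwoE * denTwoE)))))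
    [0, 0, 0, 0, 0, 0, 9906778275840000000000, 79254226206720000000000, 39627113103360000000000,
    1581914355086131200000000, 19887262982052249600000000, 18374299803765964800000000,
    -195882455925994291200000000, 278200650517866086400000000, 2446772179885778534400000000,
    -8087883217165615104000000000, -29107793531169983692800000000, 71166657540772174233600000000,
    164599882045345234944000000000, -516370409136550261555200000000,
    -410453594326222818508800000000, 3443449398464307894681600000000,
    495908827806513600921600000000, -15240864268622437023744000000000,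
    -137348355991277666304000000000, 34907479958630473452748800000000,
    -16451523291351242244096000000000, -21644871478853305054003200000000,
    112209746126531704809062400000000, -48657739248433923253862400000000,
    -153056630592212740079616000000000, 190890306257235602728550400000000,
    -730057412634681715929907200000000] :=
  (agree_Two_m3.mul agree_Two_R3).of_eq (by decide +kernel)

/-- **The modular equation of level `3` for the Hauptmodul of `Γ₀(2)`**, cleared of
denominators: an identity between modular forms of weight `32` on `Γ₀(6)`, checked on `33`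
coefficients. -/
theorem sturm_Two :
    (((denTwo * denTwo) * (denTwo * denTwo)) * ((numTwoE * numTwoE) * (numTwoE * numTwoE)))
      + (((numTwo * numTwo) * (numTwo * numTwo)) * ((denTwoE * denTwoE) * (denTwoE * denTwoE)))
      - (((numTwo * denTwo) * (denTwo * denTwo)) * ((((numTwoE * denTwoE) * (denTwoE * denTwoE)) + ((((72 : ℤ) : PowerSeries ℚ)) * ((numTwoE * numTwoE) * (denTwoE * denTwoE)))) + ((((900 : ℤ) : PowerSeries ℚ)) * ((numTwoE * numTwoE) * (numTwoE * denTwoE)))))
      - (((numTwo * numTwo) * (denTwo * denTwo)) * ((((((72 : ℤ) : PowerSeries ℚ)) * ((numTwoE * denTwoE) * (denTwoE * denTwoE))) - ((((28422 : ℤ) : PowerSeries ℚ)) * ((numTwoE * numTwoE) * (denTwoE * denTwoE)))) + ((((294912 : ℤ) : PowerSeries ℚ)) * ((numTwoE * numTwoE) * (numTwoE * denTwoE)))))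
      - (((numTwo * numTwo) * (numTwo * denTwo)) * ((((((900 : ℤ) : PowerSeries ℚ)) * ((numTwoE * denTwoE) * (denTwoE * denTwoE))) + ((((294912 : ℤ) : PowerSeries ℚ)) * ((numTwoE * numTwoE) * (denTwoE * denTwoE)))) + ((((16777216 : ℤ) : PowerSeries ℚ)) * ((numTwoE * numTwoE) * (numTwoE * denTwoE))))) = 0 := by
  refine eq_zero_of_agree 6 32 12 index_Gamma0_six ?_ (n := 33) (by norm_num) ?_
  · exact (mfGraded 6).cast_mem (by norm_num) (Submodule.sub_mem _ (Submodule.sub_mem _ (Submodule.sub_mem _ (Submodule.add_mem _ ((mfGraded 6).mul_mem ((mfGraded 6).mul_mem ((mfGraded 6).mul_mem denTwo_mem denTwo_mem) ((mfGraded 6).mul_mem denTwo_mem denTwo_mem)) ((mfGraded 6).mul_mem ((mfGraded 6).mul_mem numTwoE_mem numTwoE_mem) ((mfGraded 6).mul_mem numTwoE_mem numTwoE_mem)))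
      ((mfGraded 6).mul_mem ((mfGraded 6).mul_mem ((mfGraded 6).mul_mem numTwo_mem numTwo_mem) ((mfGraded 6).mul_mem numTwo_mem numTwo_mem)) ((mfGraded 6).mul_mem ((mfGraded 6).mul_mem denTwoE_mem denTwoE_mem) ((mfGraded 6).mul_mem denTwoE_mem denTwoE_mem))))
      ((mfGraded 6).mul_mem ((mfGraded 6).mul_mem ((mfGraded 6).mul_mem numTwo_mem denTwo_mem) ((mfGraded 6).mul_mem denTwo_mem denTwo_mem)) (Submodule.add_mem _ (Submodule.add_mem _ ((mfGraded 6).mul_mem ((mfGraded 6).mul_mem numTwoE_mem denTwoE_mem) ((mfGraded 6).mul_mem denTwoE_mem denTwoE_mem)) (intCast_mul_mem _ 72 ((mfGraded 6).mul_mem ((mfGraded 6).mul_mem numTwoE_mem numTwoE_mem) ((mfGraded 6).mul_mem denTwoE_mem denTwoE_mem)))) (intCast_mul_mem _ 900 ((mfGraded 6).mul_mem ((mfGraded 6).mul_mem numTwoE_mem numTwoE_mem) ((mfGraded 6).mul_mem numTwoE_mem denTwoE_mem))))))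
      ((mfGraded 6).mul_mem ((mfGraded 6).mul_mem ((mfGraded 6).mul_mem numTwo_mem numTwo_mem) ((mfGraded 6).mul_mem denTwo_mem denTwo_mem)) (Submodule.add_mem _ (Submodule.sub_mem _ (intCast_mul_mem _ 72 ((mfGraded 6).mul_mem ((mfGraded 6).mul_mem numTwoE_mem denTwoE_mem) ((mfGraded 6).mul_mem denTwoE_mem denTwoE_mem))) (intCast_mul_mem _ 28422 ((mfGraded 6).mul_mem ((mfGraded 6).mul_mem numTwoE_mem numTwoE_mem) ((mfGraded 6).mul_mem denTwoE_mem denTwoE_mem)))) (intCast_mul_mem _ 294912 ((mfGraded 6).mul_mem ((mfGraded 6).mul_mem numTwoE_mem numTwoE_mem) ((mfGraded 6).mul_mem numTwoE_mem denTwoE_mem))))))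
      ((mfGraded 6).mul_mem ((mfGraded 6).mul_mem ((mfGraded 6).mul_mem numTwo_mem numTwo_mem) ((mfGraded 6).mul_mem numTwo_mem denTwo_mem)) (Submodule.add_mem _ (Submodule.add_mem _ (intCast_mul_mem _ 900 ((mfGraded 6).mul_mem ((mfGraded 6).mul_mem numTwoE_mem denTwoE_mem) ((mfGraded 6).mul_mem denTwoE_mem denTwoE_mem))) (intCast_mul_mem _ 294912 ((mfGraded 6).mul_mem ((mfGraded 6).mul_mem numTwoE_mem numTwoE_mem) ((mfGraded 6).mul_mem denTwoE_mem denTwoE_mem)))) (intCast_mul_mem _ 16777216 ((mfGraded 6).mul_mem ((mfGraded 6).mul_mem numTwoE_mem numTwoE_mem) ((mfGraded 6).mul_mem numTwoE_mem denTwoE_mem))))))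
  · exact (((((agree_Two_T0.add agree_Two_T4).sub agree_Two_T1).sub agree_Two_T2).sub agree_Two_T3)).of_eq (by decide +kernel)

/-! ### Level `3`, Hecke prime `2`: the certificate (25 coefficients) -/

/-- numerator of the Hauptmodul of `Γ₀(3)` as a quotient of weight-4 forms -/
def numThree : PowerSeries ℚ := e4Q - pexp 3 e4Q

/-- denominator of the Hauptmodul of `Γ₀(3)` as a quotient of weight-4 forms -/
def denThree : PowerSeries ℚ := (((243 : ℤ) : PowerSeries ℚ)) * pexp 3 e4Q - (((3 : ℤ) : PowerSeries ℚ)) * e4Q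

/-- the numerator at `q ^ 2` -/
def numThreeE : PowerSeries ℚ := pexp 2 e4Q - pexp 6 e4Q

/-- the denominator at `q ^ 2` -/
def denThreeE : PowerSeries ℚ := (((243 : ℤ) : PowerSeries ℚ)) * pexp 6 e4Q - (((3 : ℤ) : PowerSeries ℚ)) * pexp 2 e4Q

theorem numThree_mem : numThree ∈ (mfGraded 6).M 4 :=
  Submodule.sub_mem _ (e4Q_mem 6) (pexp_e4Q_mem 6 (d := 3) (by norm_num))

theorem denThree_mem : denThree ∈ (mfGraded 6).M 4 :=
  Submodule.sub_mem _ (intCast_mul_mem _ 243 (pexp_e4Q_mem 6 (d := 3) (by norm_num))) (intCast_mul_mem _ 3 (e4Q_mem 6))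

theorem numThreeE_mem : numThreeE ∈ (mfGraded 6).M 4 :=
  Submodule.sub_mem _ (pexp_e4Q_mem 6 (d := 2) (by norm_num)) (pexp_e4Q_mem 6 (d := 6) (by norm_num))

theorem denThreeE_mem : denThreeE ∈ (mfGraded 6).M 4 :=
  Submodule.sub_mem _ (intCast_mul_mem _ 243 (pexp_e4Q_mem 6 (d := 6) (by norm_num))) (intCast_mul_mem _ 3 (pexp_e4Q_mem 6 (d := 2) (by norm_num)))

theorem agree_numThree : Agree 25 numThree
    [0, 240, 2160, 6480, 17520, 30240, 58320, 82560, 140400, 174960, 272160, 319680, 473040,
    527520, 743040, 816480, 1123440, 1179360, 1574640, 1646400, 2207520, 2229120, 2877120,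
    2920320, 3790800] :=
  ((agree_e4Q_33.mono (by norm_num : 25 ≤ 33)).sub (agree_pexp (agree_e4Q_33.mono (by norm_num : 25 ≤ 33)) 3)).of_eq (by decide +kernel)

theorem agree_denThree : Agree 25 denThree
    [240, -720, -6480, 38160, -52560, -90720, 343440, -247680, -421200, 1087920, -816480,
    -959040, 2785680, -1582560, -2229120, 4808160, -3370320, -3538080, 9791280, -4939200,
    -6622560, 13127040, -8631360, -8760960, 22323600] :=
  (((agree_intCast 25 243).mul (agree_pexp (agree_e4Q_33.mono (by norm_num : 25 ≤ 33)) 3)).sub ((agree_intCast 25 3).mul (agree_e4Q_33.mono (by norm_num : 25 ≤ 33)))).of_eq (by decide +kernel)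

theorem agree_numThreeE : Agree 25 numThreeE
    [0, 0, 240, 0, 2160, 0, 6480, 0, 17520, 0, 30240, 0, 58320, 0, 82560, 0, 140400, 0, 174960,
    0, 272160, 0, 319680, 0, 473040] :=
  ((agree_pexp (agree_e4Q_33.mono (by norm_num : 25 ≤ 33)) 2).sub (agree_pexp (agree_e4Q_33.mono (by norm_num : 25 ≤ 33)) 6)).of_eq (by decide +kernel)

theorem agree_denThreeE : Agree 25 denThreeE
    [240, 0, -720, 0, -6480, 0, 38160, 0, -52560, 0, -90720, 0, 343440, 0, -247680, 0, -421200,
    0, 1087920, 0, -816480, 0, -959040, 0, 2785680] :=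
  (((agree_intCast 25 243).mul (agree_pexp (agree_e4Q_33.mono (by norm_num : 25 ≤ 33)) 6)).sub ((agree_intCast 25 3).mul (agree_pexp (agree_e4Q_33.mono (by norm_num : 25 ≤ 33)) 2))).of_eq (by decide +kernel)

theorem agree_Three_bb : Agree 25 (numThree * numThree)
    [0, 0, 57600, 1036800, 7776000, 36403200, 132192000, 385689600, 990432000, 2239488000,
    4718476800, 9126144000, 16910726400, 29387059200, 49750272000, 80018150400, 126694368000,
    192145305600, 288935942400, 418597632000, 604158681600, 843436800000, 1177217971200,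
    1594462003200, 2164706208000] :=
  (agree_numThree.mul agree_numThree).of_eq (by decide +kernel)

theorem agree_Three_ba : Agree 25 (numThree * denThree)
    [0, 57600, 345600, -1555200, -5299200, 22464000, -9331200, -3686400, -76032000, 41990400,
    134784000, -54604800, 143078400, -293644800, -22118400, -606528000, 222105600, 1635033600,
    251942400, -496512000, -2066688000, 99532800, -327628800, -880588800, 2052864000] :=
  (agree_numThree.mul agree_denThree).of_eq (by decide +kernel)

theorem agree_Three_aa : Agree 25 (denThree * denThree)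
    [57600, -345600, -2592000, 27648000, -38188800, -462412800, 2432851200, -3449088000,
    -8457696000, 40086489600, -43274995200, -81807667200, 303496416000, -262721664000,
    -447619737600, 1443503462400, -1141581945600, -1739117952000, 5201768160000, -3764399616000,
    -5425028006400, 15177816115200, -10592995968000, -14344874496000, 38943936864000] :=
  (agree_denThree.mul agree_denThree).of_eq (by decide +kernel)

theorem agree_Three_bbE : Agree 25 (numThreeE * numThreeE)
    [0, 0, 0, 0, 57600, 0, 1036800, 0, 7776000, 0, 36403200, 0, 132192000, 0, 385689600, 0,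
    990432000, 0, 2239488000, 0, 4718476800, 0, 9126144000, 0, 16910726400] :=
  (agree_numThreeE.mul agree_numThreeE).of_eq (by decide +kernel)

theorem agree_Three_baE : Agree 25 (numThreeE * denThreeE)
    [0, 0, 57600, 0, 345600, 0, -1555200, 0, -5299200, 0, 22464000, 0, -9331200, 0, -3686400, 0,
    -76032000, 0, 41990400, 0, 134784000, 0, -54604800, 0, 143078400] :=
  (agree_numThreeE.mul agree_denThreeE).of_eq (by decide +kernel)

theorem agree_Three_aaE : Agree 25 (denThreeE * denThreeE)
    [57600, 0, -345600, 0, -2592000, 0, 27648000, 0, -38188800, 0, -462412800, 0, 2432851200, 0,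
    -3449088000, 0, -8457696000, 0, 40086489600, 0, -43274995200, 0, -81807667200, 0,
    303496416000] :=
  (agree_denThreeE.mul agree_denThreeE).of_eq (by decide +kernel)

theorem agree_Three_m0 : Agree 25 ((denThree * denThree) * denThree)
    [13824000, -124416000, -746496000, 12939264000, -28491264000, -348613632000, 2406703104000,
    -2391275520000, -34286934528000, 169012541952000, -221274851328000, -773996912640000,
    3698141806080000, -4397538014208000, -9949182234624000, 42636257888256000,
    -43638417695232000, -84036386331648000, 316627269000192000, -287543216259072000,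
    -503962496050176000, 1727591142537216000, -1442596186423296000, -2352271676313600000,
    7511644827062784000] :=
  (agree_Three_aa.mul agree_denThree).of_eq (by decide +kernel)

theorem agree_Three_m1 : Agree 25 ((numThree * denThree) * denThree)
    [0, 13824000, 41472000, -995328000, -193536000, 29445120000, -66811392000, -271779840000,
    1426139136000, -1611311616000, -2711024640000, 7768203264000, -3432637440000, -3068734464000,
    -3838648320000, 4262492160000, 24046350336000, -58910229504000, 60711399936000,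
    36972232704000, -151577671680000, 26461292544000, 51634132992000, 245535805440000,
    -146849200128000] :=
  (agree_Three_ba.mul agree_denThree).of_eq (by decide +kernel)

theorem agree_Three_m2 : Agree 25 ((numThree * numThree) * denThree)
    [0, 0, 13824000, 207360000, 746496000, -1382400000, -8335872000, -1492992000, 9566208000,
    92565504000, -41057280000, 13989888000, -486632448000, 182145024000, -347922432000,
    1337472000000, 385191936000, 1353977856000, -1405278720000, -4089305088000, -1973790720000,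
    -3109238784000, 8481687552000, -451436544000, 15193184256000] :=
  (agree_Three_bb.mul agree_denThree).of_eq (by decide +kernel)

theorem agree_Three_m3 : Agree 25 ((numThree * numThree) * numThree)
    [0, 0, 0, 13824000, 373248000, 4478976000, 33260544000, 180652032000, 784940544000,
    2865549312000, 9140097024000, 26063161344000, 67913399808000, 163712544768000,
    370115702784000, 790144699392000, 1607837050368000, 3130741518336000, 5873842593792000,
    10641513977856000, 18717777312768000, 31998106073088000, 53403795320832000,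
    87039779364864000, 139074276284928000] :=
  (agree_Three_bb.mul agree_numThree).of_eq (by decide +kernel)

theorem agree_Three_m0E : Agree 25 ((denThreeE * denThreeE) * denThreeE)
    [13824000, 0, -124416000, 0, -746496000, 0, 12939264000, 0, -28491264000, 0, -348613632000,
    0, 2406703104000, 0, -2391275520000, 0, -34286934528000, 0, 169012541952000, 0,
    -221274851328000, 0, -773996912640000, 0, 3698141806080000] :=
  (agree_Three_aaE.mul agree_denThreeE).of_eq (by decide +kernel)

theorem agree_Three_m1E : Agree 25 ((numThreeE * denThreeE) * denThreeE)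
    [0, 0, 13824000, 0, 41472000, 0, -995328000, 0, -193536000, 0, 29445120000, 0, -66811392000,
    0, -271779840000, 0, 1426139136000, 0, -1611311616000, 0, -2711024640000, 0, 7768203264000,
    0, -3432637440000] :=
  (agree_Three_baE.mul agree_denThreeE).of_eq (by decide +kernel)

theorem agree_Three_m2E : Agree 25 ((numThreeE * numThreeE) * denThreeE)
    [0, 0, 0, 0, 13824000, 0, 207360000, 0, 746496000, 0, -1382400000, 0, -8335872000, 0,
    -1492992000, 0, 9566208000, 0, 92565504000, 0, -41057280000, 0, 13989888000, 0,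
    -486632448000] :=
  (agree_Three_bbE.mul agree_denThreeE).of_eq (by decide +kernel)

theorem agree_Three_m3E : Agree 25 ((numThreeE * numThreeE) * numThreeE)
    [0, 0, 0, 0, 0, 0, 13824000, 0, 373248000, 0, 4478976000, 0, 33260544000, 0, 180652032000, 0,
    784940544000, 0, 2865549312000, 0, 9140097024000, 0, 26063161344000, 0, 67913399808000] :=
  (agree_Three_bbE.mul agree_numThreeE).of_eq (by decide +kernel)

theorem agree_Three_R1 : Agree 25
    (((numThreeE * denThreeE) * denThreeE) + ((((24 : ℤ) : PowerSeries ℚ)) * ((numThreeE * numThreeE) * denThreeE)))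
    [0, 0, 13824000, 0, 373248000, 0, 3981312000, 0, 17722368000, 0, -3732480000, 0,
    -266872320000, 0, -307611648000, 0, 1655728128000, 0, 610260480000, 0, -3696399360000, 0,
    8103960576000, 0, -15111816192000] :=
  ((agree_Three_m1E.add ((agree_intCast 25 24).mul agree_Three_m2E))).of_eq (by decide +kernel)

theorem agree_Three_R2 : Agree 25
    (((((24 : ℤ) : PowerSeries ℚ)) * ((numThreeE * denThreeE) * denThreeE)) + ((((729 : ℤ) : PowerSeries ℚ)) * ((numThreeE * numThreeE) * denThreeE)))
    [0, 0, 331776000, 0, 11073024000, 0, 127277568000, 0, 539550720000, 0, -301086720000, 0,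
    -7680324096000, 0, -7611107328000, 0, 41201104896000, 0, 28808773632000, 0, -94995348480000,
    0, 196635506688000, 0, -437138353152000] :=
  ((((agree_intCast 25 24).mul agree_Three_m1E).add ((agree_intCast 25 729).mul agree_Three_m2E))).of_eq (by decide +kernel)

theorem agree_Three_T3 : Agree 25 (((numThree * numThree) * numThree) * ((denThreeE * denThreeE) * denThreeE))
    [0, 0, 0, 191102976000000, 5159780352000000, 60197437440000000, 413355737088000000,
    1929757851648000000, 6434246098944000000, 13972685193216000000, 8694229893120000000,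
    -73518270382080000000, -364561796431872000000, -913559750443008000000,
    -1077281300938752000000, 1501387153735680000000, 10686740993409024000000,
    26125718807642112000000, 28720687581757440000000, -31876674113765376000000,
    -207779418585169920000000, -431874897572265984000000, -348537750168010752000000,
    637072091276378112000000, 2688594549722578944000000] :=
  (agree_Three_m3.mul agree_Three_m0E).of_eq (by decide +kernel)

theorem agree_Three_T0 : Agree 25 (((denThree * denThree) * denThree) * ((numThreeE * numThreeE) * numThreeE))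
    [0, 0, 0, 0, 0, 0, 191102976000000, -1719926784000000, -5159780352000000, 132434362368000000,
    -610574008320000000, -546936717312000000, 19752212496384000000, -109359824633856000000,
    274371320217600000000, 290349440040960000000, -6148507782610944000000,
    32318160400023552000000, -110682732118671360000000, 274605901031669760000000,
    -478301215874088960000000, 433078021711724544000000, 494405187900014592000000,
    -2916342683467776000000000, 6259802781910302720000000] :=
  (agree_Three_m0.mul agree_Three_m3E).of_eq (by decide +kernel)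

theorem agree_Three_T1 : Agree 25
    (((numThree * denThree) * denThree) * (((numThreeE * denThreeE) * denThreeE) + ((((24 : ℤ) : PowerSeries ℚ)) * ((numThreeE * numThreeE) * denThreeE))))
    [0, 0, 0, 191102976000000, 573308928000000, -8599633920000000, 12803899392000000,
    90582810624000000, -830724636672000000, 3515530346496000000, -5257816178688000000,
    -24177010802688000000, 225244669280256000000, -1054208483131392000000,
    3424166115803136000000, -8223202717728768000000, 13435101437755392000000,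
    -5229702255476736000000, -50177252351803392000000, 194077445854593024000000,
    -416524180476395520000000, 473825103934390272000000, 234990854361317376000000,
    -2139072325527011328000000, 4697931178525851648000000] :=
  (agree_Three_m1.mul agree_Three_R1).of_eq (by decide +kernel)

theorem agree_Three_T2 : Agree 25
    (((numThree * numThree) * denThree) * (((((24 : ℤ) : PowerSeries ℚ)) * ((numThreeE * denThreeE) * denThreeE)) + ((((729 : ℤ) : PowerSeries ℚ)) * ((numThreeE * numThreeE) * denThreeE))))
    [0, 0, 0, 0, 4586471424000000, 68797071360000000, 400742940672000000, 1837455114240000000,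
    7259810955264000000, 10589589209088000000, 13341472063488000000, -49888196296704000000,
    -570054253215744000000, 31288908054528000000, -4227076096524288000000,
    10014939311505408000000, -8896868226957312000000, 63673581463142400000000,
    -31784792185110528000000, 48651781063311360000000, -269556453982863360000000,
    -472621979794931712000000, -89123416629313536000000, -140198266664386560000000,
    4250466153107030016000000] :=
  (agree_Three_m2.mul agree_Three_R2).of_eq (by decide +kernel)

/-- **The modular equation of level `2` for the Hauptmodul of `Γ₀(3)`**, cleared of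
denominators: an identity between modular forms of weight `24` on `Γ₀(6)`, checked on `25`
coefficients. -/
theorem sturm_Three :
    (((numThree * numThree) * numThree) * ((denThreeE * denThreeE) * denThreeE))
      + (((denThree * denThree) * denThree) * ((numThreeE * numThreeE) * numThreeE))
      - (((numThree * denThree) * denThree) * (((numThreeE * denThreeE) * denThreeE) + ((((24 : ℤ) : PowerSeries ℚ)) * ((numThreeE * numThreeE) * denThreeE))))
      - (((numThree * numThree) * denThree) * (((((24 : ℤ) : PowerSeries ℚ)) * ((numThreeE * denThreeE) * denThreeE)) + ((((729 : ℤ) : PowerSeries ℚ)) * ((numThreeE * numThreeE) * denThreeE)))) = 0 := by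
  refine eq_zero_of_agree 6 24 12 index_Gamma0_six ?_ (n := 25) (by norm_num) ?_
  · exact (mfGraded 6).cast_mem (by norm_num) (Submodule.sub_mem _ (Submodule.sub_mem _ (Submodule.add_mem _ ((mfGraded 6).mul_mem ((mfGraded 6).mul_mem ((mfGraded 6).mul_mem numThree_mem numThree_mem) numThree_mem) ((mfGraded 6).mul_mem ((mfGraded 6).mul_mem denThreeE_mem denThreeE_mem) denThreeE_mem))
      ((mfGraded 6).mul_mem ((mfGraded 6).mul_mem ((mfGraded 6).mul_mem denThree_mem denThree_mem) denThree_mem) ((mfGraded 6).mul_mem ((mfGraded 6).mul_mem numThreeE_mem numThreeE_mem) numThreeE_mem)))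
      ((mfGraded 6).mul_mem ((mfGraded 6).mul_mem ((mfGraded 6).mul_mem numThree_mem denThree_mem) denThree_mem) (Submodule.add_mem _ ((mfGraded 6).mul_mem ((mfGraded 6).mul_mem numThreeE_mem denThreeE_mem) denThreeE_mem) (intCast_mul_mem _ 24 ((mfGraded 6).mul_mem ((mfGraded 6).mul_mem numThreeE_mem numThreeE_mem) denThreeE_mem)))))
      ((mfGraded 6).mul_mem ((mfGraded 6).mul_mem ((mfGraded 6).mul_mem numThree_mem numThree_mem) denThree_mem) (Submodule.add_mem _ (intCast_mul_mem _ 24 ((mfGraded 6).mul_mem ((mfGraded 6).mul_mem numThreeE_mem denThreeE_mem) denThreeE_mem)) (intCast_mul_mem _ 729 ((mfGraded 6).mul_mem ((mfGraded 6).mul_mem numThreeE_mem numThreeE_mem) denThreeE_mem)))))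
  · exact ((((agree_Three_T3.add agree_Three_T0).sub agree_Three_T1).sub agree_Three_T2)).of_eq (by decide +kernel)

/-! ### `s2` and `s3` as quotients of weight-4 forms -/

/-- `Δ(q²) (256 E₄(q²) - 16 E₄) = Δ (E₄ - E₄(q²))` -/
theorem sturm_lin_two : pexp 2 deltaQ * denTwo = deltaQ * numTwo := by
  rw [← sub_eq_zero]
  refine eq_zero_of_agree 2 16 3 index_Gamma0_two ?_ (n := 10) (by norm_num) ?_
  · refine Submodule.sub_mem _ ?_ ?_
    · exact (mfGraded 2).cast_mem (by norm_num) ((mfGraded 2).mul_mem (pexp_deltaQ_mem 2 dvd_rfl)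
        (Submodule.sub_mem _ (intCast_mul_mem _ 256 (pexp_e4Q_mem 2 dvd_rfl))
          (intCast_mul_mem _ 16 (e4Q_mem 2))))
    · exact (mfGraded 2).cast_mem (by norm_num) ((mfGraded 2).mul_mem (deltaQ_mem 2)
        (Submodule.sub_mem _ (e4Q_mem 2) (pexp_e4Q_mem 2 dvd_rfl)))
  · exact (((agree_pexp agree_deltaQ 2).mul (((agree_intCast 10 256).mul
      (agree_pexp agree_e4Q 2)).sub ((agree_intCast 10 16).mul agree_e4Q))).sub
      (agree_deltaQ.mul (agree_e4Q.sub (agree_pexp agree_e4Q 2)))).of_eq (by decide +kernel)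

theorem qExpand_three_two (f : LaurentSeries ℚ) :
    qExpand ℚ 3 (qExpand ℚ 2 f) = qExpand ℚ 6 f := by
  rw [qExpand_qExpand]

theorem qExpand_two_three (f : LaurentSeries ℚ) :
    qExpand ℚ 2 (qExpand ℚ 3 f) = qExpand ℚ 6 f := by
  rw [qExpand_qExpand]

theorem emb_numTwo :
    Graded.emb numTwo = Graded.emb e4Q - qExpand ℚ 2 (Graded.emb e4Q) := by
  rw [numTwo, map_sub, emb_pexp]

theorem emb_denTwo :
    Graded.emb denTwo = 256 * qExpand ℚ 2 (Graded.emb e4Q) - 16 * Graded.emb e4Q := by
  rw [denTwo, map_sub, map_mul, map_mul, emb_pexp, Two.intCast_emb, Two.intCast_emb]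
  push_cast
  rfl

theorem emb_numTwoE : Graded.emb numTwoE = qExpand ℚ 3 (Graded.emb numTwo) := by
  rw [emb_numTwo, map_sub, qExpand_three_two, numTwoE, map_sub, emb_pexp, emb_pexp]

theorem emb_denTwoE : Graded.emb denTwoE = qExpand ℚ 3 (Graded.emb denTwo) := by
  have h1 : qExpand ℚ 3 (256 : LaurentSeries ℚ) = 256 := map_ofNat _ 256
  have h2 : qExpand ℚ 3 (16 : LaurentSeries ℚ) = 16 := map_ofNat _ 16
  rw [emb_denTwo, map_sub, map_mul, map_mul, qExpand_three_two, denTwoE, map_sub, map_mul,
    map_mul, emb_pexp, emb_pexp, Two.intCast_emb, Two.intCast_emb, h1, h2]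
  push_cast
  rfl

theorem emb_numThree :
    Graded.emb numThree = Graded.emb e4Q - qExpand ℚ 3 (Graded.emb e4Q) := by
  rw [numThree, map_sub, emb_pexp]

theorem emb_denThree :
    Graded.emb denThree = 243 * qExpand ℚ 3 (Graded.emb e4Q) - 3 * Graded.emb e4Q := by
  rw [denThree, map_sub, map_mul, map_mul, emb_pexp, Two.intCast_emb, Two.intCast_emb]
  push_cast
  rfl

theorem emb_numThreeE : Graded.emb numThreeE = qExpand ℚ 2 (Graded.emb numThree) := by
  rw [emb_numThree, map_sub, qExpand_two_three, numThreeE, map_sub, emb_pexp, emb_pexp]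

theorem emb_denThreeE : Graded.emb denThreeE = qExpand ℚ 2 (Graded.emb denThree) := by
  have h1 : qExpand ℚ 2 (243 : LaurentSeries ℚ) = 243 := map_ofNat _ 243
  have h2 : qExpand ℚ 2 (3 : LaurentSeries ℚ) = 3 := map_ofNat _ 3
  rw [emb_denThree, map_sub, map_mul, map_mul, qExpand_two_three, denThreeE, map_sub, map_mul,
    map_mul, emb_pexp, emb_pexp, Two.intCast_emb, Two.intCast_emb, h1, h2]
  push_cast
  rfl

theorem denTwo_ne_zero : denTwo ≠ 0 := by
  intro h0
  have c0 : coeff 0 denTwo = ((240 : ℤ) : ℚ) :=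
    agree_denTwo.coeff_eq 0 (by norm_num) 240 (by decide +kernel)
  rw [h0] at c0
  norm_num at c0

theorem denTwoE_ne_zero : denTwoE ≠ 0 := by
  intro h0
  have c0 : coeff 0 denTwoE = ((240 : ℤ) : ℚ) :=
    agree_denTwoE.coeff_eq 0 (by norm_num) 240 (by decide +kernel)
  rw [h0] at c0
  norm_num at c0

theorem denThree_ne_zero : denThree ≠ 0 := by
  intro h0
  have c0 : coeff 0 denThree = ((240 : ℤ) : ℚ) :=
    agree_denThree.coeff_eq 0 (by norm_num) 240 (by decide +kernel)
  rw [h0] at c0
  norm_num at c0

theorem denThreeE_ne_zero : denThreeE ≠ 0 := by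
  intro h0
  have c0 : coeff 0 denThreeE = ((240 : ℤ) : ℚ) :=
    agree_denThreeE.coeff_eq 0 (by norm_num) 240 (by decide +kernel)
  rw [h0] at c0
  norm_num at c0

/-- `s2 = (E₄ - E₄(q²)) / (256 E₄(q²) - 16 E₄)` -/
theorem s2_mul_den : Two.s2 * Graded.emb denTwo = Graded.emb numTwo := by
  have h := congrArg Graded.emb sturm_lin_two
  rw [map_mul, map_mul, emb_pexp, ← Two.s2_mul] at h
  have h2 : Graded.emb deltaQ * (Two.s2 * Graded.emb denTwo - Graded.emb numTwo) = 0 := by
    linear_combination h
  rcases mul_eq_zero.mp h2 with h0 | h0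
  · exact absurd h0 Two.emb_deltaQ_ne_zero
  · exact sub_eq_zero.mp h0

/-- `s2(q³) = (E₄(q³) - E₄(q⁶)) / (256 E₄(q⁶) - 16 E₄(q³))` -/
theorem s2E_mul_den : qExpand ℚ 3 Two.s2 * Graded.emb denTwoE = Graded.emb numTwoE := by
  rw [emb_denTwoE, emb_numTwoE, ← map_mul, s2_mul_den]

/-- `s3 = (E₄ - E₄(q³)) / (243 E₄(q³) - 3 E₄)` -/
theorem s3_mul_den : Three.s3 * Graded.emb denThree = Graded.emb numThree := by
  rw [emb_denThree, emb_numThree]
  linear_combination (-1 : LaurentSeries ℚ) * Three.s3_lin

/-- `s3(q²) = (E₄(q²) - E₄(q⁶)) / (243 E₄(q⁶) - 3 E₄(q²))` -/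
theorem s3E_mul_den : qExpand ℚ 2 Three.s3 * Graded.emb denThreeE = Graded.emb numThreeE := by
  rw [emb_denThreeE, emb_numThreeE, ← map_mul, s3_mul_den]

theorem s2_ne_zero : Two.s2 ≠ 0 := by
  intro h
  have h1 := Two.jq_mul_s2
  rw [h] at h1
  simp at h1

theorem s3_ne_zero : Three.s3 ≠ 0 := by
  intro h
  have h1 := Three.jq_mul_s3
  rw [h] at h1
  simp at h1

theorem qExpand_s2_ne_zero (d : ℕ) [NeZero d] : qExpand ℚ d Two.s2 ≠ 0 := fun h =>
  s2_ne_zero (qExpand_injective d (h.trans (map_zero _).symm))

theorem qExpand_s3_ne_zero (d : ℕ) [NeZero d] : qExpand ℚ d Three.s3 ≠ 0 := fun h =>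
  s3_ne_zero (qExpand_injective d (h.trans (map_zero _).symm))

/-! ### Pure algebra -/

section Algebra

variable {K : Type*} [Field K]

/-- clearing denominators, level 2 -/
theorem alg_two {s t a b c d : K} (hs : s * a = b) (ht : t * c = d) (ha : a ≠ 0) (hc : c ≠ 0)
    (hF : (a * a) * (a * a) * ((d * d) * (d * d)) + (b * b) * (b * b) * ((c * c) * (c * c))
      - (b * a) * (a * a) * ((d * c) * (c * c) + 72 * ((d * d) * (c * c))
          + 900 * ((d * d) * (d * c)))
      - (b * b) * (a * a) * (72 * ((d * c) * (c * c)) - 28422 * ((d * d) * (c * c))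
          + 294912 * ((d * d) * (d * c)))
      - (b * b) * (b * a) * (900 * ((d * c) * (c * c)) + 294912 * ((d * d) * (c * c))
          + 16777216 * ((d * d) * (d * c))) = 0) :
    t ^ 4 + s ^ 4 - s * t - 72 * (s * t ^ 2 + s ^ 2 * t) - 900 * (s * t ^ 3 + s ^ 3 * t)
      + 28422 * s ^ 2 * t ^ 2 - 294912 * (s ^ 2 * t ^ 3 + s ^ 3 * t ^ 2)
      - 16777216 * s ^ 3 * t ^ 3 = 0 := by
  subst hs ht
  have h : a ^ 4 * c ^ 4 * (t ^ 4 + s ^ 4 - s * t - 72 * (s * t ^ 2 + s ^ 2 * t)
      - 900 * (s * t ^ 3 + s ^ 3 * t) + 28422 * s ^ 2 * t ^ 2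
      - 294912 * (s ^ 2 * t ^ 3 + s ^ 3 * t ^ 2) - 16777216 * s ^ 3 * t ^ 3) = 0 := by
    linear_combination hF
  rcases mul_eq_zero.mp h with h | h
  · exact absurd h (mul_ne_zero (pow_ne_zero 4 ha) (pow_ne_zero 4 hc))
  · exact h

/-- clearing denominators, level 3 -/
theorem alg_three {s t a b c d : K} (hs : s * a = b) (ht : t * c = d) (ha : a ≠ 0) (hc : c ≠ 0)
    (hF : (b * b) * b * ((c * c) * c) + (a * a) * a * ((d * d) * d)
      - (b * a) * a * ((d * c) * c + 24 * ((d * d) * c))
      - (b * b) * a * (24 * ((d * c) * c) + 729 * ((d * d) * c)) = 0) :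
    s ^ 3 + t ^ 3 = s * t + 24 * (s * t ^ 2 + s ^ 2 * t) + 729 * s ^ 2 * t ^ 2 := by
  subst hs ht
  have h : a ^ 3 * c ^ 3 * (s ^ 3 + t ^ 3 - (s * t + 24 * (s * t ^ 2 + s ^ 2 * t)
      + 729 * s ^ 2 * t ^ 2)) = 0 := by
    linear_combination hF
  rcases mul_eq_zero.mp h with h | h
  · exact absurd h (mul_ne_zero (pow_ne_zero 3 ha) (pow_ne_zero 3 hc))
  · exact sub_eq_zero.mp h

/-- from the `s`-form to the `u = 1/s`-form, level 2 -/
theorem alg_two_inv {s t : K} (hs : s ≠ 0) (ht : t ≠ 0)
    (h : t ^ 4 + s ^ 4 - s * t - 72 * (s * t ^ 2 + s ^ 2 * t) - 900 * (s * t ^ 3 + s ^ 3 * t)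
      + 28422 * s ^ 2 * t ^ 2 - 294912 * (s ^ 2 * t ^ 3 + s ^ 3 * t ^ 2)
      - 16777216 * s ^ 3 * t ^ 3 = 0) :
    s⁻¹ ^ 4 + t⁻¹ ^ 4 - s⁻¹ ^ 3 * t⁻¹ ^ 3 - 72 * (s⁻¹ ^ 3 * t⁻¹ ^ 2 + s⁻¹ ^ 2 * t⁻¹ ^ 3)
      - 900 * (s⁻¹ ^ 3 * t⁻¹ + s⁻¹ * t⁻¹ ^ 3) + 28422 * s⁻¹ ^ 2 * t⁻¹ ^ 2
      - 294912 * (s⁻¹ ^ 2 * t⁻¹ + s⁻¹ * t⁻¹ ^ 2) - 16777216 * s⁻¹ * t⁻¹ = 0 := by
  have e : s⁻¹ ^ 4 + t⁻¹ ^ 4 - s⁻¹ ^ 3 * t⁻¹ ^ 3 - 72 * (s⁻¹ ^ 3 * t⁻¹ ^ 2 + s⁻¹ ^ 2 * t⁻¹ ^ 3)
      - 900 * (s⁻¹ ^ 3 * t⁻¹ + s⁻¹ * t⁻¹ ^ 3) + 28422 * s⁻¹ ^ 2 * t⁻¹ ^ 2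
      - 294912 * (s⁻¹ ^ 2 * t⁻¹ + s⁻¹ * t⁻¹ ^ 2) - 16777216 * s⁻¹ * t⁻¹
      = (t ^ 4 + s ^ 4 - s * t - 72 * (s * t ^ 2 + s ^ 2 * t) - 900 * (s * t ^ 3 + s ^ 3 * t)
      + 28422 * s ^ 2 * t ^ 2 - 294912 * (s ^ 2 * t ^ 3 + s ^ 3 * t ^ 2)
      - 16777216 * s ^ 3 * t ^ 3) / (s ^ 4 * t ^ 4) := by
    field_simp
  rw [e, h, zero_div]

/-- from the `s`-form to the `u = 1/s`-form, level 3 -/
theorem alg_three_inv {s t : K} (hs : s ≠ 0) (ht : t ≠ 0)
    (h : s ^ 3 + t ^ 3 = s * t + 24 * (s * t ^ 2 + s ^ 2 * t) + 729 * s ^ 2 * t ^ 2) :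
    s⁻¹ ^ 3 + t⁻¹ ^ 3 - s⁻¹ ^ 2 * t⁻¹ ^ 2 - 24 * (s⁻¹ ^ 2 * t⁻¹ + s⁻¹ * t⁻¹ ^ 2)
      - 729 * s⁻¹ * t⁻¹ = 0 := by
  have e : s⁻¹ ^ 3 + t⁻¹ ^ 3 - s⁻¹ ^ 2 * t⁻¹ ^ 2 - 24 * (s⁻¹ ^ 2 * t⁻¹ + s⁻¹ * t⁻¹ ^ 2)
      - 729 * s⁻¹ * t⁻¹
      = (s ^ 3 + t ^ 3 - (s * t + 24 * (s * t ^ 2 + s ^ 2 * t) + 729 * s ^ 2 * t ^ 2))
        / (s ^ 3 * t ^ 3) := by
    field_simp
    ring
  rw [e, h, sub_self, zero_div]

end Algebra

/-! ### The modular equations in `ℚ((q))` -/

/-- **Modular equation of level `3` for the Hauptmodul `s2` of `Γ₀(2)`**, `s = s2`,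
`s' = s2(q³)`. -/
theorem modEq_two :
    qExpand ℚ 3 Two.s2 ^ 4 + Two.s2 ^ 4 - Two.s2 * qExpand ℚ 3 Two.s2
      - 72 * (Two.s2 * qExpand ℚ 3 Two.s2 ^ 2 + Two.s2 ^ 2 * qExpand ℚ 3 Two.s2)
      - 900 * (Two.s2 * qExpand ℚ 3 Two.s2 ^ 3 + Two.s2 ^ 3 * qExpand ℚ 3 Two.s2)
      + 28422 * Two.s2 ^ 2 * qExpand ℚ 3 Two.s2 ^ 2
      - 294912 * (Two.s2 ^ 2 * qExpand ℚ 3 Two.s2 ^ 3 + Two.s2 ^ 3 * qExpand ℚ 3 Two.s2 ^ 2)
      - 16777216 * Two.s2 ^ 3 * qExpand ℚ 3 Two.s2 ^ 3 = 0 := by
  have hF := congrArg Graded.emb sturm_Two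
  simp only [map_mul, map_add, map_sub, map_zero, Two.intCast_emb] at hF
  push_cast at hF
  exact alg_two s2_mul_den s2E_mul_den (Graded.emb_ne_zero denTwo_ne_zero)
    (Graded.emb_ne_zero denTwoE_ne_zero) (by linear_combination hF)

/-- **Modular equation of level `2` for the Hauptmodul `s3` of `Γ₀(3)`**, `s = s3`,
`s' = s3(q²)`. -/
theorem modEq_three :
    Three.s3 ^ 3 + qExpand ℚ 2 Three.s3 ^ 3
      = Three.s3 * qExpand ℚ 2 Three.s3
        + 24 * (Three.s3 * qExpand ℚ 2 Three.s3 ^ 2 + Three.s3 ^ 2 * qExpand ℚ 2 Three.s3)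
        + 729 * Three.s3 ^ 2 * qExpand ℚ 2 Three.s3 ^ 2 := by
  have hF := congrArg Graded.emb sturm_Three
  simp only [map_mul, map_add, map_sub, map_zero, Two.intCast_emb] at hF
  push_cast at hF
  exact alg_three s3_mul_den s3E_mul_den (Graded.emb_ne_zero denThree_ne_zero)
    (Graded.emb_ne_zero denThreeE_ne_zero) (by linear_combination hF)

/-- The modular equation of level `3` in the chart `u = 1/s2` (`u = Δ(q)/Δ(q²)`,
`u' = u(q³)`). -/
theorem modEq_two_inv :
    Two.s2⁻¹ ^ 4 + (qExpand ℚ 3 Two.s2)⁻¹ ^ 4 - Two.s2⁻¹ ^ 3 * (qExpand ℚ 3 Two.s2)⁻¹ ^ 3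
      - 72 * (Two.s2⁻¹ ^ 3 * (qExpand ℚ 3 Two.s2)⁻¹ ^ 2
          + Two.s2⁻¹ ^ 2 * (qExpand ℚ 3 Two.s2)⁻¹ ^ 3)
      - 900 * (Two.s2⁻¹ ^ 3 * (qExpand ℚ 3 Two.s2)⁻¹ + Two.s2⁻¹ * (qExpand ℚ 3 Two.s2)⁻¹ ^ 3)
      + 28422 * Two.s2⁻¹ ^ 2 * (qExpand ℚ 3 Two.s2)⁻¹ ^ 2
      - 294912 * (Two.s2⁻¹ ^ 2 * (qExpand ℚ 3 Two.s2)⁻¹ + Two.s2⁻¹ * (qExpand ℚ 3 Two.s2)⁻¹ ^ 2)
      - 16777216 * Two.s2⁻¹ * (qExpand ℚ 3 Two.s2)⁻¹ = 0 :=
  alg_two_inv s2_ne_zero (qExpand_s2_ne_zero 3) modEq_two

/-- The modular equation of level `2` in the chart `u = 1/s3` (`u' = u(q²)`). -/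
theorem modEq_three_inv :
    Three.s3⁻¹ ^ 3 + (qExpand ℚ 2 Three.s3)⁻¹ ^ 3 - Three.s3⁻¹ ^ 2 * (qExpand ℚ 2 Three.s3)⁻¹ ^ 2
      - 24 * (Three.s3⁻¹ ^ 2 * (qExpand ℚ 2 Three.s3)⁻¹
          + Three.s3⁻¹ * (qExpand ℚ 2 Three.s3)⁻¹ ^ 2)
      - 729 * Three.s3⁻¹ * (qExpand ℚ 2 Three.s3)⁻¹ = 0 :=
  alg_three_inv s3_ne_zero (qExpand_s3_ne_zero 2) modEq_three

end Series

/-! ### The modular equations as monic polynomials -/

section Poly

open Polynomial

variable {R : Type*} [CommRing R]

/-- `Φ(x, Y)`: the modular equation of level `3` between the chart `u = 1/s2` of `X₀(2)` and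
`u(q³)`, as a monic polynomial in `Y` whose coefficients are integer polynomials in `x`. -/
def phiTwo (x : R) : R[X] :=
  X ^ 4 + (C (-(x ^ 3 + 72 * x ^ 2 + 900 * x)) * X ^ 3
    + C (-72 * x ^ 3 + 28422 * x ^ 2 - 294912 * x) * X ^ 2
    + C (-(900 * x ^ 3 + 294912 * x ^ 2 + 16777216 * x)) * X + C (x ^ 4))

/-- `G(x, Y)`: the modular equation of level `3` between the Hauptmodul `s2` of `Γ₀(2)` and
`s2(q³)`, as a monic polynomial in `Y`; all its non-leading coefficients are multiples of `x`. -/
def gTwo (x : R) : R[X] :=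
  X ^ 4 + (C (-(900 * x + 294912 * x ^ 2 + 16777216 * x ^ 3)) * X ^ 3
    + C (-72 * x + 28422 * x ^ 2 - 294912 * x ^ 3) * X ^ 2
    + C (-(x + 72 * x ^ 2 + 900 * x ^ 3)) * X + C (x ^ 4))

/-- `Φ(x, Y)`: the modular equation of level `2` between the chart `u = 1/s3` of `X₀(3)` and
`u(q²)`, as a monic polynomial in `Y` whose coefficients are integer polynomials in `x`. -/
def phiThree (x : R) : R[X] :=
  X ^ 3 + (C (-(x ^ 2 + 24 * x)) * X ^ 2 + C (-(24 * x ^ 2 + 729 * x)) * X + C (x ^ 3))

/-- `G(x, Y)`: the modular equation of level `2` between the Hauptmodul `s3` of `Γ₀(3)` and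
`s3(q²)`, as a monic polynomial in `Y`; all its non-leading coefficients are multiples of `x`. -/
def gThree (x : R) : R[X] :=
  X ^ 3 + (C (-(24 * x + 729 * x ^ 2)) * X ^ 2 + C (-(x + 24 * x ^ 2)) * X + C (x ^ 3))

theorem phiTwo_monic (x : R) : (phiTwo x).Monic := by
  refine monic_X_pow_add (lt_of_le_of_lt (b := (3 : WithBot ℕ)) ?_ (by norm_num))
  compute_degree

theorem gTwo_monic (x : R) : (gTwo x).Monic := by
  refine monic_X_pow_add (lt_of_le_of_lt (b := (3 : WithBot ℕ)) ?_ (by norm_num))
  compute_degree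

theorem phiThree_monic (x : R) : (phiThree x).Monic := by
  refine monic_X_pow_add (lt_of_le_of_lt (b := (2 : WithBot ℕ)) ?_ (by norm_num))
  compute_degree

theorem gThree_monic (x : R) : (gThree x).Monic := by
  refine monic_X_pow_add (lt_of_le_of_lt (b := (2 : WithBot ℕ)) ?_ (by norm_num))
  compute_degree

theorem natDegree_phiTwo [Nontrivial R] (x : R) : (phiTwo x).natDegree = 4 := by
  unfold phiTwo
  compute_degree!

theorem natDegree_gTwo [Nontrivial R] (x : R) : (gTwo x).natDegree = 4 := by
  unfold gTwo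
  compute_degree!

theorem natDegree_phiThree [Nontrivial R] (x : R) : (phiThree x).natDegree = 3 := by
  unfold phiThree
  compute_degree!

theorem natDegree_gThree [Nontrivial R] (x : R) : (gThree x).natDegree = 3 := by
  unfold gThree
  compute_degree!

theorem eval_phiTwo (x y : R) :
    (phiTwo x).eval y = x ^ 4 + y ^ 4 - x ^ 3 * y ^ 3 - 72 * (x ^ 3 * y ^ 2 + x ^ 2 * y ^ 3)
      - 900 * (x ^ 3 * y + x * y ^ 3) + 28422 * x ^ 2 * y ^ 2
      - 294912 * (x ^ 2 * y + x * y ^ 2) - 16777216 * x * y := by
  simp only [phiTwo, eval_add, eval_mul, eval_pow, eval_X, eval_C]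
  ring

theorem eval_gTwo (x y : R) :
    (gTwo x).eval y = y ^ 4 + x ^ 4 - x * y - 72 * (x * y ^ 2 + x ^ 2 * y)
      - 900 * (x * y ^ 3 + x ^ 3 * y) + 28422 * x ^ 2 * y ^ 2
      - 294912 * (x ^ 2 * y ^ 3 + x ^ 3 * y ^ 2) - 16777216 * x ^ 3 * y ^ 3 := by
  simp only [gTwo, eval_add, eval_mul, eval_pow, eval_X, eval_C]
  ring

theorem eval_phiThree (x y : R) :
    (phiThree x).eval y = x ^ 3 + y ^ 3 - x ^ 2 * y ^ 2 - 24 * (x ^ 2 * y + x * y ^ 2)
      - 729 * x * y := by
  simp only [phiThree, eval_add, eval_mul, eval_pow, eval_X, eval_C]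
  ring

theorem eval_gThree (x y : R) :
    (gThree x).eval y = x ^ 3 + y ^ 3 - (x * y + 24 * (x * y ^ 2 + x ^ 2 * y)
      + 729 * x ^ 2 * y ^ 2) := by
  simp only [gThree, eval_add, eval_mul, eval_pow, eval_X, eval_C]
  ring

/-- the four equations are symmetric -/
theorem eval_phiTwo_comm (x y : R) : (phiTwo x).eval y = (phiTwo y).eval x := by
  rw [eval_phiTwo, eval_phiTwo]; ring

theorem eval_gTwo_comm (x y : R) : (gTwo x).eval y = (gTwo y).eval x := by
  rw [eval_gTwo, eval_gTwo]; ring

theorem eval_phiThree_comm (x y : R) : (phiThree x).eval y = (phiThree y).eval x := by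
  rw [eval_phiThree, eval_phiThree]; ring

theorem eval_gThree_comm (x y : R) : (gThree x).eval y = (gThree y).eval x := by
  rw [eval_gThree, eval_gThree]; ring

/-- `G(x, y) = y⁴ + x · (…)`: a root `y` of `G(x, ·)` is "small" when `x` is. -/
theorem eval_gTwo_eq (x y : R) :
    (gTwo x).eval y = y ^ 4 + x * (x ^ 3 - (1 + 72 * x + 900 * x ^ 2) * y
      + (-72 + 28422 * x - 294912 * x ^ 2) * y ^ 2
      - (900 + 294912 * x + 16777216 * x ^ 2) * y ^ 3) := by
  rw [eval_gTwo]; ring

/-- `G(x, y) = y³ + x · (…)`: a root `y` of `G(x, ·)` is "small" when `x` is. -/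
theorem eval_gThree_eq (x y : R) :
    (gThree x).eval y = y ^ 3 + x * (x ^ 2 - (1 + 24 * x) * y - (24 + 729 * x) * y ^ 2) := by
  rw [eval_gThree]; ring

variable {S : Type*} [CommRing S] (f : R →+* S)

theorem map_phiTwo (x : R) : (phiTwo x).map f = phiTwo (f x) := by
  simp [phiTwo, map_ofNat]

theorem map_gTwo (x : R) : (gTwo x).map f = gTwo (f x) := by
  simp [gTwo, map_ofNat]

theorem map_phiThree (x : R) : (phiThree x).map f = phiThree (f x) := by
  simp [phiThree, map_ofNat]

theorem map_gThree (x : R) : (gThree x).map f = gThree (f x) := by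
  simp [gThree, map_ofNat]

/-! The same as two-variable polynomials over an arbitrary base ring `R₀` (inner variable `x`,
outer variable `Y`), with the evaluation
`P.eval₂ (Polynomial.eval₂RingHom φ x) y` (`= S37.ChartStable.ev2 φ x y P`). -/

variable (R) in
/-- `Φ` for the chart `1/s2`, Hecke prime `3`, as a two-variable polynomial -/
def phiTwoPoly : Polynomial (Polynomial R) := phiTwo (X : R[X])

variable (R) in
/-- `G` for the Hauptmodul `s2`, Hecke prime `3`, as a two-variable polynomial -/
def gTwoPoly : Polynomial (Polynomial R) := gTwo (X : R[X])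

variable (R) in
/-- `Φ` for the chart `1/s3`, Hecke prime `2`, as a two-variable polynomial -/
def phiThreePoly : Polynomial (Polynomial R) := phiThree (X : R[X])

variable (R) in
/-- `G` for the Hauptmodul `s3`, Hecke prime `2`, as a two-variable polynomial -/
def gThreePoly : Polynomial (Polynomial R) := gThree (X : R[X])

theorem phiTwoPoly_monic : (phiTwoPoly R).Monic := phiTwo_monic _

theorem gTwoPoly_monic : (gTwoPoly R).Monic := gTwo_monic _

theorem phiThreePoly_monic : (phiThreePoly R).Monic := phiThree_monic _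

theorem gThreePoly_monic : (gThreePoly R).Monic := gThree_monic _

theorem natDegree_phiTwoPoly [Nontrivial R] : (phiTwoPoly R).natDegree = 4 := natDegree_phiTwo _

theorem natDegree_gTwoPoly [Nontrivial R] : (gTwoPoly R).natDegree = 4 := natDegree_gTwo _

theorem natDegree_phiThreePoly [Nontrivial R] : (phiThreePoly R).natDegree = 3 :=
  natDegree_phiThree _

theorem natDegree_gThreePoly [Nontrivial R] : (gThreePoly R).natDegree = 3 := natDegree_gThree _

theorem eval₂_phiTwoPoly (x y : S) :
    (phiTwoPoly R).eval₂ (eval₂RingHom f x) y = (phiTwo x).eval y := by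
  rw [eval₂_eq_eval_map, phiTwoPoly, map_phiTwo, coe_eval₂RingHom, eval₂_X]

theorem eval₂_gTwoPoly (x y : S) :
    (gTwoPoly R).eval₂ (eval₂RingHom f x) y = (gTwo x).eval y := by
  rw [eval₂_eq_eval_map, gTwoPoly, map_gTwo, coe_eval₂RingHom, eval₂_X]

theorem eval₂_phiThreePoly (x y : S) :
    (phiThreePoly R).eval₂ (eval₂RingHom f x) y = (phiThree x).eval y := by
  rw [eval₂_eq_eval_map, phiThreePoly, map_phiThree, coe_eval₂RingHom, eval₂_X]

theorem eval₂_gThreePoly (x y : S) :
    (gThreePoly R).eval₂ (eval₂RingHom f x) y = (gThree x).eval y := by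
  rw [eval₂_eq_eval_map, gThreePoly, map_gThree, coe_eval₂RingHom, eval₂_X]

/-- A root of `Φ(x, ·)` is integral over any subring containing `x`. -/
theorem isIntegral_of_eval_phiTwo (T : Subring R) {x y : R} (hx : x ∈ T)
    (h : (phiTwo x).eval y = 0) : IsIntegral T y := by
  refine ⟨phiTwo (⟨x, hx⟩ : T), phiTwo_monic _, ?_⟩
  rw [eval₂_eq_eval_map, map_phiTwo]
  exact h

theorem isIntegral_of_eval_gTwo (T : Subring R) {x y : R} (hx : x ∈ T)
    (h : (gTwo x).eval y = 0) : IsIntegral T y := by
  refine ⟨gTwo (⟨x, hx⟩ : T), gTwo_monic _, ?_⟩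
  rw [eval₂_eq_eval_map, map_gTwo]
  exact h

theorem isIntegral_of_eval_phiThree (T : Subring R) {x y : R} (hx : x ∈ T)
    (h : (phiThree x).eval y = 0) : IsIntegral T y := by
  refine ⟨phiThree (⟨x, hx⟩ : T), phiThree_monic _, ?_⟩
  rw [eval₂_eq_eval_map, map_phiThree]
  exact h

theorem isIntegral_of_eval_gThree (T : Subring R) {x y : R} (hx : x ∈ T)
    (h : (gThree x).eval y = 0) : IsIntegral T y := by
  refine ⟨gThree (⟨x, hx⟩ : T), gThree_monic _, ?_⟩
  rw [eval₂_eq_eval_map, map_gThree]
  exact h

end Poly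

/-! ### The modular equations in polynomial form, over `ℚ` and over any field `L ⊇ ℚ` -/

section Final

open Polynomial ModularCurve

/-- `G(s2, s2(q³)) = 0` -/
theorem eval_gTwo_s2 : (gTwo Two.s2).eval (qExpand ℚ 3 Two.s2) = 0 := by
  rw [eval_gTwo]
  exact modEq_two

/-- `G(s2(q³), s2) = 0` -/
theorem eval_gTwo_s2' : (gTwo (qExpand ℚ 3 Two.s2)).eval Two.s2 = 0 := by
  rw [← eval_gTwo_comm]
  exact eval_gTwo_s2

/-- `G(s3, s3(q²)) = 0` -/
theorem eval_gThree_s3 : (gThree Three.s3).eval (qExpand ℚ 2 Three.s3) = 0 := by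
  rw [eval_gThree, modEq_three, sub_self]

/-- `G(s3(q²), s3) = 0` -/
theorem eval_gThree_s3' : (gThree (qExpand ℚ 2 Three.s3)).eval Three.s3 = 0 := by
  rw [← eval_gThree_comm]
  exact eval_gThree_s3

/-- `Φ(u, u(q³)) = 0` for `u = 1/s2` -/
theorem eval_phiTwo_s2 : (phiTwo Two.s2⁻¹).eval (qExpand ℚ 3 Two.s2⁻¹) = 0 := by
  rw [map_inv₀, eval_phiTwo]
  exact modEq_two_inv

/-- `Φ(u(q³), u) = 0` for `u = 1/s2` -/
theorem eval_phiTwo_s2' : (phiTwo (qExpand ℚ 3 Two.s2⁻¹)).eval Two.s2⁻¹ = 0 := by
  rw [← eval_phiTwo_comm]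
  exact eval_phiTwo_s2

/-- `Φ(u, u(q²)) = 0` for `u = 1/s3` -/
theorem eval_phiThree_s3 : (phiThree Three.s3⁻¹).eval (qExpand ℚ 2 Three.s3⁻¹) = 0 := by
  rw [map_inv₀, eval_phiThree]
  exact modEq_three_inv

/-- `Φ(u(q²), u) = 0` for `u = 1/s3` -/
theorem eval_phiThree_s3' : (phiThree (qExpand ℚ 2 Three.s3⁻¹)).eval Three.s3⁻¹ = 0 := by
  rw [← eval_phiThree_comm]
  exact eval_phiThree_s3

variable (L : Type*) [Field L] [Algebra ℚ L]

theorem coeffEmb_qExpand (d : ℕ) [NeZero d] (x : LaurentSeries ℚ) :
    coeffEmb L (qExpand ℚ d x) = qExpand L d (coeffEmb L x) :=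
  coeffMap_qExpand _ d x

/-- `G(s2, s2(q³)) = 0` over `L` -/
theorem eval_gTwo_coeffEmb :
    (gTwo (coeffEmb L Two.s2)).eval (qExpand L 3 (coeffEmb L Two.s2)) = 0 := by
  have h := congrArg (coeffEmb L) eval_gTwo_s2
  rwa [← eval_map_apply, map_gTwo, coeffEmb_qExpand, map_zero] at h

/-- `G(s2(q³), s2) = 0` over `L` -/
theorem eval_gTwo_coeffEmb' :
    (gTwo (qExpand L 3 (coeffEmb L Two.s2))).eval (coeffEmb L Two.s2) = 0 := by
  rw [← eval_gTwo_comm]
  exact eval_gTwo_coeffEmb L

/-- `G(s3, s3(q²)) = 0` over `L` -/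
theorem eval_gThree_coeffEmb :
    (gThree (coeffEmb L Three.s3)).eval (qExpand L 2 (coeffEmb L Three.s3)) = 0 := by
  have h := congrArg (coeffEmb L) eval_gThree_s3
  rwa [← eval_map_apply, map_gThree, coeffEmb_qExpand, map_zero] at h

/-- `G(s3(q²), s3) = 0` over `L` -/
theorem eval_gThree_coeffEmb' :
    (gThree (qExpand L 2 (coeffEmb L Three.s3))).eval (coeffEmb L Three.s3) = 0 := by
  rw [← eval_gThree_comm]
  exact eval_gThree_coeffEmb L

/-- `Φ(u, u(q³)) = 0` for the chart `u = 1/s2` over `L` (`u = ↑(HorizTwo.h2E M E h)`) -/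
theorem eval_phiTwo_coeffEmb :
    (phiTwo (coeffEmb L Two.s2)⁻¹).eval (qExpand L 3 (coeffEmb L Two.s2)⁻¹) = 0 := by
  have h := congrArg (coeffEmb L) eval_phiTwo_s2
  rwa [← eval_map_apply, map_phiTwo, coeffEmb_qExpand, map_inv₀, map_zero] at h

/-- `Φ(u(q³), u) = 0` for the chart `u = 1/s2` over `L` -/
theorem eval_phiTwo_coeffEmb' :
    (phiTwo (qExpand L 3 (coeffEmb L Two.s2)⁻¹)).eval (coeffEmb L Two.s2)⁻¹ = 0 := by
  rw [← eval_phiTwo_comm]
  exact eval_phiTwo_coeffEmb L

/-- `Φ(u, u(q²)) = 0` for the chart `u = 1/s3` over `L` (`u = ↑(HorizThree.h3E M E h)`) -/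
theorem eval_phiThree_coeffEmb :
    (phiThree (coeffEmb L Three.s3)⁻¹).eval (qExpand L 2 (coeffEmb L Three.s3)⁻¹) = 0 := by
  have h := congrArg (coeffEmb L) eval_phiThree_s3
  rwa [← eval_map_apply, map_phiThree, coeffEmb_qExpand, map_inv₀, map_zero] at h

/-- `Φ(u(q²), u) = 0` for the chart `u = 1/s3` over `L` -/
theorem eval_phiThree_coeffEmb' :
    (phiThree (qExpand L 2 (coeffEmb L Three.s3)⁻¹)).eval (coeffEmb L Three.s3)⁻¹ = 0 := by
  rw [← eval_phiThree_comm]
  exact eval_phiThree_coeffEmb L

end Final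

end Fermat.Agent.S30.Haupt.ModEq
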