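import Mathlib
import Fermat.Agent.S30.Haupt.Two

/-!
# `s2 = Δ(q²)/Δ(q)` lies in `ℚ(j(q), j(q²))`

Explicit elimination from `j s = (1 + 256 s)³` and `j(q²) s² = (1 + 16 s)³`:
`α s + β = 0` with `α = -4096 j₂² - 799211520 j₂ - 16773120 j - 2707292160000 ≠ 0`.
-/

set_option autoImplicit false

noncomputable section

namespace Fermat.Agent.S30.Haupt.MemTwo

open ModularCurve
open Fermat.Agent.S28.SturmDep Fermat.Agent.S28.SturmMF Fermat.Agent.S30.Haupt.Two

local notation "J" => jq
local notation "J2" => qExpand ℚ 2 jq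

theorem s2_ne_zero : s2 ≠ 0 := by
  intro h
  have h1 := s2_mul
  rw [h, zero_mul, ← emb_pexp] at h1
  exact Graded.emb_ne_zero (pexp_ne_zero 2 deltaQ_ne_zero) h1.symm

/-- the coefficient of `s2` in the linear relation -/
def alpha : LaurentSeries ℚ :=
  (2949120 - 4096 * J2) * (J2 + 195840) - 16773120 * (J + 195840)

/-- the constant term of the linear relation -/
def beta : LaurentSeries ℚ :=
  (2949120 - 4096 * J2) * (720 - J) - 16773120 * 4095

theorem alpha_mul_add : alpha * s2 + beta = 0 := by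
  have hJ := jq_mul_s2
  have hJ2 := jq2_mul_s2
  have h : s2 * (alpha * s2 + beta) = 0 := by
    rw [alpha, beta]
    linear_combination (-((2949120 - 4096 * J2) + 16773120 * s2)) * hJ
      + ((2949120 - 4096 * J2) + 4096 * 16773120 * s2) * hJ2
  rcases mul_eq_zero.mp h with h | h
  · exact absurd h s2_ne_zero
  · exact h

theorem alpha_eq : alpha = HahnSeries.C (-4096 : ℚ) * J2 ^ 2 + HahnSeries.C (-799211520 : ℚ) * J2
    + HahnSeries.C (-16773120 : ℚ) * J + HahnSeries.C (-2707292160000 : ℚ) := by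
  rw [alpha]
  simp only [map_neg, map_ofNat]
  ring

theorem alpha_ne_zero : alpha ≠ 0 := by
  intro h
  have h1 := congrArg (fun x : LaurentSeries ℚ => x.coeff (-4)) h
  simp only [HahnSeries.coeff_zero] at h1
  have e1 : (J2 ^ 2).coeff (-4) = 1 := by
    rw [← map_pow, show (-4 : ℤ) = ((2 : ℕ) : ℤ) * (-((2 : ℕ) : ℤ)) by norm_num, qExpand_coeff_mul,
      coeff_jq_pow_self]
  have e2 : (J2).coeff (-4) = 0 := by
    rw [show (-4 : ℤ) = ((2 : ℕ) : ℤ) * (-2) by norm_num, qExpand_coeff_mul]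
    exact coeff_jq_of_lt (by norm_num)
  have e3 : (J).coeff (-4) = 0 := coeff_jq_of_lt (by norm_num)
  rw [alpha_eq, HahnSeries.coeff_add, HahnSeries.coeff_add, HahnSeries.coeff_add,
    HahnSeries.C_mul_eq_smul, HahnSeries.C_mul_eq_smul, HahnSeries.C_mul_eq_smul,
    HahnSeries.coeff_smul, HahnSeries.coeff_smul, HahnSeries.coeff_smul, e1, e2, e3,
    HahnSeries.C_apply, HahnSeries.coeff_single_of_ne (by norm_num)] at h1
  norm_num at h1

/-- **`s2 ∈ ℚ(j(q), j(q²))`**. -/
theorem s2_mem : s2 ∈ modularFunctionField 2 := by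
  have h : s2 = -beta / alpha := by
    rw [eq_div_iff alpha_ne_zero]
    linear_combination alpha_mul_add
  have hJ : J ∈ modularFunctionField 2 := jq_mem 2
  have hJ2 : J2 ∈ modularFunctionField 2 := jqN_mem 2
  have hn (n : ℕ) [n.AtLeastTwo] : (OfNat.ofNat n : LaurentSeries ℚ) ∈ modularFunctionField 2 :=
    ofNat_mem _ n
  rw [h, alpha, beta]
  exact div_mem (neg_mem (sub_mem (mul_mem (sub_mem (hn _) (mul_mem (hn _) hJ2))
    (sub_mem (hn _) hJ)) (mul_mem (hn _) (hn _))))
    (sub_mem (mul_mem (sub_mem (hn _) (mul_mem (hn _) hJ2)) (add_mem hJ2 (hn _)))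
      (mul_mem (hn _) (add_mem hJ (hn _))))

/-- `s2` lies in the full modular function field of every even level. -/
theorem s2_mem_full (M : ℕ) [NeZero M] (h : 2 ∣ M) : s2 ∈ modularFunctionFieldFull M :=
  full_degeneracy_le h (modularFunctionField_le_full 2 s2_mem)

end Fermat.Agent.S30.Haupt.MemTwo
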