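import Mathlib
import Fermat.Agent.S30.Ramif.Places
import Fermat.Agent.S30.Haupt.MemTwo

/-!
# Branch data of `F_M / ℚ̄(s2)` in place form (`2 ∣ M`)

`s2 = Δ(q²)/Δ(q)` is the Hauptmodul of `Γ₀(2)` (`j s2 = (1 + 256 s2)³`).  For every place `v` of
`F_M = ℚ̄(j(q^d) : d ∣ M)` and every `α ∈ ℚ̄`, `α ≠ 0`, `α ≠ -1/64`:

  `0 < v.ord (s2 - α) → v.ord (s2 - α) = 1`,

i.e. `F_M / ℚ̄(s2)` is unramified outside `s2 ∈ {0, -1/64, ∞}`.  Proof: multiplicativity of
ramification indices in the tower `ℚ̄(j) ⊆ ℚ̄(s2) ⊆ F_M` and the data of `S30.Ramif` at level `M`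
(`e = 1` over `j ≠ 0, 1728`, `e ∣ 3` over `0`, `e ∣ 2` over `1728`); the fibre of `s2 ↦ j` over
`0` is `{-1/256}` with multiplicity `3`, over `1728` it is `{1/512}` (multiplicity `2`) and
`{-1/64}` (multiplicity `1`).
-/

set_option autoImplicit false

noncomputable section

namespace Fermat.Agent.S30.Haupt.BranchTwo

open AlgebraicCurve ModularCurve
open Fermat.Agent.S24.Modular Fermat.Agent.S24.FF

/-! ### Generic valuation lemmas -/

section Generic

variable {K F : Type*} [Field K] [Field F] [Algebra K F] (v : Place K F)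

theorem ne_zero_of_ord_pos {x : F} (hx : 0 < v.ord x) : x ≠ 0 := by
  rintro rfl
  simp at hx

/-- `c + t y` is a unit at `v` when `c` is a nonzero constant, `v(t) > 0` and `y` is integral. -/
theorem ord_const_add (c : K) (hc : c ≠ 0) (t y : F) (ht : 0 < v.ord t)
    (hy : y ∈ v.toValuationSubring) :
    algebraMap K F c + t * y ≠ 0 ∧ v.ord (algebraMap K F c + t * y) = 0 := by
  have hc' : algebraMap K F c ≠ 0 := (map_ne_zero (algebraMap K F)).mpr hc
  by_cases h0 : t * y = 0
  · rw [h0, add_zero]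
    exact ⟨hc', ord_algebraMap v c⟩
  · have ht0 : t ≠ 0 := left_ne_zero_of_mul h0
    have hy0 : y ≠ 0 := right_ne_zero_of_mul h0
    have h1 : 0 < v.ord (t * y) := by
      rw [v.ord_mul ht0 hy0]
      have := ord_nonneg_of_mem v hy
      omega
    have h2 : v.ord (algebraMap K F c + t * y) = v.ord (algebraMap K F c) :=
      ord_add_eq_of_lt v (by rw [ord_algebraMap]; exact h1) hc' h0
    rw [ord_algebraMap] at h2
    refine ⟨?_, h2⟩
    intro h
    have h3 : algebraMap K F c = -(t * y) := eq_neg_of_add_eq_zero_left h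
    have h4 := ord_algebraMap v c
    rw [h3, ord_neg] at h4
    omega

theorem ord_pow' (x : F) (n : ℕ) : v.ord (x ^ n) = n * v.ord x := by
  have := v.ord_zpow x n
  simpa using this

end Generic

/-! ### Polynomial identities (any field) -/

section Identities

variable {F : Type*} [Field F]

/-- Taylor expansion of `A (1 + 256 S)³ - S (1 + 256 A)³` at `S = A`. -/
theorem key_generic (J S A a c0 c1 c2 : F) (hJ : J * S = (1 + 256 * S) ^ 3)
    (ha : a * A = (1 + 256 * A) ^ 3)
    (h0 : c0 = (1 + 256 * A) ^ 2 * (512 * A - 1)) (h1 : c1 = 196608 * A * (1 + 256 * A))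
    (h2 : c2 = 16777216 * A) :
    (J - a) * S * A = (S - A) * (c0 + (S - A) * (c1 + c2 * (S - A))) := by
  subst h0 h1 h2
  linear_combination A * hJ - S * ha

theorem key_zero (J S A c : F) (hJ : J * S = (1 + 256 * S) ^ 3) (hA : 1 + 256 * A = 0)
    (hc : c = 256) : J * S = (c * (S - A)) ^ 3 := by
  subst hc
  have h : 1 + 256 * S = 256 * (S - A) := by linear_combination hA
  rw [hJ, h]

end Identities

/-! ### The element `s2` of `F_M` -/

variable (M : ℕ) [NeZero M]

/-- `s2 = Δ(q²)/Δ(q)` as an element of the function field of `X₀(M)` over `ℚ̄` (`2 ∣ M`). -/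
def s2F (h : 2 ∣ M) : FN M :=
  ⟨coeffEmb Kbar Two.s2, coeffEmb_mem_laurentBaseChange Kbar (MemTwo.s2_mem_full M h)⟩

@[simp] theorem coe_s2F (h : 2 ∣ M) :
    ((s2F M h : FN M) : LaurentSeries Kbar) = coeffEmb Kbar Two.s2 := rfl

/-- `j · s2 = (1 + 256 s2)³` in `F_M`. -/
theorem jF_mul_s2F (h : 2 ∣ M) : jF M * s2F M h = (1 + 256 * s2F M h) ^ 3 := by
  apply Subtype.ext
  have h1 := congrArg (coeffEmb Kbar) Two.jq_mul_s2
  simp only [map_mul, map_pow, map_add, map_one, map_ofNat] at h1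
  have h2 : ((jF M * s2F M h : FN M) : LaurentSeries Kbar)
      = coeffEmb Kbar jq * coeffEmb Kbar Two.s2 := rfl
  have h3 : (((1 + 256 * s2F M h) ^ 3 : FN M) : LaurentSeries Kbar)
      = (1 + 256 * coeffEmb Kbar Two.s2) ^ 3 := rfl
  rw [h2, h3]
  exact h1

theorem s2F_ne_zero (h : 2 ∣ M) : s2F M h ≠ 0 := by
  intro h0
  have h1 := jF_mul_s2F M h
  rw [h0] at h1
  norm_num at h1

/-- **`F_M / ℚ̄(s2)` is unramified outside `s2 ∈ {0, -1/64, ∞}`** (place form). -/
theorem ord_s2F_sub_eq_one (h : 2 ∣ M) (α : Kbar) (h0 : α ≠ 0) (h1 : 64 * α + 1 ≠ 0)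
    (v : Place Kbar (FN M)) (hv : 0 < v.ord (s2F M h - algebraMap Kbar (FN M) α)) :
    v.ord (s2F M h - algebraMap Kbar (FN M) α) = 1 := by
  set S := s2F M h with hS
  set A := algebraMap Kbar (FN M) α with hA
  have hJ : jF M * S = (1 + 256 * S) ^ 3 := jF_mul_s2F M h
  have hA0 : A ≠ 0 := (map_ne_zero _).mpr h0
  have ht0 : S - A ≠ 0 := ne_zero_of_ord_pos v hv
  have htV : S - A ∈ v.toValuationSubring := mem_of_ord_pos v hv
  have hAV (c : Kbar) : algebraMap Kbar (FN M) c ∈ v.toValuationSubring := v.algebraMap_mem' c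
  -- `v(S) = 0`
  have hS0 : S ≠ 0 := s2F_ne_zero M h
  have hSord : v.ord S = 0 := by
    have := (ord_const_add v α h0 (S - A) 1 hv (one_mem _)).2
    rwa [mul_one, ← hA, add_sub_cancel] at this
  have hAord : v.ord A = 0 := ord_algebraMap v α
  by_cases hc : 1 + 256 * α = 0
  · -- the fibre over `j = 0`
    have hAc : 1 + 256 * A = 0 := by
      have := congrArg (algebraMap Kbar (FN M)) hc
      rw [map_add, map_mul, map_one, map_ofNat, map_zero] at this
      exact this
    have hJ' : jF M * S = (algebraMap Kbar (FN M) 256 * (S - A)) ^ 3 :=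
      key_zero (jF M) S A (algebraMap Kbar (FN M) 256) hJ hAc (map_ofNat _ 256)
    have h256 : algebraMap Kbar (FN M) 256 ≠ 0 := (map_ne_zero _).mpr (by norm_num)
    have hJ0 : jF M ≠ 0 := by
      intro hz
      rw [hz, zero_mul] at hJ'
      exact (pow_ne_zero 3 (mul_ne_zero h256 ht0)) hJ'.symm
    have hord := congrArg v.ord hJ'
    rw [v.ord_mul hJ0 hS0, hSord, ord_pow', v.ord_mul h256 ht0, ord_algebraMap] at hord
    have hJpos : 0 < v.ord (jF M) := by omega
    have hdvd := Fermat.Agent.S30.Ramif.ord_zero_dvd M v hJpos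
    have hle := Int.le_of_dvd (by norm_num) hdvd
    push_cast at hord
    omega
  · -- `j(α) = a ≠ 0`
    set a : Kbar := (1 + 256 * α) ^ 3 / α with ha
    have haα : a * α = (1 + 256 * α) ^ 3 := by rw [ha]; field_simp
    have haA : algebraMap Kbar (FN M) a * A = (1 + 256 * A) ^ 3 := by
      have := congrArg (algebraMap Kbar (FN M)) haα
      rw [map_mul, map_pow, map_add, map_mul, map_one, map_ofNat] at this
      exact this
    have key : (jF M - algebraMap Kbar (FN M) a) * S * A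
        = (S - A) * (algebraMap Kbar (FN M) ((1 + 256 * α) ^ 2 * (512 * α - 1))
          + (S - A) * (algebraMap Kbar (FN M) (196608 * α * (1 + 256 * α))
            + algebraMap Kbar (FN M) (16777216 * α) * (S - A))) := by
      refine key_generic (jF M) S A _ _ _ _ hJ haA ?_ ?_ ?_
      · rw [map_mul, map_pow, map_add, map_sub, map_mul, map_mul, map_one, map_ofNat, map_ofNat]
      · rw [map_mul, map_mul, map_add, map_mul, map_one, map_ofNat, map_ofNat]
      · rw [map_mul, map_ofNat]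
    by_cases hd : 512 * α - 1 = 0
    · -- the fibre over `j = 1728`, point `α = 1/512`
      have ha1728 : a = 1728 := by
        have h512 : α = 1 / 512 := by linear_combination (1 / 512 : Kbar) * hd
        rw [ha, h512]; norm_num
      rw [hd, mul_zero, map_zero, zero_add, ha1728] at key
      obtain ⟨hB0, hBord⟩ := ord_const_add v (196608 * α * (1 + 256 * α))
        (mul_ne_zero (mul_ne_zero (by norm_num) h0) hc) (S - A)
        (algebraMap Kbar (FN M) (16777216 * α)) hv (hAV _)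
      rw [mul_comm (algebraMap Kbar (FN M) (16777216 * α)) (S - A)] at key
      have hJ0 : jF M - algebraMap Kbar (FN M) 1728 ≠ 0 := by
        intro hz
        rw [hz, zero_mul, zero_mul] at key
        exact (mul_ne_zero ht0 (mul_ne_zero ht0 hB0)) key.symm
      have hord := congrArg v.ord key
      rw [v.ord_mul (mul_ne_zero hJ0 hS0) hA0, v.ord_mul hJ0 hS0, hSord, hAord,
        v.ord_mul ht0 (mul_ne_zero ht0 hB0), v.ord_mul ht0 hB0, hBord] at hord
      have hJpos : 0 < v.ord (jF M - algebraMap Kbar (FN M) 1728) := by omega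
      have hdvd := Fermat.Agent.S30.Ramif.ord_1728_dvd M v hJpos
      have hle := Int.le_of_dvd (by norm_num) hdvd
      omega
    · -- generic fibre
      have ha0 : a ≠ 0 := by
        rw [ha]; exact div_ne_zero (pow_ne_zero 3 hc) h0
      have ha1 : a ≠ 1728 := by
        intro h1728
        have : (64 * α + 1) * (512 * α - 1) ^ 2 = 0 := by
          have h2 : (1 + 256 * α) ^ 3 = 1728 * α := by rw [← haα, h1728]
          linear_combination h2
        rcases mul_eq_zero.mp this with h3 | h3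
        · exact h1 h3
        · exact hd (pow_eq_zero_iff (n := 2) (by norm_num) |>.mp h3)
      obtain ⟨hB0, hBord⟩ := ord_const_add v ((1 + 256 * α) ^ 2 * (512 * α - 1))
        (mul_ne_zero (pow_ne_zero 2 hc) hd) (S - A)
        (algebraMap Kbar (FN M) (196608 * α * (1 + 256 * α))
            + algebraMap Kbar (FN M) (16777216 * α) * (S - A)) hv
        (add_mem (hAV _) (mul_mem (hAV _) htV))
      have hJ0 : jF M - algebraMap Kbar (FN M) a ≠ 0 := by
        intro hz
        rw [hz, zero_mul, zero_mul] at key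
        exact (mul_ne_zero ht0 hB0) key.symm
      have hord := congrArg v.ord key
      rw [v.ord_mul (mul_ne_zero hJ0 hS0) hA0, v.ord_mul hJ0 hS0, hSord, hAord,
        v.ord_mul ht0 hB0, hBord] at hord
      have hJpos : 0 < v.ord (jF M - algebraMap Kbar (FN M) a) := by omega
      have h1' := Fermat.Agent.S30.Ramif.ord_generic M a ha0 ha1 v hJpos
      omega

/-- `s2` is not a constant. -/
theorem s2F_not_const (h : 2 ∣ M) (a : Kbar) : s2F M h ≠ algebraMap Kbar (FN M) a := by
  intro hs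
  have ha0 : a ≠ 0 := by
    rintro rfl
    exact s2F_ne_zero M h (by rw [hs, map_zero])
  have hJ := jF_mul_s2F M h
  rw [hs] at hJ
  apply Fermat.Agent.S24.DegreeGen.jBar_not_mem_range M
  refine ⟨(1 + 256 * a) ^ 3 / a, ?_⟩
  have hA0 : algebraMap Kbar (FN M) a ≠ 0 := (map_ne_zero _).mpr ha0
  have h1 : algebraMap Kbar (FN M) ((1 + 256 * a) ^ 3 / a) * algebraMap Kbar (FN M) a
      = (1 + 256 * algebraMap Kbar (FN M) a) ^ 3 := by
    rw [← map_mul, div_mul_cancel₀ _ ha0, map_pow, map_add, map_mul, map_one, map_ofNat]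
  exact mul_right_cancel₀ hA0 (h1.trans hJ.symm)

/-! ### The Hauptmodul `h2 = 1/s2 = Δ(q)/Δ(q²)` -/

/-- `h2 = 1/s2 = Δ(q)/Δ(q²)` as an element of the function field of `X₀(M)` over `ℚ̄`. -/
def h2F (h : 2 ∣ M) : FN M := (s2F M h)⁻¹

theorem h2F_ne_zero (h : 2 ∣ M) : h2F M h ≠ 0 := inv_ne_zero (s2F_ne_zero M h)

theorem h2F_not_const (h : 2 ∣ M) (a : Kbar) : h2F M h ≠ algebraMap Kbar (FN M) a := by
  intro hs
  apply s2F_not_const M h a⁻¹
  rw [map_inv₀, ← hs, h2F, inv_inv]

/-- `j · h2² = (h2 + 256)³` in `F_M`. -/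
theorem jF_mul_h2F (h : 2 ∣ M) : jF M * h2F M h ^ 2 = (h2F M h + 256) ^ 3 := by
  have hS0 := s2F_ne_zero M h
  have hJ := jF_mul_s2F M h
  have h1 : h2F M h * s2F M h = 1 := inv_mul_cancel₀ hS0
  have h2 : (h2F M h + 256) = h2F M h * (1 + 256 * s2F M h) := by
    rw [mul_add, mul_one, mul_left_comm, h1, mul_one]
  rw [h2, mul_pow, ← hJ]
  have h3 : h2F M h ^ 3 * (jF M * s2F M h) = jF M * h2F M h ^ 2 * (h2F M h * s2F M h) := by
    rw [pow_succ (h2F M h) 2]
    simp only [mul_assoc, mul_comm, mul_left_comm]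
  rw [h3, h1, mul_one]

/-- **`F_M / ℚ̄(h2)` is unramified outside `h2 ∈ {0, -64, ∞}`** (place form). -/
theorem ord_h2F_sub_eq_one (h : 2 ∣ M) (β : Kbar) (h0 : β ≠ 0) (h1 : β + 64 ≠ 0)
    (v : Place Kbar (FN M)) (hv : 0 < v.ord (h2F M h - algebraMap Kbar (FN M) β)) :
    v.ord (h2F M h - algebraMap Kbar (FN M) β) = 1 := by
  have hS0 := s2F_ne_zero M h
  have hB0 : algebraMap Kbar (FN M) β ≠ 0 := (map_ne_zero _).mpr h0
  -- `v(h2) = 0`
  have hHord : v.ord (h2F M h) = 0 := by
    have := (ord_const_add v β h0 (h2F M h - algebraMap Kbar (FN M) β) 1 hv (one_mem _)).2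
    rwa [mul_one, add_sub_cancel] at this
  have hSord : v.ord (s2F M h) = 0 := by
    have := v.ord_inv (s2F M h)
    rw [← h2F, hHord] at this
    omega
  have hne : s2F M h - algebraMap Kbar (FN M) β⁻¹ ≠ 0 :=
    sub_ne_zero.mpr (s2F_not_const M h β⁻¹)
  have hrel : h2F M h - algebraMap Kbar (FN M) β
      = -(algebraMap Kbar (FN M) β * ((s2F M h - algebraMap Kbar (FN M) β⁻¹) * (s2F M h)⁻¹)) := by
    rw [map_inv₀, h2F]
    field_simp
    ring
  have hord : v.ord (h2F M h - algebraMap Kbar (FN M) β)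
      = v.ord (s2F M h - algebraMap Kbar (FN M) β⁻¹) := by
    rw [hrel, ord_neg, v.ord_mul hB0 (mul_ne_zero hne (inv_ne_zero hS0)),
      v.ord_mul hne (inv_ne_zero hS0), v.ord_inv, hSord, ord_algebraMap]
    ring
  rw [hord] at hv ⊢
  refine ord_s2F_sub_eq_one M h β⁻¹ (inv_ne_zero h0) ?_ v hv
  intro h64
  apply h1
  have : 64 * β⁻¹ * β + 1 * β = 0 := by rw [← add_mul, h64, zero_mul]
  rw [mul_assoc, inv_mul_cancel₀ h0] at this
  linear_combination this

end Fermat.Agent.S30.Haupt.BranchTwo
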