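import Mathlib
import Fermat.Agent.S30.Haupt.Three
import Fermat.Agent.S30.Haupt.MemTwo
import Fermat.Prelude.Def_ModularCurve_ArithmeticGalois

/-!
# `s3 = (η(q³)/η(q))¹²` lies in `ℚ(j(q), j(q³))`  (helper212)

Explicit elimination from `j s = (1 + 27 s)(1 + 243 s)³` and `j(q³) s³ = (1 + 27 s)(1 + 3 s)³`:
`s · A3(j, j₃) = B3(j, j₃)` for two explicit polynomials `A3`, `B3 ∈ ℤ[j, j₃]` (found by exact
linear algebra), and `B3(j, j₃) · s⁷ = 729 + s · (…)` is a power series with constant term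
`729 ≠ 0`, so `A3 ≠ 0` and `s = B3 / A3`.

Also: the base-changed versions (`coeffEmb`) for the levels `2` and `3`.
-/

set_option autoImplicit false

noncomputable section

namespace Fermat.Agent.S30.Haupt.MemThree

open ModularCurve
open Fermat.Agent.S28.SturmDep Fermat.Agent.S28.SturmMF Fermat.Agent.S30.Haupt.Three

/-- the numerator polynomial of the elimination -/
def B3 {F : Type*} [Field F] (j k : F) : F :=
  j ^ 3 + 196830 * j ^ 2 * k + 729 * j * k ^ 2 - 103456080 * j ^ 2 + 18821147040 * j * k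
    - 524880 * k ^ 2 + 276373831680000 * j + 14229831680000 * k - 3623878656000000000

/-- the denominator polynomial of the elimination -/
def A3 {F : Type*} [Field F] (j k : F) : F :=
  729 * j ^ 2 * k ^ 2 - 1076004 * (j ^ 2 * k + j * k ^ 2) + 253517040 * (j ^ 2 + k ^ 2)
    - 1065366781920 * j * k - 1973615984640000 * (j + k) + 97844723712000000000

/-- **The elimination identity** (any field): if `j s = (1 + 27 s)(1 + 243 s)³` and
`k s³ = (1 + 27 s)(1 + 3 s)³` then `s · A3(j, k) = B3(j, k)`. -/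
theorem s_mul_A3 {F : Type*} [Field F] (j k s : F) (hs : s ≠ 0)
    (hj : j * s = (1 + 27 * s) * (1 + 243 * s) ^ 3)
    (hk : k * s ^ 3 = (1 + 27 * s) * (1 + 3 * s) ^ 3) : s * A3 j k = B3 j k := by
  have hj' : j = (1 + 27 * s) * (1 + 243 * s) ^ 3 / s := by
    rw [eq_div_iff hs]
    exact hj
  have hk' : k = (1 + 27 * s) * (1 + 3 * s) ^ 3 / s ^ 3 := by
    rw [eq_div_iff (pow_ne_zero 3 hs)]
    exact hk
  rw [A3, B3, hj', hk']
  field_simp
  ring

/-- `B3(j, k) · s⁷ = 729 · P · Q² + s · (…)` with `P = j s`, `Q = k s³`. -/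
theorem B3_mul_pow {F : Type*} [Field F] (j k s : F)
    (hj : j * s = (1 + 27 * s) * (1 + 243 * s) ^ 3)
    (hk : k * s ^ 3 = (1 + 27 * s) * (1 + 3 * s) ^ 3) :
    B3 j k * s ^ 7 = 729 * ((1 + 27 * s) * (1 + 243 * s) ^ 3) * ((1 + 27 * s) * (1 + 3 * s) ^ 3) ^ 2
      + s * (((1 + 27 * s) * (1 + 243 * s) ^ 3) ^ 3 * s ^ 3
        + 196830 * ((1 + 27 * s) * (1 + 243 * s) ^ 3) ^ 2 * ((1 + 27 * s) * (1 + 3 * s) ^ 3) * s
        - 103456080 * ((1 + 27 * s) * (1 + 243 * s) ^ 3) ^ 2 * s ^ 4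
        + 18821147040 * ((1 + 27 * s) * (1 + 243 * s) ^ 3) * ((1 + 27 * s) * (1 + 3 * s) ^ 3)
            * s ^ 2
        - 524880 * ((1 + 27 * s) * (1 + 3 * s) ^ 3) ^ 2
        + 276373831680000 * ((1 + 27 * s) * (1 + 243 * s) ^ 3) * s ^ 5
        + 14229831680000 * ((1 + 27 * s) * (1 + 3 * s) ^ 3) * s ^ 3
        - 3623878656000000000 * s ^ 6) := by
  rw [← hj, ← hk, B3]
  ring

/-! ### Level 3 -/

local notation "J" => jq
local notation "J3" => qExpand ℚ 3 jq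

theorem constantCoeff_s3Q : PowerSeries.constantCoeff s3Q = 0 := by
  rw [← PowerSeries.coeff_zero_eq_constantCoeff_apply, s3Q, PowerSeries.coeff_map, coeff_zero_s3Z,
    map_zero]

theorem s3Q_ne_zero : s3Q ≠ 0 := by
  intro h
  have h1 := congrArg (PowerSeries.coeff 1) h
  rw [s3Q, PowerSeries.coeff_map, coeff_one_s3Z] at h1
  simp at h1

theorem s3_ne_zero : s3 ≠ 0 := Graded.emb_ne_zero s3Q_ne_zero

/-- the power series `B3(j, j₃) · s⁷` -/
def R3 : PowerSeries ℚ :=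
  729 * ((1 + 27 * s3Q) * (1 + 243 * s3Q) ^ 3) * ((1 + 27 * s3Q) * (1 + 3 * s3Q) ^ 3) ^ 2
      + s3Q * (((1 + 27 * s3Q) * (1 + 243 * s3Q) ^ 3) ^ 3 * s3Q ^ 3
        + 196830 * ((1 + 27 * s3Q) * (1 + 243 * s3Q) ^ 3) ^ 2 * ((1 + 27 * s3Q) * (1 + 3 * s3Q) ^ 3)
            * s3Q
        - 103456080 * ((1 + 27 * s3Q) * (1 + 243 * s3Q) ^ 3) ^ 2 * s3Q ^ 4
        + 18821147040 * ((1 + 27 * s3Q) * (1 + 243 * s3Q) ^ 3) * ((1 + 27 * s3Q) * (1 + 3 * s3Q) ^ 3)
            * s3Q ^ 2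
        - 524880 * ((1 + 27 * s3Q) * (1 + 3 * s3Q) ^ 3) ^ 2
        + 276373831680000 * ((1 + 27 * s3Q) * (1 + 243 * s3Q) ^ 3) * s3Q ^ 5
        + 14229831680000 * ((1 + 27 * s3Q) * (1 + 3 * s3Q) ^ 3) * s3Q ^ 3
        - 3623878656000000000 * s3Q ^ 6)

theorem constantCoeff_R3 : PowerSeries.constantCoeff R3 = 729 := by
  simp only [R3, map_add, map_sub, map_mul, map_pow, map_one, map_ofNat, constantCoeff_s3Q]
  norm_num

theorem R3_ne_zero : R3 ≠ 0 := by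
  intro h
  have h1 := constantCoeff_R3
  rw [h, map_zero] at h1
  norm_num at h1

theorem B3_mul_s3_pow : B3 J J3 * s3 ^ 7 = Graded.emb R3 := by
  rw [B3_mul_pow J J3 s3 jq_mul_s3 jq3_mul_s3, R3, s3]
  simp only [map_add, map_sub, map_mul, map_pow, map_one, map_ofNat]

theorem B3_ne_zero : B3 J J3 ≠ 0 := by
  intro h
  have h1 := B3_mul_s3_pow
  rw [h, zero_mul] at h1
  exact Graded.emb_ne_zero R3_ne_zero h1.symm

/-- the explicit linear relation `s3 · A3(j, j₃) = B3(j, j₃)` -/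
theorem s3_mul_A3 : s3 * A3 J J3 = B3 J J3 :=
  s_mul_A3 J J3 s3 s3_ne_zero jq_mul_s3 jq3_mul_s3

theorem A3_ne_zero : A3 J J3 ≠ 0 := by
  intro h
  have h1 := s3_mul_A3
  rw [h, mul_zero] at h1
  exact B3_ne_zero h1.symm

theorem s3_eq_div : s3 = B3 J J3 / A3 J J3 := by
  rw [eq_div_iff A3_ne_zero]
  exact s3_mul_A3

/-- **`s3 ∈ ℚ(j(q), j(q³))`**. -/
theorem s3_mem : s3 ∈ modularFunctionField 3 := by
  have hJ : J ∈ modularFunctionField 3 := jq_mem 3
  have hJ3 : J3 ∈ modularFunctionField 3 := jqN_mem 3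
  have hn (n : ℕ) [n.AtLeastTwo] : (OfNat.ofNat n : LaurentSeries ℚ) ∈ modularFunctionField 3 :=
    ofNat_mem _ n
  rw [s3_eq_div, A3, B3]
  refine div_mem ?_ ?_
  · exact sub_mem (add_mem (add_mem (sub_mem (add_mem (sub_mem (add_mem (add_mem (pow_mem hJ 3)
      (mul_mem (mul_mem (hn _) (pow_mem hJ 2)) hJ3)) (mul_mem (mul_mem (hn _) hJ) (pow_mem hJ3 2)))
      (mul_mem (hn _) (pow_mem hJ 2))) (mul_mem (mul_mem (hn _) hJ) hJ3))
      (mul_mem (hn _) (pow_mem hJ3 2))) (mul_mem (hn _) hJ)) (mul_mem (hn _) hJ3)) (hn _)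
  · exact add_mem (sub_mem (sub_mem (add_mem (sub_mem
      (mul_mem (mul_mem (hn _) (pow_mem hJ 2)) (pow_mem hJ3 2))
      (mul_mem (hn _) (add_mem (mul_mem (pow_mem hJ 2) hJ3) (mul_mem hJ (pow_mem hJ3 2)))))
      (mul_mem (hn _) (add_mem (pow_mem hJ 2) (pow_mem hJ3 2))))
      (mul_mem (mul_mem (hn _) hJ) hJ3)) (mul_mem (hn _) (add_mem hJ hJ3))) (hn _)

/-- `s3` lies in the full modular function field of every level divisible by `3`. -/
theorem s3_mem_full (M : ℕ) [NeZero M] (h : 3 ∣ M) : s3 ∈ modularFunctionFieldFull M :=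
  full_degeneracy_le h (modularFunctionField_le_full 3 s3_mem)

/-! ### Base change to `ℚ̄` (or any field `L ⊇ ℚ`) -/

/-- `s3` over `L` lies in the function field `L(j(q^d) : d ∣ M)` for `3 ∣ M`. -/
theorem coeffEmb_s3_mem (L : Type*) [Field L] [Algebra ℚ L] (M : ℕ) [NeZero M] (h : 3 ∣ M) :
    coeffEmb L s3 ∈ laurentBaseChange L (modularFunctionFieldFull M) :=
  coeffEmb_mem_laurentBaseChange L (s3_mem_full M h)

/-- `s2` over `L` lies in the function field `L(j(q^d) : d ∣ M)` for `2 ∣ M`. -/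
theorem coeffEmb_s2_mem (L : Type*) [Field L] [Algebra ℚ L] (M : ℕ) [NeZero M] (h : 2 ∣ M) :
    coeffEmb L Two.s2 ∈ laurentBaseChange L (modularFunctionFieldFull M) :=
  coeffEmb_mem_laurentBaseChange L (MemTwo.s2_mem_full M h)

/-- `s3 ∈ modularFunctionFieldBar M` for `3 ∣ M`. -/
theorem s3_mem_bar (M : ℕ) [NeZero M] (h : 3 ∣ M) :
    coeffEmb (AlgebraicClosure ℚ) s3 ∈ modularFunctionFieldBar M :=
  coeffEmb_s3_mem (AlgebraicClosure ℚ) M h

/-- `s2 ∈ modularFunctionFieldBar M` for `2 ∣ M`. -/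
theorem s2_mem_bar (M : ℕ) [NeZero M] (h : 2 ∣ M) :
    coeffEmb (AlgebraicClosure ℚ) Two.s2 ∈ modularFunctionFieldBar M :=
  coeffEmb_s2_mem (AlgebraicClosure ℚ) M h

end Fermat.Agent.S30.Haupt.MemThree
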