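import Mathlib
import Fermat.Agent.S30.Haupt.BranchTwo
import Fermat.Agent.S30.Haupt.MemThree

/-!
# Branch data of `F_M / ℚ̄(s3)` in place form (`3 ∣ M`)

`s3 = (η(q³)/η(q))¹²` is the Hauptmodul of `Γ₀(3)` (`j s3 = (1 + 27 s3)(1 + 243 s3)³`).  For
every place `v` of `F_M = ℚ̄(j(q^d) : d ∣ M)` and every `α ∈ ℚ̄`, `α ≠ 0`, `α ≠ -1/27`:

  `0 < v.ord (s3 - α) → v.ord (s3 - α) = 1`,

i.e. `F_M / ℚ̄(s3)` is unramified outside `s3 ∈ {0, -1/27, ∞}`; equivalently, for
`h3 = 1/s3 = (η(q)/η(q³))¹²`, outside `h3 ∈ {0, -27, ∞}`.  Proof: multiplicativity of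
ramification indices in the tower `ℚ̄(j) ⊆ ℚ̄(s3) ⊆ F_M` and the data of `S30.Ramif` at level `M`;
the fibre of `s3 ↦ j` over `0` is `{-1/243}` (multiplicity `3`) and `{-1/27}` (multiplicity
`1`), over `1728` it is the two roots of `1 - 486 s - 19683 s²` (multiplicity `2` each).
-/

set_option autoImplicit false

noncomputable section

namespace Fermat.Agent.S30.Haupt.BranchThree

open AlgebraicCurve ModularCurve
open Fermat.Agent.S24.Modular Fermat.Agent.S24.FF
open Fermat.Agent.S30.Haupt.BranchTwo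

/-! ### Polynomial identities (any field) -/

section Identities

variable {F : Type*} [Field F]

/-- Taylor expansion of `A P(S) - S P(A)` at `S = A`, `P(s) = (1 + 27 s)(1 + 243 s)³`. -/
theorem key_generic3 (J S A a c0 c1 c2 c3 : F)
    (hJ : J * S = (1 + 27 * S) * (1 + 243 * S) ^ 3)
    (ha : a * A = (1 + 27 * A) * (1 + 243 * A) ^ 3)
    (h0 : c0 = -((1 + 243 * A) ^ 2 * (1 - 486 * A - 19683 * A ^ 2)))
    (h1 : c1 = A * (196830 + 57395628 * A + 2324522934 * A ^ 2))
    (h2 : c2 = A * (19131876 + 1549681956 * A))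
    (h3 : c3 = 387420489 * A) :
    (J - a) * S * A = (S - A) * (c0 + (S - A) * (c1 + (S - A) * (c2 + c3 * (S - A)))) := by
  subst h0 h1 h2 h3
  linear_combination A * hJ - S * ha

theorem key_zero3 (J S A c : F) (hJ : J * S = (1 + 27 * S) * (1 + 243 * S) ^ 3)
    (hA : 1 + 243 * A = 0) (hc : c = 243) :
    J * S = (1 + 27 * S) * (c * (S - A)) ^ 3 := by
  subst hc
  have h : 1 + 243 * S = 243 * (S - A) := by linear_combination hA
  rw [hJ, h]

theorem key_17283 (J S A c d : F) (hJ : (J - 1728) * S = (1 - 486 * S - 19683 * S ^ 2) ^ 2)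
    (hA : 1 - 486 * A - 19683 * A ^ 2 = 0) (hc : c = -(486 + 39366 * A)) (hd : d = -19683) :
    (J - 1728) * S = ((S - A) * (c + (S - A) * d)) ^ 2 := by
  subst hc hd
  have h : 1 - 486 * S - 19683 * S ^ 2 = (S - A) * (-(486 + 39366 * A) + (S - A) * -19683) := by
    linear_combination hA
  rw [hJ, h]

end Identities

/-! ### The element `s3` of `F_M` -/

variable (M : ℕ) [NeZero M]

/-- `s3 = (η(q³)/η(q))¹²` as an element of the function field of `X₀(M)` over `ℚ̄` (`3 ∣ M`). -/
def s3F (h : 3 ∣ M) : FN M :=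
  ⟨coeffEmb Kbar Three.s3, coeffEmb_mem_laurentBaseChange Kbar (MemThree.s3_mem_full M h)⟩

@[simp] theorem coe_s3F (h : 3 ∣ M) :
    ((s3F M h : FN M) : LaurentSeries Kbar) = coeffEmb Kbar Three.s3 := rfl

/-- `j · s3 = (1 + 27 s3)(1 + 243 s3)³` in `F_M`. -/
theorem jF_mul_s3F (h : 3 ∣ M) :
    jF M * s3F M h = (1 + 27 * s3F M h) * (1 + 243 * s3F M h) ^ 3 := by
  apply Subtype.ext
  have h1 := congrArg (coeffEmb Kbar) Three.jq_mul_s3
  simp only [map_mul, map_pow, map_add, map_one, map_ofNat] at h1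
  have h2 : ((jF M * s3F M h : FN M) : LaurentSeries Kbar)
      = coeffEmb Kbar jq * coeffEmb Kbar Three.s3 := rfl
  have h3 : (((1 + 27 * s3F M h) * (1 + 243 * s3F M h) ^ 3 : FN M) : LaurentSeries Kbar)
      = (1 + 27 * coeffEmb Kbar Three.s3) * (1 + 243 * coeffEmb Kbar Three.s3) ^ 3 := rfl
  rw [h2, h3]
  exact h1

/-- `(j - 1728) · s3 = (1 - 486 s3 - 19683 s3²)²` in `F_M`. -/
theorem jF_sub_mul_s3F (h : 3 ∣ M) :
    (jF M - 1728) * s3F M h = (1 - 486 * s3F M h - 19683 * s3F M h ^ 2) ^ 2 := by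
  apply Subtype.ext
  have h1 := congrArg (coeffEmb Kbar) Three.jq_sub_mul_s3
  simp only [map_mul, map_pow, map_sub, map_one, map_ofNat] at h1
  have h2 : (((jF M - 1728) * s3F M h : FN M) : LaurentSeries Kbar)
      = (coeffEmb Kbar jq - 1728) * coeffEmb Kbar Three.s3 := rfl
  have h3 : (((1 - 486 * s3F M h - 19683 * s3F M h ^ 2) ^ 2 : FN M) : LaurentSeries Kbar)
      = (1 - 486 * coeffEmb Kbar Three.s3 - 19683 * coeffEmb Kbar Three.s3 ^ 2) ^ 2 := rfl
  rw [h2, h3]
  exact h1

theorem s3F_ne_zero (h : 3 ∣ M) : s3F M h ≠ 0 := by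
  intro h0
  have h1 := jF_mul_s3F M h
  rw [h0] at h1
  norm_num at h1

/-- `s3` is not a constant. -/
theorem s3F_not_const (h : 3 ∣ M) (a : Kbar) : s3F M h ≠ algebraMap Kbar (FN M) a := by
  intro hs
  have ha0 : a ≠ 0 := by
    rintro rfl
    exact s3F_ne_zero M h (by rw [hs, map_zero])
  have hJ := jF_mul_s3F M h
  rw [hs] at hJ
  apply Fermat.Agent.S24.DegreeGen.jBar_not_mem_range M
  refine ⟨(1 + 27 * a) * (1 + 243 * a) ^ 3 / a, ?_⟩
  have hA0 : algebraMap Kbar (FN M) a ≠ 0 := (map_ne_zero _).mpr ha0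
  have h1 : algebraMap Kbar (FN M) ((1 + 27 * a) * (1 + 243 * a) ^ 3 / a) * algebraMap Kbar (FN M) a
      = (1 + 27 * algebraMap Kbar (FN M) a) * (1 + 243 * algebraMap Kbar (FN M) a) ^ 3 := by
    rw [← map_mul, div_mul_cancel₀ _ ha0, map_mul, map_pow, map_add, map_add, map_mul, map_mul,
      map_one, map_ofNat, map_ofNat]
  exact mul_right_cancel₀ hA0 (h1.trans hJ.symm)

/-- **`F_M / ℚ̄(s3)` is unramified outside `s3 ∈ {0, -1/27, ∞}`** (place form). -/
theorem ord_s3F_sub_eq_one (h : 3 ∣ M) (α : Kbar) (h0 : α ≠ 0) (h1 : 27 * α + 1 ≠ 0)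
    (v : Place Kbar (FN M)) (hv : 0 < v.ord (s3F M h - algebraMap Kbar (FN M) α)) :
    v.ord (s3F M h - algebraMap Kbar (FN M) α) = 1 := by
  set S := s3F M h with hS
  set A := algebraMap Kbar (FN M) α with hA
  have hJ : jF M * S = (1 + 27 * S) * (1 + 243 * S) ^ 3 := jF_mul_s3F M h
  have hA0 : A ≠ 0 := (map_ne_zero _).mpr h0
  have ht0 : S - A ≠ 0 := ne_zero_of_ord_pos v hv
  have htV : S - A ∈ v.toValuationSubring := mem_of_ord_pos v hv
  have hAV (c : Kbar) : algebraMap Kbar (FN M) c ∈ v.toValuationSubring := v.algebraMap_mem' c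
  -- `v(S) = 0`
  have hS0 : S ≠ 0 := s3F_ne_zero M h
  have hSord : v.ord S = 0 := by
    have := (ord_const_add v α h0 (S - A) 1 hv (one_mem _)).2
    rwa [mul_one, ← hA, add_sub_cancel] at this
  have hAord : v.ord A = 0 := ord_algebraMap v α
  -- `v(1 + 27 S) = 0`
  have h27 : 1 + 27 * S ≠ 0 ∧ v.ord (1 + 27 * S) = 0 := by
    have h2 := ord_const_add v (27 * α + 1) h1 (S - A) (algebraMap Kbar (FN M) 27) hv (hAV _)
    have h3 : algebraMap Kbar (FN M) (27 * α + 1) + (S - A) * algebraMap Kbar (FN M) 27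
        = 1 + 27 * S := by
      rw [map_add, map_mul, map_one, map_ofNat, ← hA]
      ring
    rwa [h3] at h2
  by_cases hc : 1 + 243 * α = 0
  · -- the fibre over `j = 0`, point `α = -1/243`
    have hAc : 1 + 243 * A = 0 := by
      have := congrArg (algebraMap Kbar (FN M)) hc
      rw [map_add, map_mul, map_one, map_ofNat, map_zero] at this
      exact this
    have hJ' : jF M * S = (1 + 27 * S) * (algebraMap Kbar (FN M) 243 * (S - A)) ^ 3 :=
      key_zero3 (jF M) S A (algebraMap Kbar (FN M) 243) hJ hAc (map_ofNat _ 243)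
    have h243 : algebraMap Kbar (FN M) 243 ≠ 0 := (map_ne_zero _).mpr (by norm_num)
    have hJ0 : jF M ≠ 0 := by
      intro hz
      rw [hz, zero_mul] at hJ'
      exact (mul_ne_zero h27.1 (pow_ne_zero 3 (mul_ne_zero h243 ht0))) hJ'.symm
    have hord := congrArg v.ord hJ'
    rw [v.ord_mul hJ0 hS0, hSord, v.ord_mul h27.1 (pow_ne_zero 3 (mul_ne_zero h243 ht0)), h27.2,
      ord_pow', v.ord_mul h243 ht0, ord_algebraMap] at hord
    have hJpos : 0 < v.ord (jF M) := by omega
    have hdvd := Fermat.Agent.S30.Ramif.ord_zero_dvd M v hJpos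
    have hle := Int.le_of_dvd (by norm_num) hdvd
    push_cast at hord
    omega
  · by_cases hd : 1 - 486 * α - 19683 * α ^ 2 = 0
    · -- the fibre over `j = 1728`
      have hAd : 1 - 486 * A - 19683 * A ^ 2 = 0 := by
        have := congrArg (algebraMap Kbar (FN M)) hd
        rw [map_sub, map_sub, map_mul, map_mul, map_pow, map_one, map_ofNat, map_ofNat,
          map_zero] at this
        exact this
      have hJ1 : (jF M - algebraMap Kbar (FN M) 1728) * S
          = ((S - A) * (algebraMap Kbar (FN M) (-(486 + 39366 * α))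
            + (S - A) * algebraMap Kbar (FN M) (-19683))) ^ 2 := by
        have h2 := jF_sub_mul_s3F M h
        rw [map_ofNat]
        refine key_17283 (jF M) S A _ _ h2 hAd ?_ ?_
        · rw [map_neg, map_add, map_mul, map_ofNat, map_ofNat]
        · rw [map_neg, map_ofNat]
      have hc0 : -(486 + 39366 * α) ≠ 0 := by
        intro hz
        have h4 : (4 : Kbar) = 0 := by
          linear_combination hd - (α / 2 + 1 / 162) * hz
        norm_num at h4
      obtain ⟨hB0, hBord⟩ := ord_const_add v (-(486 + 39366 * α)) hc0 (S - A)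
        (algebraMap Kbar (FN M) (-19683)) hv (hAV _)
      have hJ0 : jF M - algebraMap Kbar (FN M) 1728 ≠ 0 := by
        intro hz
        rw [hz, zero_mul] at hJ1
        exact (pow_ne_zero 2 (mul_ne_zero ht0 hB0)) hJ1.symm
      have hord := congrArg v.ord hJ1
      rw [v.ord_mul hJ0 hS0, hSord, ord_pow', v.ord_mul ht0 hB0, hBord] at hord
      have hJpos : 0 < v.ord (jF M - algebraMap Kbar (FN M) 1728) := by omega
      have hdvd := Fermat.Agent.S30.Ramif.ord_1728_dvd M v hJpos
      have hle := Int.le_of_dvd (by norm_num) hdvd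
      push_cast at hord
      omega
    · -- generic fibre
      set a : Kbar := (1 + 27 * α) * (1 + 243 * α) ^ 3 / α with ha
      have haα : a * α = (1 + 27 * α) * (1 + 243 * α) ^ 3 := by rw [ha]; field_simp
      have haA : algebraMap Kbar (FN M) a * A = (1 + 27 * A) * (1 + 243 * A) ^ 3 := by
        have := congrArg (algebraMap Kbar (FN M)) haα
        rw [map_mul, map_mul, map_pow, map_add, map_add, map_mul, map_mul, map_one, map_ofNat,
          map_ofNat] at this
        exact this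
      have key : (jF M - algebraMap Kbar (FN M) a) * S * A
          = (S - A) * (algebraMap Kbar (FN M)
              (-((1 + 243 * α) ^ 2 * (1 - 486 * α - 19683 * α ^ 2)))
            + (S - A) * (algebraMap Kbar (FN M) (α * (196830 + 57395628 * α + 2324522934 * α ^ 2))
              + (S - A) * (algebraMap Kbar (FN M) (α * (19131876 + 1549681956 * α))
                + algebraMap Kbar (FN M) (387420489 * α) * (S - A)))) := by
        refine key_generic3 (jF M) S A _ _ _ _ _ hJ haA ?_ ?_ ?_ ?_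
        · simp only [map_neg, map_mul, map_pow, map_add, map_sub, map_one, map_ofNat, hA]
        · simp only [map_mul, map_pow, map_add, map_ofNat, hA]
        · simp only [map_mul, map_add, map_ofNat, hA]
        · simp only [map_mul, map_ofNat, hA]
      have ha0 : a ≠ 0 := by
        rw [ha]
        refine div_ne_zero (mul_ne_zero ?_ (pow_ne_zero 3 hc)) h0
        intro hz
        exact h1 (by linear_combination hz)
      have ha1 : a ≠ 1728 := by
        intro h1728
        have : (1 - 486 * α - 19683 * α ^ 2) ^ 2 = 0 := by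
          have h2 : (1 + 27 * α) * (1 + 243 * α) ^ 3 = 1728 * α := by rw [← haα, h1728]
          linear_combination h2
        exact hd (pow_eq_zero_iff (n := 2) (by norm_num) |>.mp this)
      obtain ⟨hB0, hBord⟩ := ord_const_add v
        (-((1 + 243 * α) ^ 2 * (1 - 486 * α - 19683 * α ^ 2)))
        (neg_ne_zero.mpr (mul_ne_zero (pow_ne_zero 2 hc) hd)) (S - A)
        (algebraMap Kbar (FN M) (α * (196830 + 57395628 * α + 2324522934 * α ^ 2))
              + (S - A) * (algebraMap Kbar (FN M) (α * (19131876 + 1549681956 * α))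
                + algebraMap Kbar (FN M) (387420489 * α) * (S - A))) hv
        (add_mem (hAV _) (mul_mem htV (add_mem (hAV _) (mul_mem (hAV _) htV))))
      have hJ0 : jF M - algebraMap Kbar (FN M) a ≠ 0 := by
        intro hz
        rw [hz, zero_mul, zero_mul] at key
        exact (mul_ne_zero ht0 hB0) key.symm
      have hord := congrArg v.ord key
      rw [v.ord_mul (mul_ne_zero hJ0 hS0) hA0, v.ord_mul hJ0 hS0, hSord, hAord,
        v.ord_mul ht0 hB0, hBord] at hord
      have hJpos : 0 < v.ord (jF M - algebraMap Kbar (FN M) a) := by omega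
      have h1' := Fermat.Agent.S30.Ramif.ord_generic M a ha0 ha1 v hJpos
      omega

/-! ### The Hauptmodul `h3 = 1/s3 = (η(q)/η(q³))¹²` -/

/-- `h3 = 1/s3 = (η(q)/η(q³))¹²` as an element of the function field of `X₀(M)` over `ℚ̄`. -/
def h3F (h : 3 ∣ M) : FN M := (s3F M h)⁻¹

theorem h3F_ne_zero (h : 3 ∣ M) : h3F M h ≠ 0 := inv_ne_zero (s3F_ne_zero M h)

theorem h3F_not_const (h : 3 ∣ M) (a : Kbar) : h3F M h ≠ algebraMap Kbar (FN M) a := by
  intro hs
  apply s3F_not_const M h a⁻¹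
  rw [map_inv₀, ← hs, h3F, inv_inv]

/-- `j · h3³ = (h3 + 27)(h3 + 243)³` in `F_M`. -/
theorem jF_mul_h3F (h : 3 ∣ M) :
    jF M * h3F M h ^ 3 = (h3F M h + 27) * (h3F M h + 243) ^ 3 := by
  have hS0 := s3F_ne_zero M h
  have hJ := jF_mul_s3F M h
  have h1 : h3F M h * s3F M h = 1 := inv_mul_cancel₀ hS0
  have h2 : (h3F M h + 27) = h3F M h * (1 + 27 * s3F M h) := by
    rw [mul_add, mul_one, mul_left_comm, h1, mul_one]
  have h3 : (h3F M h + 243) = h3F M h * (1 + 243 * s3F M h) := by
    rw [mul_add, mul_one, mul_left_comm, h1, mul_one]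
  rw [h2, h3, mul_pow]
  have h4 : h3F M h * (1 + 27 * s3F M h) * (h3F M h ^ 3 * (1 + 243 * s3F M h) ^ 3)
      = h3F M h ^ 4 * ((1 + 27 * s3F M h) * (1 + 243 * s3F M h) ^ 3) := by
    rw [pow_succ (h3F M h) 3]
    simp only [mul_assoc, mul_comm, mul_left_comm]
  rw [h4, ← hJ]
  have h5 : h3F M h ^ 4 * (jF M * s3F M h) = jF M * h3F M h ^ 3 * (h3F M h * s3F M h) := by
    rw [pow_succ (h3F M h) 3]
    simp only [mul_assoc, mul_comm, mul_left_comm]
  rw [h5, h1, mul_one]

/-- **`F_M / ℚ̄(h3)` is unramified outside `h3 ∈ {0, -27, ∞}`** (place form). -/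
theorem ord_h3F_sub_eq_one (h : 3 ∣ M) (β : Kbar) (h0 : β ≠ 0) (h1 : β + 27 ≠ 0)
    (v : Place Kbar (FN M)) (hv : 0 < v.ord (h3F M h - algebraMap Kbar (FN M) β)) :
    v.ord (h3F M h - algebraMap Kbar (FN M) β) = 1 := by
  have hS0 := s3F_ne_zero M h
  have hB0 : algebraMap Kbar (FN M) β ≠ 0 := (map_ne_zero _).mpr h0
  -- `v(h3) = 0`
  have hHord : v.ord (h3F M h) = 0 := by
    have := (ord_const_add v β h0 (h3F M h - algebraMap Kbar (FN M) β) 1 hv (one_mem _)).2
    rwa [mul_one, add_sub_cancel] at this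
  have hSord : v.ord (s3F M h) = 0 := by
    have := v.ord_inv (s3F M h)
    rw [← h3F, hHord] at this
    omega
  have hne : s3F M h - algebraMap Kbar (FN M) β⁻¹ ≠ 0 :=
    sub_ne_zero.mpr (s3F_not_const M h β⁻¹)
  have hrel : h3F M h - algebraMap Kbar (FN M) β
      = -(algebraMap Kbar (FN M) β * ((s3F M h - algebraMap Kbar (FN M) β⁻¹) * (s3F M h)⁻¹)) := by
    rw [map_inv₀, h3F]
    field_simp
    ring
  have hord : v.ord (h3F M h - algebraMap Kbar (FN M) β)
      = v.ord (s3F M h - algebraMap Kbar (FN M) β⁻¹) := by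
    rw [hrel, ord_neg, v.ord_mul hB0 (mul_ne_zero hne (inv_ne_zero hS0)),
      v.ord_mul hne (inv_ne_zero hS0), v.ord_inv, hSord, ord_algebraMap]
    ring
  rw [hord] at hv ⊢
  refine ord_s3F_sub_eq_one M h β⁻¹ (inv_ne_zero h0) ?_ v hv
  intro h27
  apply h1
  have : 27 * β⁻¹ * β + 1 * β = 0 := by rw [← add_mul, h27, zero_mul]
  rw [mul_assoc, inv_mul_cancel₀ h0] at this
  linear_combination this

end Fermat.Agent.S30.Haupt.BranchThree
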