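import Mathlib
import Fermat.Agent.S30.Model.Main
import Fermat.Agent.S30.AuxA.GaussBC

/-!
# H.Gauss — hypothesis (i) of the Model Theorem for the Hauptmoduln `t2`, `t3`

`O` a DVR with uniformiser `π`, `E = Frac O` of characteristic zero, `L` a field over `E`,
`j : L` transcendental with `L / E(j)` finite and Gauss-unramified (`Model.GaussUnram π j`).
If `u : L` satisfies `j * u ^ 2 = (u + 256) ^ 3` (level 2) or
`j * u ^ 3 = (u + 27) * (u + 243) ^ 3` (level 3), then `u` is transcendental over `E`,
`L / E(u)` is finite and Gauss-unramified (`Model.GaussUnram π u`).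

Both are the change of parameter `AuxA.GaussBC.gaussUnram_of_cubic / _of_quartic` inside one
field, restated in the folded `Model.GaussUnram` vocabulary.  (The unit hypotheses `h2`, `h3` are
part of the dealt statement; the proof does not need them: `A / D` is never constant modulo `π`
because `A`, `D` are monic with `deg D < deg A`.)
-/

set_option autoImplicit false

namespace Fermat.Agent.S30.Haupt.Gauss

variable {O E L : Type*} [CommRing O] [IsDomain O] [IsDiscreteValuationRing O]
  [Field E] [CharZero E] [Algebra O E] [IsFractionRing O E]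
  [Field L] [Algebra E L] [Algebra O L] [IsScalarTower O E L]

/-- **(G) for the level-2 Hauptmodul** `u = t2`, `j * u ^ 2 = (u + 256) ^ 3`. -/
theorem gaussUnram_t2 (π : O) (hπ : Irreducible π) (h2 : IsUnit (2 : O)) (j : L)
    (hj : Transcendental E j) [FiniteDimensional (IntermediateField.adjoin E {j}) L]
    (hi : Model.GaussUnram (E := E) π j) (u : L) (hrel : j * u ^ 2 = (u + 256) ^ 3) :
    Transcendental E u ∧ FiniteDimensional (IntermediateField.adjoin E {u}) L ∧
      Model.GaussUnram (E := E) π u :=
  AuxA.GaussBC.gaussUnram_of_cubic π hπ j u hj hi hrel.symm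

/-- **(G) for the level-3 Hauptmodul** `u = t3`, `j * u ^ 3 = (u + 27) * (u + 243) ^ 3`. -/
theorem gaussUnram_t3 (π : O) (hπ : Irreducible π) (h3 : IsUnit (3 : O)) (j : L)
    (hj : Transcendental E j) [FiniteDimensional (IntermediateField.adjoin E {j}) L]
    (hi : Model.GaussUnram (E := E) π j) (u : L)
    (hrel : j * u ^ 3 = (u + 27) * (u + 243) ^ 3) :
    Transcendental E u ∧ FiniteDimensional (IntermediateField.adjoin E {u}) L ∧
      Model.GaussUnram (E := E) π u :=
  AuxA.GaussBC.gaussUnram_of_quartic π hπ j u hj hi hrel.symm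

end Fermat.Agent.S30.Haupt.Gauss
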