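import Fermat.Agent.S30.Ramif.HorizJ
import Fermat.Agent.S30.Inst.Basic
import Fermat.Agent.S30.Haupt.BranchTwo

set_option autoImplicit false

/-!
# Model inputs (T) and (ii) for the Hauptmodul base `u = h2 = Δ(q)/Δ(q²)` (auxiliary level 2)

`E ⊆ ℚ̄` ANY intermediate field, `M` a level with `2 ∣ M`,
`L_E = laurentBaseChange E (modularFunctionFieldFull M) ⊆ E((q))` (`= S18.K1Defs.LE M E`).

* `s2E M E h`, `h2E M E h = (s2E M E h)⁻¹` : the Hauptmodul of `Γ₀(2)` as an element of `L_E`;
* `jE_mul_s2E`, `jE_mul_h2E` : `j s2 = (1 + 256 s2)³`, `j h2² = (h2 + 256)³` in `L_E`;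
* `transcendental_s2E`, `transcendental_h2E`;
* `finiteDimensional_h2E` : `L_E / E(h2)` is finite as soon as `L_E / E(j)` is;
* `ord_aeval_h2_eq_one`, `horizUnram_h2` : `Model.HorizUnram S h2` as soon as `S ∋ 0, -64`
  (from `Haupt.BranchTwo.ord_h2F_sub_eq_one` and the constant field descent of `Ramif.HorizJ`).
-/

noncomputable section

namespace Fermat.Agent.S30.Haupt.HorizTwo

open AlgebraicCurve Polynomial ModularCurve
open Fermat.Agent.S24.Modular

set_option synthInstance.maxHeartbeats 400000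
set_option maxHeartbeats 1000000

local notation "Qb" => AlgebraicClosure ℚ

/-! ### Generic helpers -/

section Generic

variable {E L : Type*} [Field E] [Field L] [Algebra E L]

/-- Finiteness over a larger intermediate field. -/
theorem finiteDimensional_of_le' {K K' : IntermediateField E L} (h : K ≤ K')
    [FiniteDimensional K L] : FiniteDimensional K' L := by
  let _ : Algebra K K' := (IntermediateField.inclusion h).toRingHom.toAlgebra
  have : IsScalarTower K K' L := IsScalarTower.of_algebraMap_eq (fun x => rfl)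
  exact FiniteDimensional.right K K' L

end Generic

/-- The coefficient of `q` in `s2` is `1`. -/
theorem coeff_one_s2 : Two.s2.coeff 1 = 1 := by
  rw [Two.s2_eq_emb]
  have h := HahnSeries.ofPowerSeries_apply_coeff (Γ := ℤ) (R := ℚ)
    (Two.s2Z.map (Int.castRingHom ℚ)) 1
  rw [Nat.cast_one] at h
  rw [h, PowerSeries.coeff_map, Two.coeff_one_s2Z]
  simp

variable (M : ℕ) [NeZero M] (E : IntermediateField ℚ Qb)

/-- `s2 = Δ(q²)/Δ(q)` as an element of `L_E` (`2 ∣ M`). -/
def s2E (h : 2 ∣ M) : ↥(laurentBaseChange E (modularFunctionFieldFull M)) :=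
  ⟨coeffEmb E Two.s2, coeffEmb_mem_laurentBaseChange E (MemTwo.s2_mem_full M h)⟩

/-- `h2 = Δ(q)/Δ(q²) = 1/s2` as an element of `L_E` (`2 ∣ M`). -/
def h2E (h : 2 ∣ M) : ↥(laurentBaseChange E (modularFunctionFieldFull M)) := (s2E M E h)⁻¹

@[simp] theorem coe_s2E (h : 2 ∣ M) :
    ((s2E M E h : ↥(laurentBaseChange E (modularFunctionFieldFull M))) : LaurentSeries E)
      = coeffEmb E Two.s2 := rfl

theorem coe_h2E (h : 2 ∣ M) :
    ((h2E M E h : ↥(laurentBaseChange E (modularFunctionFieldFull M))) : LaurentSeries E)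
      = (coeffEmb E Two.s2)⁻¹ := rfl

theorem transcendental_s2E (h : 2 ∣ M) : Transcendental E (s2E M E h) := by
  intro hal
  have hx' : IsAlgebraic E ((s2E M E h : ↥(laurentBaseChange E (modularFunctionFieldFull M))) :
      LaurentSeries E) := hal.algebraMap (A := LaurentSeries E)
  obtain ⟨c, hc⟩ := Fermat.Agent.S30.Inst.exists_C_eq_of_isAlgebraic _ hx'
  have h1 := congrArg (fun x : LaurentSeries E => x.coeff 1) hc
  simp only [coe_s2E, coeffEmb_coeff, coeff_one_s2, map_one] at h1
  rw [HahnSeries.C_apply, HahnSeries.coeff_single_of_ne (by norm_num)] at h1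
  exact one_ne_zero h1

theorem s2E_ne_zero (h : 2 ∣ M) : s2E M E h ≠ 0 := fun h0 =>
  transcendental_s2E M E h (h0 ▸ isAlgebraic_zero)

theorem transcendental_h2E (h : 2 ∣ M) : Transcendental E (h2E M E h) := fun hal =>
  transcendental_s2E M E h (by simpa [h2E] using hal.inv)

theorem h2E_ne_zero (h : 2 ∣ M) : h2E M E h ≠ 0 := inv_ne_zero (s2E_ne_zero M E h)

/-- `j · s2 = (1 + 256 s2)³` in `L_E`. -/
theorem jE_mul_s2E (h : 2 ∣ M) (uj : ↥(laurentBaseChange E (modularFunctionFieldFull M)))
    (huj : (uj : LaurentSeries E) = coeffEmb E jq) :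
    uj * s2E M E h = (1 + 256 * s2E M E h) ^ 3 := by
  apply Subtype.ext
  have h1 := congrArg (coeffEmb E) Two.jq_mul_s2
  simp only [map_mul, map_pow, map_add, map_one, map_ofNat] at h1
  have h2 : ((uj * s2E M E h : ↥(laurentBaseChange E (modularFunctionFieldFull M))) :
      LaurentSeries E) = coeffEmb E jq * coeffEmb E Two.s2 := by
    rw [← huj]; rfl
  have h3 : (((1 + 256 * s2E M E h) ^ 3 : ↥(laurentBaseChange E (modularFunctionFieldFull M))) :
      LaurentSeries E) = (1 + 256 * coeffEmb E Two.s2) ^ 3 := rfl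
  rw [h2, h3]
  exact h1

/-- `j · h2² = (h2 + 256)³` in `L_E`. -/
theorem jE_mul_h2E (h : 2 ∣ M) (uj : ↥(laurentBaseChange E (modularFunctionFieldFull M)))
    (huj : (uj : LaurentSeries E) = coeffEmb E jq) :
    uj * h2E M E h ^ 2 = (h2E M E h + 256) ^ 3 := by
  have hS0 := s2E_ne_zero M E h
  have hJ := jE_mul_s2E M E h uj huj
  have h1 : h2E M E h * s2E M E h = 1 := inv_mul_cancel₀ hS0
  have h2 : (h2E M E h + 256) = h2E M E h * (1 + 256 * s2E M E h) := by
    rw [mul_add, mul_one, mul_left_comm, h1, mul_one]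
  rw [h2, mul_pow, ← hJ]
  have h3 : h2E M E h ^ 3 * (uj * s2E M E h) = uj * h2E M E h ^ 2 * (h2E M E h * s2E M E h) := by
    rw [pow_succ (h2E M E h) 2]
    simp only [mul_assoc, mul_comm, mul_left_comm]
  rw [h3, h1, mul_one]

/-- `j ∈ E(h2)`. -/
theorem jE_mem_adjoin_h2E (h : 2 ∣ M) (uj : ↥(laurentBaseChange E (modularFunctionFieldFull M)))
    (huj : (uj : LaurentSeries E) = coeffEmb E jq) :
    uj ∈ IntermediateField.adjoin E {h2E M E h} := by
  have hH0 := h2E_ne_zero M E h
  have h1 : uj = (h2E M E h + 256) ^ 3 / h2E M E h ^ 2 := by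
    rw [eq_div_iff (pow_ne_zero 2 hH0)]
    exact jE_mul_h2E M E h uj huj
  rw [h1]
  have hmem := IntermediateField.mem_adjoin_simple_self E (h2E M E h)
  have h256 : (256 : ↥(laurentBaseChange E (modularFunctionFieldFull M))) ∈
      IntermediateField.adjoin E {h2E M E h} := by
    have := (IntermediateField.adjoin E {h2E M E h}).algebraMap_mem (256 : E)
    rwa [map_ofNat] at this
  exact div_mem (pow_mem (add_mem hmem h256) 3) (pow_mem hmem 2)

/-- **(T)** `L_E / E(h2)` is finite as soon as `L_E / E(j)` is. -/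
theorem finiteDimensional_h2E (h : 2 ∣ M)
    (uj : ↥(laurentBaseChange E (modularFunctionFieldFull M)))
    (huj : (uj : LaurentSeries E) = coeffEmb E jq)
    [FiniteDimensional (IntermediateField.adjoin E {uj})
      ↥(laurentBaseChange E (modularFunctionFieldFull M))] :
    FiniteDimensional (IntermediateField.adjoin E {h2E M E h})
      ↥(laurentBaseChange E (modularFunctionFieldFull M)) :=
  finiteDimensional_of_le'
    (IntermediateField.adjoin_simple_le_iff.mpr (jE_mem_adjoin_h2E M E h uj huj))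

/-- `up (s2E) = s2F`. -/
theorem upHom_s2E (h : 2 ∣ M) :
    Fermat.Agent.S18.PlaceUp.upHom E (modularFunctionFieldFull M) (s2E M E h)
      = BranchTwo.s2F M h := by
  apply Subtype.ext
  rw [Fermat.Agent.S18.PlaceUp.coe_upHom, coe_s2E, Fermat.Agent.S30.GaussDescent.up_coeffEmb]
  rfl

/-- `up (h2E) = h2F`. -/
theorem upHom_h2E (h : 2 ∣ M) :
    Fermat.Agent.S18.PlaceUp.upHom E (modularFunctionFieldFull M) (h2E M E h)
      = BranchTwo.h2F M h := by
  rw [h2E, map_inv₀, upHom_s2E, BranchTwo.h2F]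

/-- **Unramifiedness of `L_E / E(h2)` at the closed points other than `0`, `-64`**, places
form. -/
theorem ord_aeval_h2_eq_one (h : 2 ∣ M)
    (f : E[X]) (hf : Irreducible f) (h0 : f.eval 0 ≠ 0) (h64 : f.eval (-64) ≠ 0)
    (v : Place E ↥(laurentBaseChange E (modularFunctionFieldFull M)))
    (hpos : 0 < v.ord (aeval (h2E M E h) f)) : v.ord (aeval (h2E M E h) f) = 1 := by
  obtain ⟨P, hP⟩ := Fermat.Agent.S18.PlaceUp.exists_place_up E (modularFunctionFieldFull M) v
  have hφu := upHom_h2E M E h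
  refine Fermat.Agent.S30.Ramif.ord_aeval_eq_one_of_up (Ω := Qb) (F := FN M)
    (Fermat.Agent.S18.PlaceUp.upHom E (modularFunctionFieldFull M)) ?_ v P hP (h2E M E h) ?_ f
    hf.separable ?_ hpos
  · intro c
    apply Subtype.ext
    rw [Fermat.Agent.S18.PlaceUp.coe_upHom]
    exact Fermat.Agent.S30.GaussDescent.up_algebraMap E c
  · intro a
    rw [hφu]
    exact BranchTwo.h2F_not_const M h a
  · intro a haroot hapos
    rw [hφu] at hapos ⊢
    have ha0 : a ≠ 0 := by
      rintro rfl
      apply h0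
      have h1 : (f.map (algebraMap E Qb)).eval (algebraMap E Qb 0) = 0 := by
        rw [map_zero]; exact haroot
      rw [eval_map_apply] at h1
      exact (algebraMap E Qb).injective (by rw [h1, map_zero])
    have ha1 : a + 64 ≠ 0 := by
      intro ha
      have ha' : a = -64 := eq_neg_of_add_eq_zero_left ha
      subst ha'
      apply h64
      have h1 : (f.map (algebraMap E Qb)).eval (algebraMap E Qb (-64)) = 0 := by
        rw [map_neg, map_ofNat]; exact haroot
      rw [eval_map_apply] at h1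
      exact (algebraMap E Qb).injective (by rw [h1, map_zero])
    exact BranchTwo.ord_h2F_sub_eq_one M h a ha0 ha1 P hapos

/-- **Hypothesis (ii) of the MODEL THEOREM for `u = h2`** (`2 ∣ M`): `Model.HorizUnram S h2` as
soon as `S` contains `0` and `-64`. -/
theorem horizUnram_h2 (h : 2 ∣ M) {O : Type*} [CommRing O] [Algebra O E]
    [FiniteDimensional (IntermediateField.adjoin E {h2E M E h})
      ↥(laurentBaseChange E (modularFunctionFieldFull M))]
    (S : Finset O) (h0 : ∃ c ∈ S, algebraMap O E c = 0)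
    (h64 : ∃ c ∈ S, algebraMap O E c = -64) :
    Fermat.Agent.S30.Model.HorizUnram (E := E) S (h2E M E h) := by
  refine Fermat.Agent.S30.Ramif.horizUnram_of_places E (h2E M E h) (transcendental_h2E M E h) S
    fun f hf hS v _ hpos => ?_
  obtain ⟨c0, hc0S, hc0⟩ := h0
  obtain ⟨c1, hc1S, hc1⟩ := h64
  have key : ∀ a : E, f.eval a = 0 → Associated f (X - C a) := fun a ha =>
    ((irreducible_X_sub_C a).associated_of_dvd hf (dvd_iff_isRoot.mpr ha)).symm
  refine ord_aeval_h2_eq_one M E h f hf (fun h => ?_) (fun h => ?_) v hpos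
  · exact hS c0 hc0S (by rw [hc0]; exact key 0 h)
  · exact hS c1 hc1S (by rw [hc1]; exact key (-64) h)

end Fermat.Agent.S30.Haupt.HorizTwo
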