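import Mathlib
import Fermat.Agent.S18.K1Main
import Fermat.Agent.S18.LocPow
import Fermat.Agent.S30.E2.G1
import Fermat.Agent.S30.E2.G1Aux
import Fermat.Agent.S30.Haupt.HorizTwo
import Fermat.Agent.S30.Haupt.HorizThree
import Fermat.Agent.S30.Haupt.Gauss

/-!
# S30 / E2.Aux.H.Main: `K1Modular M A p` at a level divisible by `2` (resp. `3`), residue
characteristic `≠ 2` (resp. `≠ 3`), from the `u = j` inputs of the Model Theorem at level `M`

For `ℓ = 3` (resp. `ℓ = 2`) the base `u = j` is useless (`0 ≡ 1728`).  We use instead the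
Hauptmodul `h₂ = Δ(q)/Δ(q²)` of `Γ₀(2)` (resp. `h₃ = (η(q)/η(q³))¹²` of `Γ₀(3)`), an element of the
level-`M` function field as soon as `2 ∣ M` (resp. `3 ∣ M`), with `j h₂² = (h₂ + 256)³`
(resp. `j h₃³ = (h₃ + 27)(h₃ + 243)³`) and branch values `0, -64, ∞` (resp. `0, -27, ∞`):

* hypothesis (ii) = `HorizTwo.horizUnram_h2`, `HorizThree.horizUnram_h3` (helper283);
* hypothesis (i), transcendence, finiteness = `Gauss.gaussUnram_t2/_t3` (helper112, on helper184's
  `AuxA.GaussBC`) from the fields `fin`, `gauss` of `K1Main.JInputs` at level `M` (base `u = j`);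
* integral model of `h_r` = `E2G1Aux.invO` (helper268);
* assembly = `K1Main.k1E_of_inputs` (helper104).

Main statements: `k1E_of_jInputs_two`, `k1E_of_jInputs_three`, `k1Modular_of_jInputs_two`,
`k1Modular_of_jInputs_three`.
-/

set_option autoImplicit false
set_option linter.unusedSectionVars false
set_option linter.style.haveILetI false

open ModularCurve AlgebraicCurve Polynomial

noncomputable section

namespace Fermat.Agent.S30.Haupt.K1

open Fermat.Agent.S18.K1Defs Fermat.Agent.S18.K1Main Fermat.Agent.S30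

local notation "Qb" => AlgebraicClosure ℚ

section Generic

variable (M : ℕ) [NeZero M] (E : IntermediateField ℚ Qb)

/-- `j` is transcendental over `E`. -/
theorem transcendental_jE : Transcendental E (jE M E) := by
  apply transcendental_of_order_neg (LE M E) (jE M E)
  rw [coe_jE, E2G1.coeffEmb_jq]
  exact E2G1.order_jqModC_neg E

variable {O : Type} [CommRing O] [IsDomain O] [IsDiscreteValuationRing O]
  [Algebra O E] [IsFractionRing O E]

/-- `h₂ = ι(invO s2Z)`: the integral model of `h₂`. -/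
theorem coe_h2E_eq_iota (h2M : 2 ∣ M) :
    ((HorizTwo.h2E M E h2M : LE M E) : LaurentSeries E)
      = GaussDVR.iota O E (E2G1Aux.invO O Two.s2Z) := by
  rw [HorizTwo.coe_h2E, Two.s2_eq_emb]
  exact E2G1Aux.inv_coeffEmb_eq_iota Two.s2Z Two.coeff_zero_s2Z Two.coeff_one_s2Z

/-- `h₃ = ι(invO s3Z)`: the integral model of `h₃`. -/
theorem coe_h3E_eq_iota (h3M : 3 ∣ M) :
    ((HorizThree.h3E M E h3M : LE M E) : LaurentSeries E)
      = GaussDVR.iota O E (E2G1Aux.invO O Three.s3Z) := by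
  rw [HorizThree.coe_h3E]
  exact E2G1Aux.inv_coeffEmb_eq_iota Three.s3Z Three.coeff_zero_s3Z Three.coeff_one_s3Z

/-- **`(K1E)` for `LE M E`, `2 ∣ M`, residue characteristic odd**, from the `u = j` inputs
`fin`, `gauss` at level `M`: base `u = h₂`, branch values `0, -64`. -/
theorem k1E_of_jInputs_two (h2M : 2 ∣ M)
    (hfrac : ∀ x : LaurentSeries E, x ∈ LE M E → x ∈ GaussDVR.fracField O E)
    (h2 : IsUnit (2 : O)) (p : ℕ) (hp : p.Prime) (hpO : IsUnit (p : O)) (ζ : O)
    (hζ : IsPrimitiveRoot ζ p) (h : JInputsC M O E p) : K1E O E (LE M E) p := by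
  classical
  letI := algebraOL O E (LE M E)
  haveI := isScalarTower_OL O E (LE M E)
  have h' : JInputs M O E p := h
  obtain ⟨π, hπ⟩ := IsDiscreteValuationRing.exists_irreducible O
  haveI := h'.fin
  obtain ⟨hT, hFD, hG⟩ := Gauss.gaussUnram_t2 π hπ h2 (jE M E) (transcendental_jE M E)
    (h'.gauss π hπ) (HorizTwo.h2E M E h2M) (HorizTwo.jE_mul_h2E M E h2M (jE M E) rfl)
  haveI := hFD
  have h64 : IsUnit (64 : O) := by
    have : (64 : O) = 2 ^ 6 := by norm_num
    rw [this]
    exact h2.pow 6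
  have hS : ∀ c ∈ ({0, -64} : Finset O), ∀ c' ∈ ({0, -64} : Finset O), c ≠ c' →
      IsUnit (c - c') := by
    intro c hc c' hc' hne
    simp only [Finset.mem_insert, Finset.mem_singleton] at hc hc'
    rcases hc with rfl | rfl <;> rcases hc' with rfl | rfl
    · exact absurd rfl hne
    · rw [zero_sub, neg_neg]; exact h64
    · rw [sub_zero]; exact h64.neg
    · exact absurd rfl hne
  have hii : Model.HorizUnram (E := E) ({0, -64} : Finset O) (HorizTwo.h2E M E h2M) :=
    HorizTwo.horizUnram_h2 M E h2M {0, -64}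
      ⟨0, by simp, map_zero _⟩ ⟨-64, by simp, by rw [map_neg, map_ofNat]⟩
  exact k1E_of_inputs (LE M E) (fun x => hfrac x x.2) π hπ (HorizTwo.h2E M E h2M)
    (E2G1Aux.invO O Two.s2Z) (coe_h2E_eq_iota M E h2M) (E2G1Aux.order_rho_invO_neg Two.s2Z)
    hG {0, -64} hS hii p hp hpO ζ hζ
    (fun g hg hord =>
      Fermat.Agent.S18.LocPow.locPow_of_dvd_ord (HorizTwo.h2E M E h2M) hT p g hg hord)

/-- **`(K1E)` for `LE M E`, `3 ∣ M`, residue characteristic `≠ 3`**, from the `u = j` inputs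
`fin`, `gauss` at level `M`: base `u = h₃`, branch values `0, -27`. -/
theorem k1E_of_jInputs_three (h3M : 3 ∣ M)
    (hfrac : ∀ x : LaurentSeries E, x ∈ LE M E → x ∈ GaussDVR.fracField O E)
    (h3 : IsUnit (3 : O)) (p : ℕ) (hp : p.Prime) (hpO : IsUnit (p : O)) (ζ : O)
    (hζ : IsPrimitiveRoot ζ p) (h : JInputsC M O E p) : K1E O E (LE M E) p := by
  classical
  letI := algebraOL O E (LE M E)
  haveI := isScalarTower_OL O E (LE M E)
  have h' : JInputs M O E p := h
  obtain ⟨π, hπ⟩ := IsDiscreteValuationRing.exists_irreducible O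
  haveI := h'.fin
  obtain ⟨hT, hFD, hG⟩ := Gauss.gaussUnram_t3 π hπ h3 (jE M E) (transcendental_jE M E)
    (h'.gauss π hπ) (HorizThree.h3E M E h3M) (HorizThree.jE_mul_h3E M E h3M (jE M E) rfl)
  haveI := hFD
  have h27 : IsUnit (27 : O) := by
    have : (27 : O) = 3 ^ 3 := by norm_num
    rw [this]
    exact h3.pow 3
  have hS : ∀ c ∈ ({0, -27} : Finset O), ∀ c' ∈ ({0, -27} : Finset O), c ≠ c' →
      IsUnit (c - c') := by
    intro c hc c' hc' hne
    simp only [Finset.mem_insert, Finset.mem_singleton] at hc hc'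
    rcases hc with rfl | rfl <;> rcases hc' with rfl | rfl
    · exact absurd rfl hne
    · rw [zero_sub, neg_neg]; exact h27
    · rw [sub_zero]; exact h27.neg
    · exact absurd rfl hne
  have hii : Model.HorizUnram (E := E) ({0, -27} : Finset O) (HorizThree.h3E M E h3M) :=
    HorizThree.horizUnram_h3 M E h3M {0, -27}
      ⟨0, by simp, map_zero _⟩ ⟨-27, by simp, by rw [map_neg, map_ofNat]⟩
  exact k1E_of_inputs (LE M E) (fun x => hfrac x x.2) π hπ (HorizThree.h3E M E h3M)
    (E2G1Aux.invO O Three.s3Z) (coe_h3E_eq_iota M E h3M) (E2G1Aux.order_rho_invO_neg Three.s3Z)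
    hG {0, -27} hS hii p hp hpO ζ hζ
    (fun g hg hord =>
      Fermat.Agent.S18.LocPow.locPow_of_dvd_ord (HorizThree.h3E M E h3M) hT p g hg hord)

end Generic

section Modular

variable (A : ValuationSubring Qb)

/-- **`K1Modular M A p` for `2 ∣ M`**, `A` over an odd prime `ℓ`, `p ≠ ℓ` prime, from the `u = j`
inputs of the Model Theorem at level `M` (only the fields `fin`, `gauss` are used). -/
theorem k1Modular_of_jInputs_two (M : ℕ) [NeZero M] (h2M : 2 ∣ M) {ℓ : ℕ} [Fact ℓ.Prime]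
    (hA : A.LiesOverPrime ℓ) (hℓ : ℓ ≠ 2) (p : ℕ) (hp : p.Prime) (hpℓ : p ≠ ℓ)
    (h : ∃ S₀ : Finset Qb, ∀ (E : IntermediateField ℚ Qb) [FiniteDimensional ℚ E]
      [IsDiscreteValuationRing (OE A E)], (∀ s ∈ S₀, s ∈ E) → JInputsC M (OE A E) E p) :
    K1Modular M A p := by
  classical
  obtain ⟨S₀, h⟩ := h
  have hℓp : ℓ.Prime := Fact.out
  have : NeZero (p : Qb) := ⟨Nat.cast_ne_zero.mpr hp.ne_zero⟩
  obtain ⟨z, hz⟩ := HasEnoughRootsOfUnity.exists_primitiveRoot Qb p
  refine ⟨insert z S₀, fun E _ _ hE => ?_⟩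
  have hzE : z ∈ E := hE z (Finset.mem_insert_self _ _)
  obtain ⟨ζ, hζ⟩ := exists_primitiveRoot_OE A E hp.pos hz hzE
  have hpO : IsUnit ((p : ℕ) : OE A E) :=
    isUnit_natCast_OE A E hA p ((Nat.coprime_primes hp hℓp).mpr hpℓ)
  have h2 : IsUnit (2 : OE A E) := by
    have hc : Nat.Coprime 2 ℓ := (Nat.coprime_primes Nat.prime_two hℓp).mpr (Ne.symm hℓ)
    have := isUnit_natCast_OE A E hA 2 hc
    exact_mod_cast this
  exact k1E_of_jInputs_two M E h2M
    (fun x hx => GaussDescent.mem_fracField_of_mem_laurentBaseChange A E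
      (modularFunctionFieldFull M) (GaussDescent.intFrac_of_mem_full M) hx)
    h2 p hp hpO ζ hζ (h E (fun s hs => hE s (Finset.mem_insert_of_mem hs)))

/-- **`K1Modular M A p` for `3 ∣ M`**, `A` over a prime `ℓ ≠ 3`, `p ≠ ℓ` prime, from the `u = j`
inputs of the Model Theorem at level `M` (only the fields `fin`, `gauss` are used). -/
theorem k1Modular_of_jInputs_three (M : ℕ) [NeZero M] (h3M : 3 ∣ M) {ℓ : ℕ} [Fact ℓ.Prime]
    (hA : A.LiesOverPrime ℓ) (hℓ : ℓ ≠ 3) (p : ℕ) (hp : p.Prime) (hpℓ : p ≠ ℓ)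
    (h : ∃ S₀ : Finset Qb, ∀ (E : IntermediateField ℚ Qb) [FiniteDimensional ℚ E]
      [IsDiscreteValuationRing (OE A E)], (∀ s ∈ S₀, s ∈ E) → JInputsC M (OE A E) E p) :
    K1Modular M A p := by
  classical
  obtain ⟨S₀, h⟩ := h
  have hℓp : ℓ.Prime := Fact.out
  have : NeZero (p : Qb) := ⟨Nat.cast_ne_zero.mpr hp.ne_zero⟩
  obtain ⟨z, hz⟩ := HasEnoughRootsOfUnity.exists_primitiveRoot Qb p
  refine ⟨insert z S₀, fun E _ _ hE => ?_⟩
  have hzE : z ∈ E := hE z (Finset.mem_insert_self _ _)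
  obtain ⟨ζ, hζ⟩ := exists_primitiveRoot_OE A E hp.pos hz hzE
  have hpO : IsUnit ((p : ℕ) : OE A E) :=
    isUnit_natCast_OE A E hA p ((Nat.coprime_primes hp hℓp).mpr hpℓ)
  have h3 : IsUnit (3 : OE A E) := by
    have hc : Nat.Coprime 3 ℓ := (Nat.coprime_primes Nat.prime_three hℓp).mpr (Ne.symm hℓ)
    have := isUnit_natCast_OE A E hA 3 hc
    exact_mod_cast this
  exact k1E_of_jInputs_three M E h3M
    (fun x hx => GaussDescent.mem_fracField_of_mem_laurentBaseChange A E
      (modularFunctionFieldFull M) (GaussDescent.intFrac_of_mem_full M) hx)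
    h3 p hp hpO ζ hζ (h E (fun s hs => hE s (Finset.mem_insert_of_mem hs)))

end Modular

end Fermat.Agent.S30.Haupt.K1
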