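import Mathlib
import Fermat.Agent.Lib.NormalFree

/-!
# Base change of the Gauss hypotheses between two coordinates of the same field

`O` a DVR with uniformiser `π`, `E = Frac O`, `L` a field over `E`, `u h : L` with

* (R1) `h` integral over `O[u]`, (R2) `h⁻¹` integral over `O[u]`, (R3) `u * h ^ m ∈ O[h]`

(e.g. `u = j`, `h` a Hauptmodul of level `2` resp. `3`: `j h² = (h + 256)³` and `2 ∈ Oˣ`,
resp. `j h³ = (h + 27)(h + 243)³` and `3 ∈ Oˣ`).  Then the integral closure of `O[u]` in `L`
is the integral closure of `O[h, h⁻¹]`, and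

* `transcendental_of_rel`, `adjoin_le_adjoin`, `finiteDimensional_of_rel`;
* `gaussTSD_of_rel` : trace-self-duality at `π` for `(O[u], E(u))` implies trace-self-duality
  at `π` for `(O[h], E(h))`  (the literal body of `Model.GaussTSD`);
* `gaussOne_of_rel` : the literal body of `Model.GaussOne` passes from `u` to `h`.

Everything is elementwise inside `L` (subalgebras `Algebra.adjoin O {t}`, intermediate fields
`IntermediateField.adjoin E {t}`), exactly as in `S30/Model/Defs.lean`.
-/

set_option autoImplicit false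

open Polynomial

namespace Fermat.Agent.S30.Haupt.BaseChange

section Integral

variable {L : Type*} [Field L]

/-- Integrality over a subalgebra all of whose elements are integral over `R`. -/
theorem isIntegral_of_forall_isIntegral {A R : Type*} [CommRing A] [Algebra A L] [CommRing R]
    [Algebra R L] (D : Subalgebra A L) (hD : ∀ d ∈ D, IsIntegral R d) {x : L}
    (hx : IsIntegral D x) : IsIntegral R x := by
  obtain ⟨p, hp, hpx⟩ := hx
  let φ : D →+* integralClosure R L :=
    (D.val.toRingHom).codRestrict (integralClosure R L) (fun d => hD d d.2)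
  have hφ : (algebraMap (integralClosure R L) L).comp φ = algebraMap D L := by
    ext d; rfl
  have hxC : IsIntegral (integralClosure R L) x := by
    refine ⟨p.map φ, hp.map φ, ?_⟩
    rw [eval₂_map, hφ]
    exact hpx
  exact isIntegral_trans (A := integralClosure R L) x hxC

/-- Scaling: if `p` is monic over `L` with `p(y) = 0` and all `coeff * t ∈ D`, then `t * y` is
integral over `D`. -/
theorem isIntegral_mul_of_coeff {A : Type*} [CommRing A] [Algebra A L] (D : Subalgebra A L)
    (t y : L) (ht : t ∈ D) (p : L[X]) (hp : p.Monic) (hpy : p.eval y = 0)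
    (hc : ∀ i, p.coeff i * t ∈ D) : IsIntegral D (t * y) := by
  have hq : (scaleRoots p t).Monic := (monic_scaleRoots_iff t).mpr hp
  have hlift : scaleRoots p t ∈ Polynomial.lifts (algebraMap D L) := by
    rw [Polynomial.lifts_iff_coeff_lifts]
    intro i
    rw [coeff_scaleRoots]
    rcases lt_trichotomy i p.natDegree with hi | hi | hi
    · have h1 : p.coeff i * t ^ (p.natDegree - i) =
          (p.coeff i * t) * t ^ (p.natDegree - i - 1) := by
        have : p.natDegree - i = (p.natDegree - i - 1) + 1 := by omega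
        rw [this, pow_succ]
        simp only [Nat.add_sub_cancel]
        ring
      rw [h1]
      exact ⟨⟨_, D.mul_mem (hc i) (D.pow_mem ht _)⟩, rfl⟩
    · subst hi
      rw [Nat.sub_self, pow_zero, mul_one, hp.coeff_natDegree]
      exact ⟨1, rfl⟩
    · rw [coeff_eq_zero_of_natDegree_lt hi, zero_mul]
      exact ⟨0, rfl⟩
  obtain ⟨q, hq1, -, hq3⟩ := Polynomial.lifts_and_degree_eq_and_monic hlift hq
  refine ⟨q, hq3, ?_⟩
  have h0 : eval₂ (RingHom.id L) (t * y) (scaleRoots p t) = 0 := by
    have := scaleRoots_eval₂_eq_zero (p := p) (RingHom.id L) (r := y) (s := t)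
      (by simpa [eval₂_id] using hpy)
    simpa using this
  rw [← hq1, eval₂_map] at h0
  simpa using h0

end Integral

section Adjoin

variable {O L : Type*} [CommRing O] [Field L] [Algebra O L]

/-- Elements of `O[h]` are integral over `O[u]` as soon as `h` is. -/
theorem isIntegral_of_mem_adjoin (u h : L) (h1 : IsIntegral (Algebra.adjoin O {u}) h) {d : L}
    (hd : d ∈ Algebra.adjoin O {h}) : IsIntegral (Algebra.adjoin O {u}) d := by
  induction hd using Algebra.adjoin_induction with
  | mem x hx =>
    rw [Set.mem_singleton_iff] at hx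
    rw [hx]; exact h1
  | algebraMap r =>
    have : algebraMap O L r = algebraMap (Algebra.adjoin O {u}) L
        (algebraMap O (Algebra.adjoin O {u}) r) := rfl
    rw [this]
    exact isIntegral_algebraMap
  | add x y _ _ hx hy => exact hx.add hy
  | mul x y _ _ hx hy => exact hx.mul hy

/-- (R3) propagates: every element of `O[u]` becomes an element of `O[h]` after multiplication
by a large power of `h`. -/
theorem exists_pow_mul_mem (u h : L) (m : ℕ) (h3 : u * h ^ m ∈ Algebra.adjoin O {h}) {c : L}
    (hc : c ∈ Algebra.adjoin O {u}) :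
    ∃ k, ∀ k', k ≤ k' → c * h ^ k' ∈ Algebra.adjoin O {h} := by
  have hh : h ∈ Algebra.adjoin O {h} := Algebra.self_mem_adjoin_singleton O h
  induction hc using Algebra.adjoin_induction with
  | mem x hx =>
    rw [Set.mem_singleton_iff] at hx
    refine ⟨m, fun k' hk' => ?_⟩
    have : x * h ^ k' = (u * h ^ m) * h ^ (k' - m) := by
      rw [hx, mul_assoc, ← pow_add, Nat.add_sub_cancel' hk']
    rw [this]
    exact Subalgebra.mul_mem _ h3 (Subalgebra.pow_mem _ hh _)
  | algebraMap r =>
    exact ⟨0, fun k' _ => Subalgebra.mul_mem _ (Subalgebra.algebraMap_mem _ r)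
      (Subalgebra.pow_mem _ hh _)⟩
  | add x y _ _ hx hy =>
    obtain ⟨k1, hk1⟩ := hx
    obtain ⟨k2, hk2⟩ := hy
    refine ⟨max k1 k2, fun k' hk' => ?_⟩
    rw [add_mul]
    exact Subalgebra.add_mem _ (hk1 k' (le_trans (le_max_left _ _) hk'))
      (hk2 k' (le_trans (le_max_right _ _) hk'))
  | mul x y _ _ hx hy =>
    obtain ⟨k1, hk1⟩ := hx
    obtain ⟨k2, hk2⟩ := hy
    refine ⟨k1 + k2, fun k' hk' => ?_⟩
    have : x * y * h ^ k' = (x * h ^ k1) * (y * h ^ (k' - k1)) := by
      have : k' = k1 + (k' - k1) := by omega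
      conv_lhs => rw [this, pow_add]
      ring
    rw [this]
    exact Subalgebra.mul_mem _ (hk1 k1 le_rfl) (hk2 _ (by omega))

/-- Scaling of integrality: an element integral over `O[u]` becomes integral over `O[h]` after
multiplication by a large power of `h`. -/
theorem exists_pow_mul_isIntegral (u h : L) (m : ℕ) (h3 : u * h ^ m ∈ Algebra.adjoin O {h})
    {y : L} (hy : IsIntegral (Algebra.adjoin O {u}) y) :
    ∃ k, ∀ k', k ≤ k' → IsIntegral (Algebra.adjoin O {h}) (h ^ k' * y) := by
  have hh : h ∈ Algebra.adjoin O {h} := Algebra.self_mem_adjoin_singleton O h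
  obtain ⟨p, hp, hpy⟩ := hy
  set P : L[X] := p.map (algebraMap (Algebra.adjoin O {u}) L) with hP
  have hPm : P.Monic := hp.map _
  have hPy : P.eval y = 0 := by
    rw [hP, eval_map]; exact hpy
  have hex : ∀ i, ∃ k, ∀ k', k ≤ k' → P.coeff i * h ^ k' ∈ Algebra.adjoin O {h} := by
    intro i
    refine exists_pow_mul_mem u h m h3 ?_
    rw [hP, coeff_map]
    exact (p.coeff i).2
  choose kf hkf using hex
  refine ⟨(Finset.range (P.natDegree + 1)).sup kf, fun k' hk' => ?_⟩
  refine isIntegral_mul_of_coeff _ (h ^ k') y (Subalgebra.pow_mem _ hh _) P hPm hPy ?_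
  intro i
  by_cases hi : i ≤ P.natDegree
  · refine hkf i k' (le_trans ?_ hk')
    exact Finset.le_sup (f := kf) (Finset.mem_range.mpr (Nat.lt_succ_of_le hi))
  · rw [coeff_eq_zero_of_natDegree_lt (not_le.mp hi), zero_mul]
    exact Subalgebra.zero_mem _

end Adjoin


section Chart

variable {O E L : Type*} [CommRing O] [IsDomain O] [IsDiscreteValuationRing O]
  [Field E] [Algebra O E] [IsFractionRing O E]
  [Field L] [Algebra E L] [Algebra O L] [IsScalarTower O E L]

omit [IsDomain O] [IsDiscreteValuationRing O] in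
/-- A transcendental element over `E = Frac O` is transcendental over `O`. -/
theorem aeval_injective (w : L) (hw : Transcendental E w) :
    Function.Injective (aeval w : O[X] →ₐ[O] L) :=
  transcendental_iff_injective.mp
    (hw.restrictScalars (IsFractionRing.injective O E))

/-- The polynomial chart `O[X] ≃ₐ[O] O[w]`. -/
noncomputable def chartEquiv (w : L) (hw : Transcendental E w) :
    O[X] ≃ₐ[O] Algebra.adjoin O {w} :=
  (AlgEquiv.ofInjective (aeval w) (aeval_injective (O := O) w hw)).trans
    (Subalgebra.equivOfEq _ _ (Algebra.adjoin_singleton_eq_range_aeval O w).symm)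

omit [IsDomain O] [IsDiscreteValuationRing O] in
theorem coe_chartEquiv (w : L) (hw : Transcendental E w) (f : O[X]) :
    ((chartEquiv (O := O) w hw f : Algebra.adjoin O {w}) : L) = aeval w f := rfl

theorem isIntegrallyClosed_adjoin (w : L) (hw : Transcendental E w) :
    IsIntegrallyClosed (Algebra.adjoin O {w}) :=
  IsIntegrallyClosed.of_equiv (chartEquiv (O := O) w hw).toRingEquiv

theorem prime_algebraMap_adjoin (π : O) (hπ : Irreducible π) (w : L) (hw : Transcendental E w) :
    Prime (algebraMap O (Algebra.adjoin O {w}) π) := by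
  have h1 : Prime (C π : O[X]) := Polynomial.prime_C_iff.mpr hπ.prime
  have h2 : chartEquiv (O := O) w hw (C π) = algebraMap O (Algebra.adjoin O {w}) π := by
    apply Subtype.ext
    rw [coe_chartEquiv, aeval_C]
    rfl
  rw [← h2]
  exact (MulEquiv.prime_iff (chartEquiv (O := O) w hw).toMulEquiv).mpr h1

omit [IsDomain O] [IsDiscreteValuationRing O] in
theorem not_dvd_pow_adjoin (π : O) (hπ : Irreducible π) (w : L) (hw : Transcendental E w)
    (k : ℕ) : ¬ algebraMap O (Algebra.adjoin O {w}) π ∣
      (⟨w, Algebra.self_mem_adjoin_singleton O w⟩ : Algebra.adjoin O {w}) ^ k := by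
  intro hdvd
  have h2 : chartEquiv (O := O) w hw (C π) = algebraMap O (Algebra.adjoin O {w}) π := by
    apply Subtype.ext
    rw [coe_chartEquiv, aeval_C]
    rfl
  have h3 : chartEquiv (O := O) w hw (X ^ k) =
      (⟨w, Algebra.self_mem_adjoin_singleton O w⟩ : Algebra.adjoin O {w}) ^ k := by
    apply Subtype.ext
    rw [coe_chartEquiv, map_pow, aeval_X]
    rfl
  rw [← h2, ← h3] at hdvd
  have h4 : (C π : O[X]) ∣ X ^ k :=
    (map_dvd_iff (chartEquiv (O := O) w hw)).mp hdvd
  rw [Polynomial.C_dvd_iff_dvd_coeff] at h4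
  have h5 := h4 k
  rw [coeff_X_pow, if_pos rfl] at h5
  exact hπ.not_isUnit (isUnit_of_dvd_one h5)

/-- `O[w]` is integrally closed in `E(w)`, elementwise. -/
theorem mem_adjoin_of_isIntegral (w : L) (hw : Transcendental E w) {t : L}
    (ht : t ∈ IntermediateField.adjoin E {w}) (hint : IsIntegral (Algebra.adjoin O {w}) t) :
    t ∈ Algebra.adjoin O {w} := by
  classical
  have icl : IsIntegrallyClosed (Algebra.adjoin O {w}) := isIntegrallyClosed_adjoin (O := O) w hw
  have fsm : FaithfulSMul (Algebra.adjoin O {w}) L :=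
    (faithfulSMul_iff_algebraMap_injective _ _).mpr Subtype.val_injective
  let algF : Algebra (FractionRing (Algebra.adjoin O {w})) L :=
    FractionRing.liftAlgebra (Algebra.adjoin O {w}) L
  have towF : IsScalarTower (Algebra.adjoin O {w}) (FractionRing (Algebra.adjoin O {w})) L :=
    FractionRing.isScalarTower_liftAlgebra (Algebra.adjoin O {w}) L
  -- the image of the fraction field contains `E(w)`
  let S : Subfield L := (algebraMap (FractionRing (Algebra.adjoin O {w})) L).fieldRange
  have hDS : ∀ d : L, d ∈ Algebra.adjoin O {w} → d ∈ S := by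
    intro d hd
    refine ⟨algebraMap (Algebra.adjoin O {w}) (FractionRing (Algebra.adjoin O {w})) ⟨d, hd⟩, ?_⟩
    rw [← IsScalarTower.algebraMap_apply]
    rfl
  have hES : ∀ e : E, algebraMap E L e ∈ S := by
    intro e
    obtain ⟨a, b, hb, rfl⟩ := IsFractionRing.div_surjective (A := O) e
    rw [map_div₀, ← IsScalarTower.algebraMap_apply, ← IsScalarTower.algebraMap_apply]
    exact S.div_mem (hDS _ (Subalgebra.algebraMap_mem _ a)) (hDS _ (Subalgebra.algebraMap_mem _ b))
  have hle : IntermediateField.adjoin E {w} ≤ S.toIntermediateField hES := by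
    rw [IntermediateField.adjoin_simple_le_iff]
    exact hDS w (Algebra.self_mem_adjoin_singleton O w)
  obtain ⟨f, hf⟩ := hle ht
  have hf' : algebraMap (FractionRing (Algebra.adjoin O {w})) L f = t := hf
  rw [← hf'] at hint
  have hf2 : IsIntegral (Algebra.adjoin O {w}) f :=
    (isIntegral_algebraMap_iff
      (algebraMap (FractionRing (Algebra.adjoin O {w})) L).injective).mp hint
  obtain ⟨d, hd⟩ := IsIntegrallyClosed.isIntegral_iff.mp hf2
  rw [← hf', ← hd, ← IsScalarTower.algebraMap_apply]
  exact d.2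

end Chart


section Trace

variable {E L : Type*} [Field E] [Field L] [Algebra E L]

/-- `Tr_{L/K'}(c * z) = c * Tr_{L/K'}(z)` for `c ∈ K'`, read inside `L`. -/
theorem coe_trace_mul (K' : IntermediateField E L) {c : L} (hc : c ∈ K') (z : L) :
    ((Algebra.trace K' L (c * z) : K') : L) = c * ((Algebra.trace K' L z : K') : L) := by
  have h1 : c * z = (⟨c, hc⟩ : K') • z := rfl
  rw [h1, map_smul]
  rfl

/-- Transitivity of the trace in a tower `K ≤ K'` of intermediate fields, keeping track of
integrality over a subalgebra `D ⊆ K`. -/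
theorem trace_tower_integral {O : Type*} [CommRing O] [Algebra O L]
    (K K' : IntermediateField E L) (hle : K ≤ K') [FiniteDimensional K L]
    (D : Subalgebra O L) (hDK : ∀ d ∈ D, d ∈ K) (z a v : L) (ha : a ∈ K) (hv : v ∈ K')
    (hvint : IsIntegral D v)
    (hz : ((Algebra.trace K' L z : K') : L) = a * v) :
    ∃ v' : L, v' ∈ K ∧ IsIntegral D v' ∧ ((Algebra.trace K L z : K) : L) = a * v' := by
  let algKK' : Algebra K K' := (IntermediateField.inclusion hle).toRingHom.toAlgebra
  have tow1 : IsScalarTower K K' L := IsScalarTower.of_algebraMap_eq (fun x => rfl)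
  have fin1 : FiniteDimensional K K' := FiniteDimensional.left K K' L
  have fin2 : FiniteDimensional K' L := FiniteDimensional.right K K' L
  let ιK : D →+* K := (D.val.toRingHom).codRestrict K (fun d => hDK d d.2)
  let ιK' : D →+* K' := (D.val.toRingHom).codRestrict K' (fun d => hle (hDK d d.2))
  let algDK : Algebra D K := ιK.toAlgebra
  let algDK' : Algebra D K' := ιK'.toAlgebra
  have tow2 : IsScalarTower D K K' := IsScalarTower.of_algebraMap_eq (fun x => rfl)
  have tow3 : IsScalarTower D K' L := IsScalarTower.of_algebraMap_eq (fun x => rfl)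
  have tow4 : IsScalarTower D K L := IsScalarTower.of_algebraMap_eq (fun x => rfl)
  have hV : IsIntegral D (⟨v, hv⟩ : K') :=
    (isIntegral_algebraMap_iff (algebraMap K' L).injective).mp hvint
  have hT : IsIntegral D (Algebra.trace K K' (⟨v, hv⟩ : K')) := Algebra.isIntegral_trace hV
  refine ⟨((Algebra.trace K K' (⟨v, hv⟩ : K') : K) : L), (Algebra.trace K K' _).2,
    hT.algebraMap (B := L), ?_⟩
  have h1 : Algebra.trace K' L z = (⟨a, ha⟩ : K) • (⟨v, hv⟩ : K') := Subtype.ext (by rw [hz]; rfl)
  rw [← Algebra.trace_trace (S := K'), h1, map_smul]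
  rfl

end Trace

section Main

variable {O E L : Type*} [CommRing O] [IsDomain O] [IsDiscreteValuationRing O]
  [Field E] [Algebra O E] [IsFractionRing O E]
  [Field L] [Algebra E L] [Algebra O L] [IsScalarTower O E L]

omit [IsDomain O] [IsDiscreteValuationRing O] [IsFractionRing O E] in
/-- `O[w] ⊆ E(w)`. -/
theorem mem_adjoinField_of_mem_adjoin (w : L) {d : L} (hd : d ∈ Algebra.adjoin O {w}) :
    d ∈ IntermediateField.adjoin E {w} := by
  induction hd using Algebra.adjoin_induction with
  | mem x hx =>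
    rw [Set.mem_singleton_iff] at hx
    rw [hx]; exact IntermediateField.mem_adjoin_simple_self E w
  | algebraMap r =>
    rw [IsScalarTower.algebraMap_apply O E L]
    exact IntermediateField.algebraMap_mem _ _
  | add x y _ _ hx hy => exact add_mem hx hy
  | mul x y _ _ hx hy => exact mul_mem hx hy

omit [IsDomain O] [IsDiscreteValuationRing O] [IsFractionRing O E] in
/-- **(T0a)** `E(u) ≤ E(h)`. -/
theorem adjoin_le_adjoin (u h : L) (h0 : h ≠ 0) (m : ℕ)
    (h3 : u * h ^ m ∈ Algebra.adjoin O {h}) :
    IntermediateField.adjoin E {u} ≤ IntermediateField.adjoin E {h} := by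
  rw [IntermediateField.adjoin_simple_le_iff]
  have h4 : u = (u * h ^ m) / h ^ m := by
    field_simp
  rw [h4]
  exact div_mem (mem_adjoinField_of_mem_adjoin (E := E) h h3)
    (pow_mem (IntermediateField.mem_adjoin_simple_self E h) m)

omit [IsDomain O] [IsDiscreteValuationRing O] [IsFractionRing O E] in
/-- **(T0b)** `h` is transcendental over `E`. -/
theorem transcendental_of_rel (u h : L) (hu : Transcendental E u) (h0 : h ≠ 0) (m : ℕ)
    (h3 : u * h ^ m ∈ Algebra.adjoin O {h}) : Transcendental E h := by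
  intro halg
  apply hu
  have hle := adjoin_le_adjoin (O := O) (E := E) u h h0 m h3
  have hmem : u ∈ IntermediateField.adjoin E {h} :=
    hle (IntermediateField.mem_adjoin_simple_self E u)
  have : Algebra.IsAlgebraic E (IntermediateField.adjoin E {h}) :=
    IntermediateField.isAlgebraic_adjoin_simple halg.isIntegral
  have h5 : IsAlgebraic E (⟨u, hmem⟩ : IntermediateField.adjoin E {h}) :=
    Algebra.IsAlgebraic.isAlgebraic _
  exact h5.algebraMap (A := L)

omit [IsDomain O] [IsDiscreteValuationRing O] [IsFractionRing O E] in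
/-- **(T0c)** `L` is finite over `E(h)`. -/
theorem finiteDimensional_of_rel (u h : L) [FiniteDimensional (IntermediateField.adjoin E {u}) L]
    (h0 : h ≠ 0) (m : ℕ) (h3 : u * h ^ m ∈ Algebra.adjoin O {h}) :
    FiniteDimensional (IntermediateField.adjoin E {h}) L := by
  have hle := adjoin_le_adjoin (O := O) (E := E) u h h0 m h3
  let algKK' : Algebra (IntermediateField.adjoin E {u}) (IntermediateField.adjoin E {h}) :=
    (IntermediateField.inclusion hle).toRingHom.toAlgebra
  have tow1 : IsScalarTower (IntermediateField.adjoin E {u}) (IntermediateField.adjoin E {h}) L :=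
    IsScalarTower.of_algebraMap_eq (fun x => rfl)
  exact FiniteDimensional.right (IntermediateField.adjoin E {u}) (IntermediateField.adjoin E {h}) L

/-- **(T1) Base change of trace-self-duality at the Gauss prime.**  Hypothesis `H` and the
conclusion are the literal bodies of `Model.GaussTSD π u` and `Model.GaussTSD π h`. -/
theorem gaussTSD_of_rel (π : O) (hπ : Irreducible π) (u h : L) (hu : Transcendental E u)
    [FiniteDimensional (IntermediateField.adjoin E {u}) L] (h0 : h ≠ 0)
    (h1 : IsIntegral (Algebra.adjoin O {u}) h) (h2 : IsIntegral (Algebra.adjoin O {u}) h⁻¹)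
    (m : ℕ) (h3 : u * h ^ m ∈ Algebra.adjoin O {h})
    (H : ∀ x : L, IsIntegral (Algebra.adjoin O {u}) x →
      (∀ y : L, IsIntegral (Algebra.adjoin O {u}) y →
        ∃ w : L, w ∈ Algebra.adjoin O {u} ∧
          ((Algebra.trace (IntermediateField.adjoin E {u}) L (x * y) :
            IntermediateField.adjoin E {u}) : L) = algebraMap O L π * w) →
      ∃ z : L, IsIntegral (Algebra.adjoin O {u}) z ∧ x = algebraMap O L π * z) :
    ∀ x : L, IsIntegral (Algebra.adjoin O {h}) x →
      (∀ y : L, IsIntegral (Algebra.adjoin O {h}) y →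
        ∃ w : L, w ∈ Algebra.adjoin O {h} ∧
          ((Algebra.trace (IntermediateField.adjoin E {h}) L (x * y) :
            IntermediateField.adjoin E {h}) : L) = algebraMap O L π * w) →
      ∃ z : L, IsIntegral (Algebra.adjoin O {h}) z ∧ x = algebraMap O L π * z := by
  classical
  intro x hx hxy
  have hth : Transcendental E h := transcendental_of_rel (O := O) u h hu h0 m h3
  have hle := adjoin_le_adjoin (O := O) (E := E) u h h0 m h3
  have hhmem : h ∈ Algebra.adjoin O {h} := Algebra.self_mem_adjoin_singleton O h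
  -- `x` is integral over `O[u]`
  have hxu : IsIntegral (Algebra.adjoin O {u}) x :=
    isIntegral_of_forall_isIntegral (Algebra.adjoin O {h})
      (fun d hd => isIntegral_of_mem_adjoin u h h1 hd) hx
  -- the trace condition over `O[u]`
  have key : ∀ y : L, IsIntegral (Algebra.adjoin O {u}) y →
      ∃ w : L, w ∈ Algebra.adjoin O {u} ∧
        ((Algebra.trace (IntermediateField.adjoin E {u}) L (x * y) :
          IntermediateField.adjoin E {u}) : L) = algebraMap O L π * w := by
    intro y hy
    obtain ⟨k, hk⟩ := exists_pow_mul_isIntegral u h m h3 hy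
    obtain ⟨w, hw, hwt⟩ := hxy (h ^ k * y) (hk k le_rfl)
    have hhk : h ^ k ∈ IntermediateField.adjoin E {h} :=
      pow_mem (IntermediateField.mem_adjoin_simple_self E h) k
    have e1 : x * (h ^ k * y) = h ^ k * (x * y) := by ring
    rw [e1, coe_trace_mul _ hhk] at hwt
    have e2 : ((Algebra.trace (IntermediateField.adjoin E {h}) L (x * y) :
        IntermediateField.adjoin E {h}) : L) = algebraMap O L π * (w * h⁻¹ ^ k) := by
      have hk0 : h ^ k ≠ 0 := pow_ne_zero _ h0
      rw [inv_pow]
      field_simp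
      linear_combination hwt
    have hπK : algebraMap O L π ∈ IntermediateField.adjoin E {u} := by
      rw [IsScalarTower.algebraMap_apply O E L]
      exact IntermediateField.algebraMap_mem _ _
    have hvK : w * h⁻¹ ^ k ∈ IntermediateField.adjoin E {h} :=
      mul_mem (mem_adjoinField_of_mem_adjoin (E := E) h hw)
        (pow_mem (inv_mem (IntermediateField.mem_adjoin_simple_self E h)) k)
    have hvint : IsIntegral (Algebra.adjoin O {u}) (w * h⁻¹ ^ k) :=
      (isIntegral_of_mem_adjoin u h h1 hw).mul (h2.pow k)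
    obtain ⟨v', hv'K, hv'int, hv'⟩ := trace_tower_integral
      (IntermediateField.adjoin E {u}) (IntermediateField.adjoin E {h}) hle
      (Algebra.adjoin O {u}) (fun d hd => mem_adjoinField_of_mem_adjoin (E := E) u hd)
      (x * y) (algebraMap O L π) (w * h⁻¹ ^ k) hπK hvK hvint e2
    exact ⟨v', mem_adjoin_of_isIntegral (O := O) u hu hv'K hv'int, hv'⟩
  obtain ⟨z, hz, hxz⟩ := H x hxu key
  -- `z` is integral over `O[h]`
  obtain ⟨k, hk⟩ := exists_pow_mul_isIntegral u h m h3 hz
  have hzk := hk k le_rfl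
  have icl : IsIntegrallyClosed (Algebra.adjoin O {h}) := isIntegrallyClosed_adjoin (O := O) h hth
  have fsm : FaithfulSMul (Algebra.adjoin O {h}) L :=
    (faithfulSMul_iff_algebraMap_injective _ _).mpr Subtype.val_injective
  let algF : Algebra (FractionRing (Algebra.adjoin O {h})) L :=
    FractionRing.liftAlgebra (Algebra.adjoin O {h}) L
  have towF : IsScalarTower (Algebra.adjoin O {h}) (FractionRing (Algebra.adjoin O {h})) L :=
    FractionRing.isScalarTower_liftAlgebra (Algebra.adjoin O {h}) L
  have hsm : ((⟨h, hhmem⟩ : Algebra.adjoin O {h}) ^ k) • x =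
      (algebraMap O (Algebra.adjoin O {h}) π) • (h ^ k * z) := by
    have l1 : ((⟨h, hhmem⟩ : Algebra.adjoin O {h}) ^ k) • x = h ^ k * x := rfl
    have l2 : (algebraMap O (Algebra.adjoin O {h}) π) • (h ^ k * z) =
        algebraMap O L π * (h ^ k * z) := rfl
    rw [l1, l2, hxz]
    ring
  obtain ⟨y, hy, hxy'⟩ := Fermat.Agent.Lib.NormalFree.exists_isIntegral_smul_eq
    (FractionRing (Algebra.adjoin O {h})) (prime_algebraMap_adjoin (E := E) π hπ h hth)
    (not_dvd_pow_adjoin (E := E) π hπ h hth k) hx hzk hsm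
  exact ⟨y, hy, hxy'⟩

omit [IsDomain O] [IsDiscreteValuationRing O] [IsFractionRing O E] [Algebra E L]
  [IsScalarTower O E L] [Field E] [Algebra O E] in
/-- **(T2) Base change of `GaussOne`.**  Hypothesis `H` and the conclusion are the literal
bodies of `Model.GaussOne π u g` and `Model.GaussOne π h g`. -/
theorem gaussOne_of_rel (π : O) (u h g : L) (h0 : h ≠ 0)
    (h1 : IsIntegral (Algebra.adjoin O {u}) h) (h2 : IsIntegral (Algebra.adjoin O {u}) h⁻¹)
    (m : ℕ) (h3 : u * h ^ m ∈ Algebra.adjoin O {h})
    (H : ∃ a b : L, IsIntegral (Algebra.adjoin O {u}) a ∧ IsIntegral (Algebra.adjoin O {u}) b ∧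
      (∀ c : L, IsIntegral (Algebra.adjoin O {u}) c → b ≠ algebraMap O L π * c) ∧
      g * b = b + algebraMap O L π * a) :
    ∃ a b : L, IsIntegral (Algebra.adjoin O {h}) a ∧ IsIntegral (Algebra.adjoin O {h}) b ∧
      (∀ c : L, IsIntegral (Algebra.adjoin O {h}) c → b ≠ algebraMap O L π * c) ∧
      g * b = b + algebraMap O L π * a := by
  obtain ⟨a, b, ha, hb, hnb, hg⟩ := H
  obtain ⟨ka, hka⟩ := exists_pow_mul_isIntegral u h m h3 ha
  obtain ⟨kb, hkb⟩ := exists_pow_mul_isIntegral u h m h3 hb
  refine ⟨h ^ (max ka kb) * a, h ^ (max ka kb) * b, hka _ (le_max_left _ _),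
    hkb _ (le_max_right _ _), ?_, ?_⟩
  · intro c hc heq
    have hcu : IsIntegral (Algebra.adjoin O {u}) c :=
      isIntegral_of_forall_isIntegral (Algebra.adjoin O {h})
        (fun d hd => isIntegral_of_mem_adjoin u h h1 hd) hc
    refine hnb (c * h⁻¹ ^ (max ka kb)) (hcu.mul (h2.pow _)) ?_
    have hk0 : h ^ (max ka kb) ≠ 0 := pow_ne_zero _ h0
    rw [inv_pow]
    field_simp
    linear_combination heq
  · linear_combination h ^ (max ka kb) * hg

end Main


section Levels

variable {O L : Type*} [CommRing O] [Field L] [Algebra O L]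

/-- Elements of a subalgebra are integral over it. -/
theorem isIntegral_of_mem (D : Subalgebra O L) {d : L} (hd : d ∈ D) : IsIntegral D d := by
  have : d = algebraMap D L ⟨d, hd⟩ := rfl
  rw [this]
  exact isIntegral_algebraMap

/-- **Level 2**: (R1), (R2), (R3) for `u = j` and a Hauptmodul `h` with
`j h² = (h + 256)³`, when `2` is a unit of `O`. -/
theorem rel_two (j h : L) (hrel : j * h ^ 2 = (h + 256) ^ 3)
    (hunit : IsUnit (2 : O)) :
    IsIntegral (Algebra.adjoin O {j}) h ∧ IsIntegral (Algebra.adjoin O {j}) h⁻¹ ∧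
      j * h ^ 2 ∈ Algebra.adjoin O {h} := by
  have hjm : j ∈ Algebra.adjoin O {j} := Algebra.self_mem_adjoin_singleton O j
  have hj : IsIntegral (Algebra.adjoin O {j}) j := isIntegral_of_mem _ hjm
  have hnum : ∀ n : ℕ, IsIntegral (Algebra.adjoin O {j}) (n : L) := fun n =>
    isIntegral_of_mem _ (natCast_mem _ n)
  -- (R1)
  have R1 : IsIntegral (Algebra.adjoin O {j}) h := by
    let J : Algebra.adjoin O {j} := ⟨j, hjm⟩
    have hm : ((X + C (256 : Algebra.adjoin O {j})) ^ 3).Monic := (monic_X_add_C _).pow 3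
    have hd : (C J * X ^ 2 : (Algebra.adjoin O {j})[X]).degree <
        ((X + C (256 : Algebra.adjoin O {j})) ^ 3).degree := by
      rw [degree_pow, degree_X_add_C]
      refine lt_of_le_of_lt (degree_C_mul_X_pow_le 2 J) ?_
      norm_num
    refine ⟨(X + C 256) ^ 3 - C J * X ^ 2, hm.sub_of_left hd, ?_⟩
    have h256 : algebraMap (Algebra.adjoin O {j}) L 256 = 256 := map_ofNat _ 256
    have hJ : algebraMap (Algebra.adjoin O {j}) L J = j := rfl
    simp only [eval₂_sub, eval₂_pow, eval₂_add, eval₂_X, eval₂_C, eval₂_mul, h256, hJ]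
    linear_combination -hrel
  refine ⟨R1, ?_, ?_⟩
  · -- (R2)
    have hu16 : IsUnit (16777216 : O) := by
      have : (16777216 : O) = 2 ^ 24 := by norm_num
      rw [this]; exact hunit.pow 24
    obtain ⟨v, hv⟩ := hu16
    have hA : algebraMap O L (↑v⁻¹ : O) * 16777216 = 1 := by
      have h1 : (↑v⁻¹ : O) * 16777216 = 1 := by rw [← hv]; exact Units.inv_mul v
      have h2 := congrArg (algebraMap O L) h1
      rwa [map_mul, map_ofNat, map_one] at h2
    have hinv : h⁻¹ = algebraMap O L (↑v⁻¹ : O) * (j * h - h ^ 2 - 768 * h - 196608) := by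
      apply inv_eq_of_mul_eq_one_right
      linear_combination algebraMap O L (↑v⁻¹ : O) * hrel + hA
    rw [hinv]
    refine (isIntegral_of_mem _ (Subalgebra.algebraMap_mem _ _)).mul ?_
    have e768 : (768 : L) = ((768 : ℕ) : L) := by norm_num
    have e196608 : (196608 : L) = ((196608 : ℕ) : L) := by norm_num
    rw [e768, e196608]
    exact (((hj.mul R1).sub (R1.pow 2)).sub ((hnum 768).mul R1)).sub (hnum 196608)
  · rw [hrel]
    exact Subalgebra.pow_mem _ (Subalgebra.add_mem _ (Algebra.self_mem_adjoin_singleton O h)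
      (ofNat_mem _ 256)) 3

/-- **Level 3**: (R1), (R2), (R3) for `u = j` and a Hauptmodul `h` with
`j h³ = (h + 27)(h + 243)³`, when `3` is a unit of `O`. -/
theorem rel_three (j h : L) (hrel : j * h ^ 3 = (h + 27) * (h + 243) ^ 3)
    (hunit : IsUnit (3 : O)) :
    IsIntegral (Algebra.adjoin O {j}) h ∧ IsIntegral (Algebra.adjoin O {j}) h⁻¹ ∧
      j * h ^ 3 ∈ Algebra.adjoin O {h} := by
  have hjm : j ∈ Algebra.adjoin O {j} := Algebra.self_mem_adjoin_singleton O j
  have hj : IsIntegral (Algebra.adjoin O {j}) j := isIntegral_of_mem _ hjm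
  have hnum : ∀ n : ℕ, IsIntegral (Algebra.adjoin O {j}) (n : L) := fun n =>
    isIntegral_of_mem _ (natCast_mem _ n)
  -- (R1)
  have R1 : IsIntegral (Algebra.adjoin O {j}) h := by
    let J : Algebra.adjoin O {j} := ⟨j, hjm⟩
    have hm : ((X + C (27 : Algebra.adjoin O {j})) *
        (X + C (243 : Algebra.adjoin O {j})) ^ 3).Monic :=
      (monic_X_add_C _).mul ((monic_X_add_C _).pow 3)
    have hd : (C J * X ^ 3 : (Algebra.adjoin O {j})[X]).degree <
        ((X + C (27 : Algebra.adjoin O {j})) *
          (X + C (243 : Algebra.adjoin O {j})) ^ 3).degree := by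
      have hdeg : ((X + C (27 : Algebra.adjoin O {j})) *
          (X + C (243 : Algebra.adjoin O {j})) ^ 3).degree = 4 := by
        rw [degree_mul, degree_pow, degree_X_add_C, degree_X_add_C]
        norm_num
      rw [hdeg]
      refine lt_of_le_of_lt (degree_C_mul_X_pow_le 3 J) ?_
      norm_num
    refine ⟨(X + C 27) * (X + C 243) ^ 3 - C J * X ^ 3, hm.sub_of_left hd, ?_⟩
    have h27 : algebraMap (Algebra.adjoin O {j}) L 27 = 27 := map_ofNat _ 27
    have h243 : algebraMap (Algebra.adjoin O {j}) L 243 = 243 := map_ofNat _ 243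
    have hJ : algebraMap (Algebra.adjoin O {j}) L J = j := rfl
    simp only [eval₂_sub, eval₂_pow, eval₂_add, eval₂_X, eval₂_C, eval₂_mul, h27, h243, hJ]
    linear_combination -hrel
  refine ⟨R1, ?_, ?_⟩
  · -- (R2)
    have hu18 : IsUnit (387420489 : O) := by
      have : (387420489 : O) = 3 ^ 18 := by norm_num
      rw [this]; exact hunit.pow 18
    obtain ⟨v, hv⟩ := hu18
    have hA : algebraMap O L (↑v⁻¹ : O) * 387420489 = 1 := by
      have h1 : (↑v⁻¹ : O) * 387420489 = 1 := by rw [← hv]; exact Units.inv_mul v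
      have h2 := congrArg (algebraMap O L) h1
      rwa [map_mul, map_ofNat, map_one] at h2
    have hinv : h⁻¹ = algebraMap O L (↑v⁻¹ : O) *
        (j * h ^ 2 - h ^ 3 - 756 * h ^ 2 - 196830 * h - 19131876) := by
      apply inv_eq_of_mul_eq_one_right
      linear_combination algebraMap O L (↑v⁻¹ : O) * hrel + hA
    rw [hinv]
    refine (isIntegral_of_mem _ (Subalgebra.algebraMap_mem _ _)).mul ?_
    have e756 : (756 : L) = ((756 : ℕ) : L) := by norm_num
    have e196830 : (196830 : L) = ((196830 : ℕ) : L) := by norm_num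
    have e19131876 : (19131876 : L) = ((19131876 : ℕ) : L) := by norm_num
    rw [e756, e196830, e19131876]
    exact ((((hj.mul (R1.pow 2)).sub (R1.pow 3)).sub ((hnum 756).mul (R1.pow 2))).sub
      ((hnum 196830).mul R1)).sub (hnum 19131876)
  · rw [hrel]
    exact Subalgebra.mul_mem _
      (Subalgebra.add_mem _ (Algebra.self_mem_adjoin_singleton O h) (ofNat_mem _ 27))
      (Subalgebra.pow_mem _ (Subalgebra.add_mem _ (Algebra.self_mem_adjoin_singleton O h)
        (ofNat_mem _ 243)) 3)

omit [Algebra O L] in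
/-- The `s = 1/h` normalisation of the level-2 relation (`Haupt.Two.jq_mul_s2`). -/
theorem rel_two_of_inv (j s : L) (hs : s ≠ 0) (hrel : j * s = (1 + 256 * s) ^ 3) :
    j * s⁻¹ ^ 2 = (s⁻¹ + 256) ^ 3 := by
  field_simp
  linear_combination hrel

omit [Algebra O L] in
/-- The `s = 1/h` normalisation of the level-3 relation (`Haupt.Three.jq_mul_s3`). -/
theorem rel_three_of_inv (j s : L) (hs : s ≠ 0)
    (hrel : j * s = (1 + 27 * s) * (1 + 243 * s) ^ 3) :
    j * s⁻¹ ^ 3 = (s⁻¹ + 27) * (s⁻¹ + 243) ^ 3 := by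
  field_simp
  linear_combination hrel

end Levels


section Packaged

/-- The literal body of `Model.GaussTSD (E := E) π t` (`S30/Model/Defs.lean`). -/
def TSDBody (E : Type*) {O L : Type*} [Field E] [Field L] [Algebra E L] [CommRing O]
    [Algebra O L] (π : O) (t : L) : Prop :=
  ∀ x : L, IsIntegral (Algebra.adjoin O {t}) x →
    (∀ y : L, IsIntegral (Algebra.adjoin O {t}) y →
      ∃ w : L, w ∈ Algebra.adjoin O {t} ∧
        ((Algebra.trace (IntermediateField.adjoin E {t}) L (x * y) :
          IntermediateField.adjoin E {t}) : L) = algebraMap O L π * w) →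
    ∃ z : L, IsIntegral (Algebra.adjoin O {t}) z ∧ x = algebraMap O L π * z

/-- The literal body of `Model.GaussOne π t g` (`S30/Model/Main.lean`). -/
def OneBody {O L : Type*} [Field L] [CommRing O] [Algebra O L] (π : O) (t g : L) : Prop :=
  ∃ a b : L, IsIntegral (Algebra.adjoin O {t}) a ∧ IsIntegral (Algebra.adjoin O {t}) b ∧
    (∀ c : L, IsIntegral (Algebra.adjoin O {t}) c → b ≠ algebraMap O L π * c) ∧
    g * b = b + algebraMap O L π * a

variable {O E L : Type*} [CommRing O] [IsDomain O] [IsDiscreteValuationRing O]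
  [Field E] [Algebra O E] [IsFractionRing O E]
  [Field L] [Algebra E L] [Algebra O L] [IsScalarTower O E L]

/-- **Generic package**: under (R1), (R2), (R3) all Gauss-side hypotheses of the MODEL THEOREM
pass from the coordinate `u` to the coordinate `h`. -/
theorem package_of_rel (π : O) (hπ : Irreducible π) (u h : L) (hu : Transcendental E u)
    [FiniteDimensional (IntermediateField.adjoin E {u}) L] (h0 : h ≠ 0)
    (h1 : IsIntegral (Algebra.adjoin O {u}) h) (h2 : IsIntegral (Algebra.adjoin O {u}) h⁻¹)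
    (m : ℕ) (h3 : u * h ^ m ∈ Algebra.adjoin O {h}) :
    Transcendental E h ∧ FiniteDimensional (IntermediateField.adjoin E {h}) L ∧
      (TSDBody E π u → TSDBody E π h) ∧ (∀ g : L, OneBody π u g → OneBody π h g) :=
  ⟨transcendental_of_rel (O := O) u h hu h0 m h3,
    finiteDimensional_of_rel (O := O) (E := E) u h h0 m h3,
    fun H => gaussTSD_of_rel π hπ u h hu h0 h1 h2 m h3 H,
    fun g H => gaussOne_of_rel π u h g h0 h1 h2 m h3 H⟩

/-- **Level 2, `h`-chart** (`ℓ` odd): `j h² = (h + 256)³`. -/
theorem level_two (π : O) (hπ : Irreducible π) (j h : L) (hj : Transcendental E j)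
    [FiniteDimensional (IntermediateField.adjoin E {j}) L] (h0 : h ≠ 0)
    (hrel : j * h ^ 2 = (h + 256) ^ 3) (hunit : IsUnit (2 : O)) :
    Transcendental E h ∧ FiniteDimensional (IntermediateField.adjoin E {h}) L ∧
      (TSDBody E π j → TSDBody E π h) ∧ (∀ g : L, OneBody π j g → OneBody π h g) := by
  obtain ⟨h1, h2, h3⟩ := rel_two (O := O) j h hrel hunit
  exact package_of_rel π hπ j h hj h0 h1 h2 2 h3

/-- **Level 2, `s`-chart** (`s = 1/h`, `ℓ` odd): `j s = (1 + 256 s)³`. -/
theorem level_two_inv (π : O) (hπ : Irreducible π) (j s : L) (hj : Transcendental E j)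
    [FiniteDimensional (IntermediateField.adjoin E {j}) L] (hs : s ≠ 0)
    (hrel : j * s = (1 + 256 * s) ^ 3) (hunit : IsUnit (2 : O)) :
    Transcendental E s ∧ FiniteDimensional (IntermediateField.adjoin E {s}) L ∧
      (TSDBody E π j → TSDBody E π s) ∧ (∀ g : L, OneBody π j g → OneBody π s g) := by
  obtain ⟨h1, h2, -⟩ := rel_two (O := O) j s⁻¹ (rel_two_of_inv j s hs hrel) hunit
  rw [inv_inv] at h2
  refine package_of_rel π hπ j s hj hs h2 h1 1 ?_
  rw [pow_one, hrel]
  exact Subalgebra.pow_mem _ (Subalgebra.add_mem _ (Subalgebra.one_mem _)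
    (Subalgebra.mul_mem _ (ofNat_mem _ 256) (Algebra.self_mem_adjoin_singleton O s))) 3

/-- **Level 3, `h`-chart** (`ℓ ≠ 3`): `j h³ = (h + 27)(h + 243)³`. -/
theorem level_three (π : O) (hπ : Irreducible π) (j h : L) (hj : Transcendental E j)
    [FiniteDimensional (IntermediateField.adjoin E {j}) L] (h0 : h ≠ 0)
    (hrel : j * h ^ 3 = (h + 27) * (h + 243) ^ 3) (hunit : IsUnit (3 : O)) :
    Transcendental E h ∧ FiniteDimensional (IntermediateField.adjoin E {h}) L ∧
      (TSDBody E π j → TSDBody E π h) ∧ (∀ g : L, OneBody π j g → OneBody π h g) := by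
  obtain ⟨h1, h2, h3⟩ := rel_three (O := O) j h hrel hunit
  exact package_of_rel π hπ j h hj h0 h1 h2 3 h3

/-- **Level 3, `s`-chart** (`s = 1/h`, `ℓ ≠ 3`): `j s = (1 + 27 s)(1 + 243 s)³`. -/
theorem level_three_inv (π : O) (hπ : Irreducible π) (j s : L) (hj : Transcendental E j)
    [FiniteDimensional (IntermediateField.adjoin E {j}) L] (hs : s ≠ 0)
    (hrel : j * s = (1 + 27 * s) * (1 + 243 * s) ^ 3) (hunit : IsUnit (3 : O)) :
    Transcendental E s ∧ FiniteDimensional (IntermediateField.adjoin E {s}) L ∧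
      (TSDBody E π j → TSDBody E π s) ∧ (∀ g : L, OneBody π j g → OneBody π s g) := by
  obtain ⟨h1, h2, -⟩ := rel_three (O := O) j s⁻¹ (rel_three_of_inv j s hs hrel) hunit
  rw [inv_inv] at h2
  refine package_of_rel π hπ j s hj hs h2 h1 1 ?_
  rw [pow_one, hrel]
  exact Subalgebra.mul_mem _
    (Subalgebra.add_mem _ (Subalgebra.one_mem _)
      (Subalgebra.mul_mem _ (ofNat_mem _ 27) (Algebra.self_mem_adjoin_singleton O s)))
    (Subalgebra.pow_mem _ (Subalgebra.add_mem _ (Subalgebra.one_mem _)
      (Subalgebra.mul_mem _ (ofNat_mem _ 243) (Algebra.self_mem_adjoin_singleton O s))) 3)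

end Packaged

end Fermat.Agent.S30.Haupt.BaseChange
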