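import Fermat.Agent.S30.Haupt.HorizThree
import Fermat.Agent.S30.AuxLevel.Mem

set_option autoImplicit false

/-!
# H.Horiz — hypothesis (ii) of the MODEL THEOREM for the canonical Hauptmoduln `t₂`, `t₃`

Row 340 (E2.Aux.H.Horiz).  `E ⊆ ℚ̄` ANY intermediate field, `M` a level with `2 ∣ M` (resp.
`3 ∣ M`), `L_E = laurentBaseChange E (modularFunctionFieldFull M)`:

* `horizUnram_t2` : `Model.HorizUnram S u` for `u = AuxLevel.t2 E`, `S ∋ 0, -64`;
* `horizUnram_t3` : `Model.HorizUnram S u` for `u = AuxLevel.t3 E`, `S ∋ 0, -27`.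

Bridges between the two landed normalisations of the Hauptmoduln:

* `t2_mul_s2 : AuxLevel.t2 ℚ * Two.s2 = 1`, `t3_mul_s3 : AuxLevel.t3 ℚ * Three.s3 = 1`;
* `coe_h2E_eq : (h2E M E h : LaurentSeries E) = AuxLevel.t2 E`, `coe_h3E_eq`;
* `ord_t2_sub_eq_one`, `ord_t3_sub_eq_one` : the place form over `ℚ̄` for `t_r`
  (`F_M / ℚ̄(t₂)` is unramified outside `{0, -64, ∞}`, `F_M / ℚ̄(t₃)` outside `{0, -27, ∞}`).
-/

noncomputable section

namespace Fermat.Agent.S30.Haupt.Horiz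

open AlgebraicCurve Polynomial ModularCurve
open Fermat.Agent.S24.Modular Fermat.Agent.S28.SturmDep Fermat.Agent.S28.SturmMF

set_option synthInstance.maxHeartbeats 400000
set_option maxHeartbeats 1000000

local notation "Qb" => AlgebraicClosure ℚ

/-! ### `t_r = 1 / s_r` -/

theorem t2Num_mul :
    AuxLevel.t2Num * (pexp 2 dedekindEtaUnit * dedekindEtaUnitInv) = 1 := by
  rw [AuxLevel.t2Num, AuxLevel.pexp_eq_expand 2 (NeZero.ne 2)]
  have h1 : AuxLevel.UZ * AuxLevel.VZ = 1 := AuxLevel.UZ_mul_VZ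
  have h2 : AuxLevel.ex 2 AuxLevel.UZ * AuxLevel.ex 2 AuxLevel.VZ = 1 :=
    AuxLevel.ex_UZ_mul_ex_VZ 2
  calc AuxLevel.UZ * AuxLevel.ex 2 AuxLevel.VZ *
        (PowerSeries.expand 2 (NeZero.ne 2) dedekindEtaUnit * dedekindEtaUnitInv)
      = (AuxLevel.UZ * AuxLevel.VZ) * (AuxLevel.ex 2 AuxLevel.UZ * AuxLevel.ex 2 AuxLevel.VZ) := by
        ring
    _ = 1 := by rw [h1, h2, mul_one]

theorem t3Num_mul :
    AuxLevel.t3Num * (pexp 3 etaProd ^ 12 * Three.eta12Inv) = 1 := by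
  rw [AuxLevel.t3Num, AuxLevel.pexp_eq_expand 3 (NeZero.ne 3)]
  have h1 : AuxLevel.aZ * Three.eta12Inv = 1 := Three.eta12_mul_inv
  have h2 : AuxLevel.ex 3 AuxLevel.aZ ^ 2 * AuxLevel.ex 3 AuxLevel.VZ = 1 :=
    AuxLevel.ex3_aZ_sq_mul
  have h3 : PowerSeries.expand 3 (NeZero.ne 3) etaProd ^ 12 = AuxLevel.ex 3 AuxLevel.aZ := by
    rw [AuxLevel.aZ, map_pow]
  rw [h3]
  calc AuxLevel.aZ * (AuxLevel.ex 3 AuxLevel.aZ * AuxLevel.ex 3 AuxLevel.VZ) *
        (AuxLevel.ex 3 AuxLevel.aZ * Three.eta12Inv)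
      = (AuxLevel.aZ * Three.eta12Inv) *
          (AuxLevel.ex 3 AuxLevel.aZ ^ 2 * AuxLevel.ex 3 AuxLevel.VZ) := by ring
    _ = 1 := by rw [h1, h2, mul_one]

/-- `t₂ · s2 = 1` in `ℚ((q))`. -/
theorem t2_mul_s2 : AuxLevel.t2 ℚ * Two.s2 = 1 := by
  have hs : Two.s2 = AuxLevel.em ℚ Two.s2Z := Two.s2_eq_emb
  rw [hs, AuxLevel.t2, Two.s2Z, map_mul]
  calc AuxLevel.xinv ℚ * AuxLevel.em ℚ AuxLevel.t2Num *
        (AuxLevel.em ℚ PowerSeries.X *
          AuxLevel.em ℚ (pexp 2 dedekindEtaUnit * dedekindEtaUnitInv))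
      = (AuxLevel.xinv ℚ * AuxLevel.em ℚ PowerSeries.X) *
          AuxLevel.em ℚ (AuxLevel.t2Num * (pexp 2 dedekindEtaUnit * dedekindEtaUnitInv)) := by
        rw [map_mul (AuxLevel.em ℚ) AuxLevel.t2Num]; ring
    _ = 1 := by rw [AuxLevel.xinv_mul_em_X, t2Num_mul, map_one, mul_one]

/-- `t₃ · s3 = 1` in `ℚ((q))`. -/
theorem t3_mul_s3 : AuxLevel.t3 ℚ * Three.s3 = 1 := by
  have hs : Three.s3 = AuxLevel.em ℚ Three.s3Z := rfl
  rw [hs, AuxLevel.t3, Three.s3Z, map_mul]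
  calc AuxLevel.xinv ℚ * AuxLevel.em ℚ AuxLevel.t3Num *
        (AuxLevel.em ℚ PowerSeries.X *
          AuxLevel.em ℚ (pexp 3 etaProd ^ 12 * Three.eta12Inv))
      = (AuxLevel.xinv ℚ * AuxLevel.em ℚ PowerSeries.X) *
          AuxLevel.em ℚ (AuxLevel.t3Num * (pexp 3 etaProd ^ 12 * Three.eta12Inv)) := by
        rw [map_mul (AuxLevel.em ℚ) AuxLevel.t3Num]; ring
    _ = 1 := by rw [AuxLevel.xinv_mul_em_X, t3Num_mul, map_one, mul_one]

/-- `t₂ = (s2)⁻¹` over any field `L ⊇ ℚ`. -/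
theorem t2_eq_inv (L : Type*) [Field L] [Algebra ℚ L] :
    AuxLevel.t2 L = (coeffEmb L Two.s2)⁻¹ := by
  apply eq_inv_of_mul_eq_one_left
  rw [← AuxLevel.coeffEmb_t2, ← map_mul, t2_mul_s2, map_one]

/-- `t₃ = (s3)⁻¹` over any field `L ⊇ ℚ`. -/
theorem t3_eq_inv (L : Type*) [Field L] [Algebra ℚ L] :
    AuxLevel.t3 L = (coeffEmb L Three.s3)⁻¹ := by
  apply eq_inv_of_mul_eq_one_left
  rw [← AuxLevel.coeffEmb_t3, ← map_mul, t3_mul_s3, map_one]

variable (M : ℕ) [NeZero M]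

theorem coe_h2E_eq (E : IntermediateField ℚ Qb) (h : 2 ∣ M) :
    ((HorizTwo.h2E M E h : ↥(laurentBaseChange E (modularFunctionFieldFull M))) : LaurentSeries E)
      = AuxLevel.t2 E := by
  rw [HorizTwo.coe_h2E, t2_eq_inv]

theorem coe_h3E_eq (E : IntermediateField ℚ Qb) (h : 3 ∣ M) :
    ((HorizThree.h3E M E h : ↥(laurentBaseChange E (modularFunctionFieldFull M))) :
      LaurentSeries E) = AuxLevel.t3 E := by
  rw [HorizThree.coe_h3E, t3_eq_inv]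

theorem coe_h2F_eq (h : 2 ∣ M) :
    ((BranchTwo.h2F M h : FN M) : LaurentSeries Qb) = AuxLevel.t2 Qb := by
  rw [t2_eq_inv]; rfl

theorem coe_h3F_eq (h : 3 ∣ M) :
    ((BranchThree.h3F M h : FN M) : LaurentSeries Qb) = AuxLevel.t3 Qb := by
  rw [t3_eq_inv]; rfl

/-! ### Place form over `ℚ̄` -/

/-- **`F_M / ℚ̄(t₂)` is unramified outside `t₂ ∈ {0, -64, ∞}`** (`2 ∣ M`). -/
theorem ord_t2_sub_eq_one (h : 2 ∣ M) (t : FN M) (ht : (t : LaurentSeries Qb) = AuxLevel.t2 Qb)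
    (β : Qb) (h0 : β ≠ 0) (h1 : β ≠ -64) (v : Place Qb (FN M))
    (hv : 0 < v.ord (t - algebraMap Qb (FN M) β)) : v.ord (t - algebraMap Qb (FN M) β) = 1 := by
  obtain rfl : t = BranchTwo.h2F M h := Subtype.ext (ht.trans (coe_h2F_eq M h).symm)
  exact BranchTwo.ord_h2F_sub_eq_one M h β h0 (fun hz => h1 (eq_neg_of_add_eq_zero_left hz)) v hv

/-- **`F_M / ℚ̄(t₃)` is unramified outside `t₃ ∈ {0, -27, ∞}`** (`3 ∣ M`). -/
theorem ord_t3_sub_eq_one (h : 3 ∣ M) (t : FN M) (ht : (t : LaurentSeries Qb) = AuxLevel.t3 Qb)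
    (β : Qb) (h0 : β ≠ 0) (h1 : β ≠ -27) (v : Place Qb (FN M))
    (hv : 0 < v.ord (t - algebraMap Qb (FN M) β)) : v.ord (t - algebraMap Qb (FN M) β) = 1 := by
  obtain rfl : t = BranchThree.h3F M h := Subtype.ext (ht.trans (coe_h3F_eq M h).symm)
  exact BranchThree.ord_h3F_sub_eq_one M h β h0 (fun hz => h1 (eq_neg_of_add_eq_zero_left hz)) v hv

/-! ### Hypothesis (ii) -/

/-- **Hypothesis (ii) of the MODEL THEOREM for `u = t₂`** (`2 ∣ M`): `Model.HorizUnram S t₂` as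
soon as `S` contains `0` and `-64`. -/
theorem horizUnram_t2 (h2M : 2 ∣ M) (E : IntermediateField ℚ Qb) {O : Type*} [CommRing O]
    [Algebra O E] (u : ↥(laurentBaseChange E (modularFunctionFieldFull M)))
    (hu : (u : LaurentSeries E) = AuxLevel.t2 E) (htr : Transcendental E u)
    [FiniteDimensional (IntermediateField.adjoin E {u})
      ↥(laurentBaseChange E (modularFunctionFieldFull M))]
    (S : Finset O) (h0 : ∃ c ∈ S, algebraMap O E c = 0)
    (h64 : ∃ c ∈ S, algebraMap O E c = -64) :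
    Fermat.Agent.S30.Model.HorizUnram (E := E) S u := by
  have _ := htr
  obtain rfl : u = HorizTwo.h2E M E h2M := Subtype.ext (hu.trans (coe_h2E_eq M E h2M).symm)
  exact HorizTwo.horizUnram_h2 M E h2M S h0 h64

/-- **Hypothesis (ii) of the MODEL THEOREM for `u = t₃`** (`3 ∣ M`): `Model.HorizUnram S t₃` as
soon as `S` contains `0` and `-27`. -/
theorem horizUnram_t3 (h3M : 3 ∣ M) (E : IntermediateField ℚ Qb) {O : Type*} [CommRing O]
    [Algebra O E] (u : ↥(laurentBaseChange E (modularFunctionFieldFull M)))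
    (hu : (u : LaurentSeries E) = AuxLevel.t3 E) (htr : Transcendental E u)
    [FiniteDimensional (IntermediateField.adjoin E {u})
      ↥(laurentBaseChange E (modularFunctionFieldFull M))]
    (S : Finset O) (h0 : ∃ c ∈ S, algebraMap O E c = 0)
    (h27 : ∃ c ∈ S, algebraMap O E c = -27) :
    Fermat.Agent.S30.Model.HorizUnram (E := E) S u := by
  have _ := htr
  obtain rfl : u = HorizThree.h3E M E h3M := Subtype.ext (hu.trans (coe_h3E_eq M E h3M).symm)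
  exact HorizThree.horizUnram_h3 M E h3M S h0 h27

end Fermat.Agent.S30.Haupt.Horiz
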