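import Mathlib
import Fermat.Prelude.Def_AlgebraicCurve_DivisorClassGroup
import Fermat.Agent.S30.AuxA.CubicOrd

/-!
# H.Tower2 — the cubic Hauptmodul tower `j · t² = (t + 256)³` at the level of places

Generic statement (no modular input): `F / K` a field extension (`K` of characteristic zero),
`j t : F` with `j * t ^ 2 = (t + 256) ^ 3`.  If `j` has the ramification profile of the `j`-line
of a modular curve (unramified outside `0, 1728, ∞`, indices dividing `3` over `0` and `2` over
`1728`), then `t - a` has order `1` at every place where it vanishes, for every `a ≠ 0, -64`.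

Fibres of `t ↦ j`:  `j = 0 ← t = -256 (e = 3)`;  `j = 1728 ← t = 512 (e = 2), t = -64 (e = 1)`;
`j = ∞ ← t = 0 (e = 2), t = ∞ (e = 1)`.

Proof: the special case `L = F` of `AuxA.CubicOrd.cubic_ord_eq_one` (compositum form).
-/

set_option autoImplicit false

namespace Fermat.Agent.S30.Haupt.Tower2

open AlgebraicCurve

/-- **H.Tower2.**  Places of the cubic cover `j · t² = (t + 256)³`: outside `t = 0, -64`
(and `t = ∞`) the function `t - a` is a local parameter wherever it vanishes. -/
theorem cubic_ord_eq_one {K F : Type*} [Field K] [CharZero K] [Field F] [Algebra K F]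
    (j t : F) (hrel : j * t ^ 2 = (t + 256) ^ 3)
    (hg : ∀ b : K, b ≠ 0 → b ≠ 1728 → ∀ v : Place K F,
      0 < v.ord (j - algebraMap K F b) → v.ord (j - algebraMap K F b) = 1)
    (h0 : ∀ v : Place K F, 0 < v.ord j → v.ord j ∣ 3)
    (h1 : ∀ v : Place K F, 0 < v.ord (j - algebraMap K F 1728) →
      v.ord (j - algebraMap K F 1728) ∣ 2)
    (a : K) (ha0 : a ≠ 0) (ha : a ≠ -64) (v : Place K F)
    (hv : 0 < v.ord (t - algebraMap K F a)) : v.ord (t - algebraMap K F a) = 1 := by
  have hgen : IntermediateField.adjoin F {t} = ⊤ :=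
    eq_top_iff.mpr (fun x _ => (IntermediateField.adjoin F {t}).algebraMap_mem x)
  have h1' : ∀ P : Place K F, 0 < P.ord (j - 1728) → P.ord (j - 1728) ∣ 2 := by
    intro P hP
    have e : (1728 : F) = algebraMap K F 1728 := (map_ofNat (algebraMap K F) 1728).symm
    rw [e] at hP ⊢
    exact h1 P hP
  exact Fermat.Agent.S30.AuxA.CubicOrd.cubic_ord_eq_one (K := K) (F := F) (L := F) j t hgen
    hrel.symm h0 h1' hg v a ha0 ha hv

end Fermat.Agent.S30.Haupt.Tower2
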