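import Mathlib
import Fermat.Prelude.Def_AlgebraicCurve_DivisorClassGroup
import Fermat.Agent.S24.FF.Ord

/-!
# H.Tower3 — the quartic Hauptmodul tower `j · t³ = (t + 27)(t + 243)³` at the level of places

Generic statement (no modular input): `F / K` a field extension (`K` of characteristic zero),
`j t : F` with `j * t ^ 3 = (t + 27) * (t + 243) ^ 3`.  If `j` has the ramification profile of
the `j`-line of a modular curve (unramified outside `0, 1728, ∞`, indices dividing `3` over `0`
and `2` over `1728`), then `t - a` has order `1` at every place where it vanishes, for every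
`a ≠ 0, -27`.

Fibres of `t ↦ j`:  `j = 0 ← t = -27 (e = 1), t = -243 (e = 3)`;
`j = 1728 ← roots of X² - 486 X - 19683 (e = 2 each)`;  `j = ∞ ← t = 0 (e = 3), t = ∞ (e = 1)`.
-/

set_option autoImplicit false

namespace Fermat.Agent.S30.Haupt.Tower3

open AlgebraicCurve Fermat.Agent.S24.FF

section Aux

variable {K F : Type*} [Field K] [Field F] [Algebra K F] (v : Place K F)

theorem ord_npow (f : F) (n : ℕ) : v.ord (f ^ n) = n * v.ord f := by
  have h := v.ord_zpow f (n : ℤ)
  rwa [zpow_natCast] at h

theorem ne_zero_of_ord_pos {y : F} (hy : 0 < v.ord y) : y ≠ 0 := by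
  rintro rfl
  rw [Place.ord_zero] at hy
  exact lt_irrefl _ hy

/-- unit + (element of the maximal ideal) is a unit. -/
theorem ord_add_of_unit {x y : F} (hx0 : x ≠ 0) (hx : v.ord x = 0) (hy : 0 < v.ord y) :
    v.ord (x + y) = 0 ∧ x + y ≠ 0 := by
  have hy0 := ne_zero_of_ord_pos v hy
  refine ⟨?_, ?_⟩
  · rw [ord_add_eq_of_lt v (by omega) hx0 hy0, hx]
  · intro h
    have hyx : y = -x := by linear_combination h
    rw [hyx, ord_neg, hx] at hy
    exact lt_irrefl _ hy

/-- unit + (element of the maximal ideal) * (integral element) is a unit. -/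
theorem ord_add_mul_of_unit {x y r : F} (hx0 : x ≠ 0) (hx : v.ord x = 0) (hy : 0 < v.ord y)
    (hr : r ∈ v.toValuationSubring) : v.ord (x + y * r) = 0 ∧ x + y * r ≠ 0 := by
  rcases eq_or_ne r 0 with rfl | hr0
  · rw [mul_zero, add_zero]
    exact ⟨hx, hx0⟩
  · have hy0 := ne_zero_of_ord_pos v hy
    have hpos : 0 < v.ord (y * r) := by
      rw [v.ord_mul hy0 hr0]
      have := ord_nonneg_of_mem v hr
      omega
    exact ord_add_of_unit v hx0 hx hpos

/-- A nonzero constant is a unit at every place. -/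
theorem ord_const {c : K} (hc : c ≠ 0) :
    v.ord (algebraMap K F c) = 0 ∧ algebraMap K F c ≠ 0 :=
  ⟨ord_algebraMap v c, by simpa using hc⟩

end Aux

/-- **H.Tower3.**  Places of the quartic cover `j · t³ = (t + 27)(t + 243)³`: outside
`t = 0, -27` (and `t = ∞`) the function `t - a` is a local parameter wherever it vanishes. -/
theorem quartic_ord_eq_one {K F : Type*} [Field K] [CharZero K] [Field F] [Algebra K F]
    (j t : F) (hrel : j * t ^ 3 = (t + 27) * (t + 243) ^ 3)
    (hg : ∀ b : K, b ≠ 0 → b ≠ 1728 → ∀ v : Place K F,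
      0 < v.ord (j - algebraMap K F b) → v.ord (j - algebraMap K F b) = 1)
    (h0 : ∀ v : Place K F, 0 < v.ord j → v.ord j ∣ 3)
    (h1 : ∀ v : Place K F, 0 < v.ord (j - algebraMap K F 1728) →
      v.ord (j - algebraMap K F 1728) ∣ 2)
    (a : K) (ha0 : a ≠ 0) (ha : a ≠ -27) (v : Place K F)
    (hv : 0 < v.ord (t - algebraMap K F a)) : v.ord (t - algebraMap K F a) = 1 := by
  -- notation
  set a' : F := algebraMap K F a with ha'
  set y : F := t - a' with hy
  have hy0 : y ≠ 0 := ne_zero_of_ord_pos v hv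
  have ha'mem : a' ∈ v.toValuationSubring := v.algebraMap_mem' a
  have hymem : y ∈ v.toValuationSubring := mem_of_ord_pos v hv
  have ht : t = a' + y := by rw [hy]; ring
  -- `t` is a unit at `v`
  obtain ⟨hta, hta0⟩ := ord_const v ha0
  obtain ⟨htord, ht0⟩ : v.ord t = 0 ∧ t ≠ 0 := by
    rw [ht]; exact ord_add_of_unit v hta0 hta hv
  have ht3 : v.ord (t ^ 3) = 0 := by rw [ord_npow, htord, mul_zero]
  have ht3ne : t ^ 3 ≠ 0 := pow_ne_zero 3 ht0
  have hn : 0 < v.ord y := hv
  by_cases h243 : a = -243
  · -- the point `t = -243` over `j = 0`, ramification index 3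
    have ha'243 : a' = -243 := by rw [ha', h243]; simp only [map_neg, map_ofNat]
    have e1 : t + 243 = y := by rw [hy, ha'243]; ring
    have e2 : t + 27 = algebraMap K F (-216) + y := by
      rw [hy, ha'243]; simp only [map_neg, map_ofNat]; ring
    obtain ⟨h27ord, h27ne⟩ : v.ord (t + 27) = 0 ∧ t + 27 ≠ 0 := by
      rw [e2]
      obtain ⟨hc, hc0⟩ := ord_const v (c := (-216 : K)) (by norm_num)
      exact ord_add_of_unit v hc0 hc hv
    have hrel' : j * t ^ 3 = (t + 27) * y ^ 3 := by rw [hrel, e1]
    have hy3ne : y ^ 3 ≠ 0 := pow_ne_zero 3 hy0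
    have hj0 : j ≠ 0 := by
      rintro rfl
      rw [zero_mul] at hrel'
      exact (mul_ne_zero h27ne hy3ne) hrel'.symm
    have hord : v.ord j = 3 * v.ord y := by
      have h := congrArg v.ord hrel'
      rw [v.ord_mul hj0 ht3ne, v.ord_mul h27ne hy3ne, ht3, h27ord, ord_npow] at h
      push_cast at h
      omega
    have hdvd := h0 v (by omega)
    rw [hord] at hdvd
    have h3 : v.ord y ∣ 1 := by
      have h' : (3 : ℤ) * v.ord y ∣ 3 * 1 := by rwa [mul_one]
      exact (mul_dvd_mul_iff_left (by norm_num)).mp h'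
    exact Int.eq_one_of_dvd_one hn.le h3
  by_cases hquad : a ^ 2 - 486 * a - 19683 = 0
  · -- the two points over `j = 1728`, ramification index 2
    have hne243 : a ≠ 243 := by
      rintro rfl
      norm_num at hquad
    have hquad' : a' ^ 2 - 486 * a' - 19683 = 0 := by
      have h := congrArg (algebraMap K F) hquad
      simp only [map_sub, map_mul, map_pow, map_ofNat, map_zero] at h
      exact h
    have e1 : t - (486 - a') = algebraMap K F (2 * a - 486) + y := by
      rw [hy, ha']; simp only [map_sub, map_mul, map_ofNat]; ring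
    obtain ⟨hoord, hone⟩ : v.ord (t - (486 - a')) = 0 ∧ t - (486 - a') ≠ 0 := by
      rw [e1]
      have hc : (2 * a - 486 : K) ≠ 0 := by
        intro h
        apply hne243
        linear_combination (1 / 2 : K) * h
      obtain ⟨hc1, hc0⟩ := ord_const v hc
      exact ord_add_of_unit v hc0 hc1 hv
    have hrel' : (j - algebraMap K F 1728) * t ^ 3 = (y * (t - (486 - a'))) ^ 2 := by
      have h1728 : algebraMap K F 1728 = 1728 := map_ofNat _ _
      rw [h1728, hy]
      linear_combination hrel
        + (2 * (t ^ 2 - 486 * t - 19683) - (a' ^ 2 - 486 * a' - 19683)) * hquad'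
    have hprod : y * (t - (486 - a')) ≠ 0 := mul_ne_zero hy0 hone
    have hj0 : j - algebraMap K F 1728 ≠ 0 := by
      intro h
      rw [h, zero_mul] at hrel'
      exact (pow_ne_zero 2 hprod) hrel'.symm
    have hord : v.ord (j - algebraMap K F 1728) = 2 * v.ord y := by
      have h := congrArg v.ord hrel'
      rw [v.ord_mul hj0 ht3ne, ht3, ord_npow, v.ord_mul hy0 hone, hoord] at h
      push_cast at h
      omega
    have hdvd := h1 v (by omega)
    rw [hord] at hdvd
    have h3 : v.ord y ∣ 1 := by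
      have h' : (2 : ℤ) * v.ord y ∣ 2 * 1 := by rwa [mul_one]
      exact (mul_dvd_mul_iff_left (by norm_num)).mp h'
    exact Int.eq_one_of_dvd_one hn.le h3
  · -- generic point: `j - b` has a simple zero, `b = j(a)`
    have h27 : a + 27 ≠ 0 := fun h => ha (by linear_combination h)
    have h243' : a + 243 ≠ 0 := fun h => h243 (by linear_combination h)
    set b : K := (a + 27) * (a + 243) ^ 3 / a ^ 3 with hb
    have ha3 : a ^ 3 ≠ 0 := pow_ne_zero 3 ha0
    have hba : b * a ^ 3 = (a + 27) * (a + 243) ^ 3 := by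
      rw [hb, div_mul_cancel₀ _ ha3]
    have hb0 : b ≠ 0 := by
      rw [hb]
      exact div_ne_zero (mul_ne_zero h27 (pow_ne_zero 3 h243')) ha3
    have hb1728 : b ≠ 1728 := by
      intro h
      rw [h] at hba
      apply hquad
      have hsq : (a ^ 2 - 486 * a - 19683) ^ 2 = 0 := by linear_combination -hba
      exact pow_eq_zero_iff (two_ne_zero) |>.mp hsq
    set b' : F := algebraMap K F b with hb'
    have hba' : b' * a' ^ 3 = (a' + 27) * (a' + 243) ^ 3 := by
      have h := congrArg (algebraMap K F) hba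
      simp only [map_add, map_mul, map_pow, map_ofNat] at h
      exact h
    -- the Taylor expansion of `G_a` at `a`
    set c : K := a ^ 2 * (a + 243) ^ 2 * (a ^ 2 - 486 * a - 19683) with hc
    have hc0 : c ≠ 0 := by
      rw [hc]
      exact mul_ne_zero (mul_ne_zero (pow_ne_zero 2 ha0) (pow_ne_zero 2 h243')) hquad
    set r : F := (a' ^ 3 * (3 * (a' + 27) * (a' + 243) + 3 * (a' + 243) ^ 2)
        - 3 * a' * (a' + 27) * (a' + 243) ^ 3)
      + y * (a' ^ 3 * ((a' + 27) + 3 * (a' + 243)) - (a' + 27) * (a' + 243) ^ 3)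
      + y ^ 2 * a' ^ 3 with hr
    have hrmem : r ∈ v.toValuationSubring := by
      have h3 : (3 : F) ∈ v.toValuationSubring := ofNat_mem _ 3
      have h27m : (27 : F) ∈ v.toValuationSubring := ofNat_mem _ 27
      have h243m : (243 : F) ∈ v.toValuationSubring := ofNat_mem _ 243
      have hp : a' + 27 ∈ v.toValuationSubring := add_mem ha'mem h27m
      have hs : a' + 243 ∈ v.toValuationSubring := add_mem ha'mem h243m
      rw [hr]
      refine add_mem (add_mem (sub_mem (mul_mem (pow_mem ha'mem 3) (add_mem (mul_mem (mul_mem h3 hp) hs)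
        (mul_mem h3 (pow_mem hs 2)))) (mul_mem (mul_mem (mul_mem h3 ha'mem) hp) (pow_mem hs 3)))
        (mul_mem hymem (sub_mem (mul_mem (pow_mem ha'mem 3) (add_mem hp (mul_mem h3 hs)))
          (mul_mem hp (pow_mem hs 3))))) (mul_mem (pow_mem hymem 2) (pow_mem ha'mem 3))
    have hkey : a' ^ 3 * t ^ 3 * (j - b') = y * (algebraMap K F c + y * r) := by
      have hcmap : algebraMap K F c = a' ^ 2 * (a' + 243) ^ 2 * (a' ^ 2 - 486 * a' - 19683) := by
        rw [hc, ha']; simp only [map_add, map_sub, map_mul, map_pow, map_ofNat]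
      rw [hcmap, hr, hy]
      linear_combination a' ^ 3 * hrel - t ^ 3 * hba'
    obtain ⟨hc1, hcne⟩ := ord_const v hc0
    obtain ⟨hQord, hQne⟩ := ord_add_mul_of_unit v hcne hc1 hv hrmem
    have ha'3 : v.ord (a' ^ 3) = 0 := by rw [ord_npow, hta, mul_zero]
    have ha'3ne : a' ^ 3 ≠ 0 := pow_ne_zero 3 hta0
    have hjb : j - b' ≠ 0 := by
      intro h
      rw [h, mul_zero] at hkey
      exact (mul_ne_zero hy0 hQne) hkey.symm
    have hord : v.ord (j - b') = v.ord y := by
      have h := congrArg v.ord hkey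
      rw [v.ord_mul (mul_ne_zero ha'3ne ht3ne) hjb, v.ord_mul ha'3ne ht3ne, ha'3, ht3,
        v.ord_mul hy0 hQne, hQord] at h
      omega
    have h := hg b hb0 hb1728 v (by rw [hb'] at hord; omega)
    rw [hb'] at hord
    omega

end Fermat.Agent.S30.Haupt.Tower3
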